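import Fermat.Agent.EichlerShimura.Congruence
import Fermat.Prelude.Def_HeckeGalois_EichlerShimura
import Fermat.Agent.Arith.RootsOfUnity

/-!
# The special fibre of `J₀(N)` at a prime of good reduction

The result is `specializationExists` (used for S37): at `ℓ ∤ N p` some quotient of `J₀(N)(ℚ̄)` by
a Hecke stable subgroup plays the part of the special fibre. The argument:

1. Modulo `ℓ` the reduction map is fixed by inertia and turns Frobenius into the Frobenius of the
   fibre, for which the congruence relation (`Congruence`) gives `F² - T_ℓ F + ℓ = 0`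
   (`reductionModL_quadratic`).
2. `InjectiveOnTorsion` (proved in `RedTorsion/InjTorsion`) moves both facts up to the torsion
   prime to `ℓ`: inertia fixes it and Frobenius satisfies the relation there.
3. The specialisation is the quotient of `J₀(N)(ℚ̄)` by the largest Hecke stable subgroup `K`
   killed by reduction. Frobenius preserves `K`, inertia is trivial on the quotient, `p`-power
   torsion meets `K` trivially by 2, and the relation holds there by 1.
-/

set_option autoImplicit false

noncomputable section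

open ModularCurve

namespace Fermat.Agent.EichlerShimura

local notation "Qb" => AlgebraicClosure ℚ
local notation "GalQ" => AlgebraicClosure ℚ ≃ₐ[ℚ] AlgebraicClosure ℚ

/-! ## Reduction and torsion -/

/-- Reduction is injective on torsion prime to the residue characteristic. -/
def InjectiveOnTorsion (N : ℕ) [NeZero N] : Prop :=
  ∀ {ℓ : ℕ} [Fact ℓ.Prime], ¬ ℓ ∣ N → ∀ A : ValuationSubring Qb, A.LiesOverPrime ℓ →
    ReductionInputsModL A N → ∀ m : ℕ, ¬ ℓ ∣ m → ∀ z : JZero N, m • z = 0 →
      reductionModL A N z = 0 → z = 0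

variable {N ℓ : ℕ} [NeZero N] {A : ValuationSubring Qb}

omit [NeZero N] in
/-- Galois commutes with multiplication by integers on the Jacobian. -/
theorem galois_smul_nsmul (σ : GalQ) (m : ℕ) (x : JZero N) : σ • m • x = m • σ • x :=
  map_nsmul (DistribSMul.toAddMonoidHom (JZero N) σ) m x

omit [NeZero N] in
/-- Galois fixes zero on the Jacobian. -/
theorem galois_smul_zero (σ : GalQ) : σ • (0 : JZero N) = 0 :=
  map_zero (DistribSMul.toAddMonoidHom (JZero N) σ)

omit [NeZero N] in
/-- For `ℓ ∤ N` and a place over `ℓ` the level is nonzero in the residue field. -/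
theorem natCast_ne_zero (hℓ : ℓ.Prime) (hℓN : ¬ ℓ ∣ N) (hA : A.LiesOverPrime ℓ) :
    (N : Kappa A) ≠ 0 :=
  Arith.natCast_residue_ne_zero hA hℓ hℓN

/-! ## Inertia and Frobenius -/

/-- `F² - T_ℓ F + ℓ` dies in the reduction. -/
theorem reductionModL_quadratic (hℓ : ℓ.Prime) (hℓN : ¬ ℓ ∣ N) (hA : A.LiesOverPrime ℓ)
    {σ : GalQ} (hσ : A.IsFrobeniusAt σ ℓ) (x : JZero N) :
    reductionModL A N (σ • σ • x - heckeOperatorBar N ⟨ℓ, hℓ⟩ (σ • x) + ℓ • x) = 0 := by
  have := Fact.mk hℓ
  have : NeZero ℓ := ⟨hℓ.ne_zero⟩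
  have := Arith.residueField_charP hA hℓ
  have := Arith.residueField_isAlgClosed A
  have hNA := natCast_ne_zero hℓ hℓN hA
  rw [map_add, map_sub, map_nsmul, reductionModL_hecke hNA hℓN,
    reductionModL_frobenius hNA hσ (σ • x), reductionModL_frobenius hNA hσ x, inv_smul_smul]
  abel

/-- Inertia fixes the prime-to-`ℓ` torsion. -/
theorem inertia_smul_torsion (hinj : InjectiveOnTorsion N) (hℓ : ℓ.Prime) (hℓN : ¬ ℓ ∣ N)
    (hA : A.LiesOverPrime ℓ) {σ : GalQ} (hσ : σ ∈ A.inertiaSubgroupIn ℚ) {m : ℕ} (hm : ¬ ℓ ∣ m)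
    {x : JZero N} (hx : m • x = 0) : σ • x = x := by
  have := Fact.mk hℓ
  have := Arith.residueField_isAlgClosed A
  have hNA := natCast_ne_zero hℓ hℓN hA
  refine sub_eq_zero.mp (hinj hℓN A hA (reductionInputsModL hNA) m hm _ ?_ ?_)
  · rw [nsmul_sub, ← galois_smul_nsmul σ m x, hx, galois_smul_zero, sub_zero]
  · rw [map_sub, reductionModL_inertia hNA hσ, sub_self]

/-- Frobenius satisfies `F² - T_ℓ F + ℓ = 0` on the prime-to-`ℓ` torsion. -/
theorem frobenius_smul_torsion (hinj : InjectiveOnTorsion N) (hℓ : ℓ.Prime) (hℓN : ¬ ℓ ∣ N)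
    (hA : A.LiesOverPrime ℓ) {σ : GalQ} (hσ : A.IsFrobeniusAt σ ℓ) {m : ℕ} (hm : ¬ ℓ ∣ m)
    {x : JZero N} (hx : m • x = 0) :
    σ • σ • x - heckeOperatorBar N ⟨ℓ, hℓ⟩ (σ • x) + ℓ • x = 0 := by
  have := Fact.mk hℓ
  have := Arith.residueField_isAlgClosed A
  have hσx : m • σ • x = 0 := by rw [← galois_smul_nsmul σ m x, hx, galois_smul_zero]
  refine hinj hℓN A hA (reductionInputsModL (natCast_ne_zero hℓ hℓN hA)) m hm _ ?_
    (reductionModL_quadratic hℓ hℓN hA hσ x)
  rw [nsmul_add, nsmul_sub, ← galois_smul_nsmul σ m (σ • x), hσx, galois_smul_zero, ← map_nsmul,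
    hσx, map_zero, sub_zero, zero_add, smul_comm m ℓ x, hx, smul_zero]

/-! ## The specialisation -/

/-- **Eichler–Shimura**: given injectivity of reduction on torsion, at every `ℓ ∤ N p` some quotient
of `J₀(N)(ℚ̄)` by a Hecke stable subgroup meeting the `p`-power torsion trivially has trivial
inertia and satisfies the congruence relation. -/
theorem specializationExists (hinj : InjectiveOnTorsion N) (p : ℕ)
    (hcomm : HeckeOperatorsCommuteBar N) :
    letI := heckeModuleBar N
    ∀ (_ : SMulCommClass GalQ HeckeAlg (JZero N)),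
      SpecializationExists (K := ℚ) (L := Qb) N p (JZero N) := by
  let _ := heckeModuleBar N
  intro _ ℓ hℓ hℓNp A hA
  have hℓN : ¬ ℓ ∣ N := fun h => hℓNp (h.mul_right p)
  have hℓp : ¬ ℓ ∣ p := fun h => hℓNp (h.mul_left N)
  have := Fact.mk hℓ
  have := Arith.residueField_charP hA hℓ
  have := Arith.residueField_isAlgClosed A
  have hNA := natCast_ne_zero hℓ hℓN hA
  obtain ⟨σ₀, hσ₀⟩ := Arith.exists_isFrobeniusAt hA hℓ
  set sp := reductionModL A N with hsp
  -- `K` is the largest Hecke stable subgroup killed by reduction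
  let K : Submodule HeckeAlg (JZero N) :=
    { carrier := {x | ∀ t : HeckeAlg, sp (t • x) = 0}
      add_mem' := fun hx hy t => by rw [smul_add, map_add, hx t, hy t, add_zero]
      zero_mem' := fun t => by rw [smul_zero, map_zero]
      smul_mem' := fun s x hx t => by rw [smul_smul]; exact hx _ }
  -- a Frobenius element is Hecke linear and preserves `K`, so it acts on the quotient
  let τ : JZero N →ₗ[HeckeAlg] JZero N :=
    { toFun := fun x => σ₀ • x
      map_add' := smul_add σ₀
      map_smul' := fun t x => smul_comm σ₀ t x }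
  have hτ : K ≤ K.comap τ := fun x hx t => by
    show sp (t • σ₀ • x) = 0
    rw [← smul_comm σ₀ t x, hsp, reductionModL_frobenius hNA hσ₀, ← hsp, hx t]
    exact map_zero (DistribSMul.toAddMonoidHom (JZeroC (Kappa A) N) (coeffAut N (frobRing A ℓ)))
  refine ⟨JZero N ⧸ K, inferInstance, inferInstance, K.mkQ.toAddMonoidHom,
    (K.mapQ K τ hτ).toAddMonoidHom, ⟨fun T x => map_smul K.mkQ T x, fun σ hσ x => ?_,
      fun σ hσ x => ?_, fun x hx h => ?_⟩, fun y => ?_⟩
  · -- inertia is trivial on the quotient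
    refine (Submodule.Quotient.eq K).mpr fun t => ?_
    rw [smul_sub, map_sub, ← smul_comm σ t x, hsp, reductionModL_inertia hNA hσ, sub_self]
  · -- all Frobenius elements at `A` agree on it
    refine (Submodule.Quotient.eq K).mpr fun t => ?_
    show sp (t • (σ • x - σ₀ • x)) = 0
    rw [smul_sub, map_sub, ← smul_comm σ t x, ← smul_comm σ₀ t x, hsp,
      reductionModL_frobenius hNA hσ, reductionModL_frobenius hNA hσ₀, sub_self]
  · -- the `p`-power torsion injects
    obtain ⟨n, hn⟩ := hx
    refine hinj hℓN A hA (reductionInputsModL hNA) (p ^ n) (fun h =>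
      hℓp (hℓ.dvd_of_dvd_pow h)) x hn ?_
    have := (Submodule.Quotient.mk_eq_zero K).mp h 1
    rwa [one_smul] at this
  · -- the congruence relation
    obtain ⟨x, rfl⟩ := Submodule.Quotient.mk_surjective K y
    show (K.mapQ K τ hτ) (K.mapQ K τ hτ (Submodule.Quotient.mk x)) -
      heckeGen ⟨ℓ, hℓ⟩ • K.mapQ K τ hτ (Submodule.Quotient.mk x) + ℓ • Submodule.Quotient.mk x = 0
    simp only [Submodule.mapQ_apply, ← Submodule.Quotient.mk_smul, ← Submodule.Quotient.mk_sub,
      ← Submodule.Quotient.mk_add]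
    rw [Submodule.Quotient.mk_eq_zero]
    intro t
    show sp (t • (σ₀ • σ₀ • x - heckeGen ⟨ℓ, hℓ⟩ • σ₀ • x + ℓ • x)) = 0
    rw [smul_add, smul_sub, ← smul_comm σ₀ t (σ₀ • x), ← smul_comm σ₀ t x,
      smul_comm t (heckeGen ⟨ℓ, hℓ⟩) (σ₀ • x), ← smul_comm σ₀ t x,
      heckeModuleBar_heckeGen_smul hcomm, smul_comm t ℓ x, hsp]
    exact reductionModL_quadratic hℓ hℓN hA hσ₀ (t • x)

end Fermat.Agent.EichlerShimura
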