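import Fermat.Prelude.Def_ModularCurve_X0ModL
import Mathlib.RingTheory.PowerSeries.Expand

/-!
# Frobenius on Laurent series
-/

set_option autoImplicit false

noncomputable section

open ModularCurve

namespace Fermat.Agent.EichlerShimura

variable {k : Type*} [CommRing k] (l : ℕ) [NeZero l]

theorem qExpand_ofPowerSeries (g : PowerSeries k) :
    qExpand k l (HahnSeries.ofPowerSeries ℤ k g) =
      HahnSeries.ofPowerSeries ℤ k (PowerSeries.expand l (NeZero.ne l) g) := by
  have hl : (0 : ℤ) < l := by exact_mod_cast Nat.pos_of_ne_zero (NeZero.ne l)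
  ext n
  by_cases hn : (l : ℤ) ∣ n
  · obtain ⟨m, rfl⟩ := hn
    rw [qExpand_coeff_mul]
    rcases le_or_gt 0 m with hm | hm
    · lift m to ℕ using hm
      rw [show (l : ℤ) * (m : ℤ) = ((l * m : ℕ) : ℤ) by push_cast; rfl,
        HahnSeries.ofPowerSeries_apply_coeff, HahnSeries.ofPowerSeries_apply_coeff,
        PowerSeries.coeff_expand_mul]
    · rw [ofPowerSeries_coeff_of_neg _ hm,
        ofPowerSeries_coeff_of_neg _ (mul_neg_of_pos_of_neg hl hm)]
  · rw [qExpand_coeff_of_not_dvd l _ hn]
    rcases le_or_gt 0 n with hm | hm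
    · lift n to ℕ using hm
      rw [HahnSeries.ofPowerSeries_apply_coeff, PowerSeries.coeff_expand_of_not_dvd]
      exact fun h => hn (by exact_mod_cast h)
    · rw [ofPowerSeries_coeff_of_neg _ hm]

variable [ExpChar k l]

/-- In characteristic `l`, `f(q)^l` is the Frobenius twist of `f(q^l)`. -/
theorem coeffMap_frobenius_qExpand (f : LaurentSeries k) :
    coeffMap (frobenius k l) (qExpand k l f) = f ^ l := by
  conv_rhs => rw [← f.single_order_mul_powerSeriesPart]
  conv_lhs => rw [← f.single_order_mul_powerSeriesPart]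
  have he : PowerSeries.map (frobenius k l) (PowerSeries.expand l (NeZero.ne l) f.powerSeriesPart) =
      f.powerSeriesPart ^ l :=
    MvPowerSeries.map_frobenius_expand (p := l) (NeZero.ne l)
  rw [map_mul, map_mul, mul_pow, qExpand_single, coeffMap_single, map_one, qExpand_ofPowerSeries,
    coeffMap_ofPowerSeries, he, map_pow, HahnSeries.single_pow, one_pow, nsmul_eq_mul]

/-- In characteristic `l` the `l`-th power is Frobenius on coefficients followed by `q ↦ q^l`. -/
theorem pow_eq_qExpand_frobenius (f : LaurentSeries k) :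
    f ^ l = qExpand k l (coeffMap (frobenius k l) f) := by
  rw [← coeffMap_frobenius_qExpand l f]
  ext n
  by_cases hn : (l : ℤ) ∣ n
  · obtain ⟨m, rfl⟩ := hn
    rw [coeffMap_coeff, qExpand_coeff_mul, qExpand_coeff_mul, coeffMap_coeff]
  · rw [coeffMap_coeff, qExpand_coeff_of_not_dvd l _ hn, qExpand_coeff_of_not_dvd l _ hn,
      map_zero]

end Fermat.Agent.EichlerShimura
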