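import Fermat.Agent.EichlerShimura.Disc

/-!
# Constants in the Gauss ring, and units
-/

set_option autoImplicit false

noncomputable section

open Polynomial IsLocalRing

namespace Fermat.Agent.EichlerShimura

variable {L : Type*} [Field L] {A : ValuationSubring L}

/-- The inclusion into `L(X)` sends a constant to the constant. -/
theorem ratIncl_C (a : A) : ratIncl A (C a) = RatFunc.C (a : L) := by
  simp [ratIncl, polyIncl]

/-- The reduction of a constant is its residue. -/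
theorem ratBar_C (a : A) : ratBar A (C a) = RatFunc.C (residue A a) := by
  simp [ratBar, polyBar]

/-- Constants from `A` are Gauss-integral. -/
theorem C_mem_Og {c : L} (hc : c ∈ A) : RatFunc.C c ∈ Og A :=
  ⟨C ⟨c, hc⟩, 1, (unitPolys A).one_mem, by rw [map_one, mul_one, ratIncl_C]⟩

/-- Constants from `A` lie in every `Lam A T`. -/
theorem C_mem_Lam {c : L} (hc : c ∈ A) (T : Set (Kappa A)) : RatFunc.C c ∈ Lam A T :=
  ⟨C ⟨c, hc⟩, 1, (diskPolys A T).one_mem, by rw [map_one, mul_one, ratIncl_C]⟩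

/-- The Gauss reduction of a constant is the residue of the constant. -/
theorem redG_C {c : L} (hc : c ∈ A) :
    redG A ⟨RatFunc.C c, C_mem_Og hc⟩ = RatFunc.C (residue A ⟨c, hc⟩) := by
  rw [redG_eq (p := C ⟨c, hc⟩) (q := 1) _ (by simp) (by rw [map_one, mul_one, ratIncl_C]),
    map_one, div_one, ratBar_C]

theorem inv_mem_Og {f : RatFunc L} (hf : f ∈ Og A) (h : redG A ⟨f, hf⟩ ≠ 0) : f⁻¹ ∈ Og A := by
  obtain ⟨p, q, hq, hpq⟩ := mem_Og.mp hf
  have hp : polyBar A p ≠ 0 := fun h0 => h (by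
    rw [redG_eq ⟨f, hf⟩ hq hpq, ratBar_eq_zero_iff.mpr h0, zero_div])
  refine ⟨q, p, hp, ?_⟩
  rcases eq_or_ne f 0 with rfl | hf0
  · exact absurd (map_zero (redG A)) h
  · rw [← hpq, inv_mul_cancel_left₀ hf0]

theorem exists_scale_ratFunc {f : RatFunc L} (hf : f ≠ 0) :
    ∃ c : L, c ≠ 0 ∧ ∃ g, ∃ hg : g ∈ Og A, f = RatFunc.C c * g ∧ redG A ⟨g, hg⟩ ≠ 0 := by
  obtain ⟨a, ha, p, hp, hp'⟩ := exists_scale (A := A) (RatFunc.num_ne_zero hf)
  obtain ⟨d, hd, q, hq, hq'⟩ := exists_scale (A := A) (RatFunc.denom_ne_zero f)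
  have hq0 : ratIncl A q ≠ 0 :=
    (map_ne_zero_iff _ ratIncl_injective).mpr fun h => hq' (by rw [h, map_zero])
  have hg : ratIncl A p / ratIncl A q ∈ Og A := ⟨p, q, hq', div_mul_cancel₀ _ hq0⟩
  refine ⟨a / d, div_ne_zero ha hd, _, hg, ?_, ?_⟩
  · conv_lhs => rw [← RatFunc.num_div_denom f]
    rw [hp, hq, map_mul, map_mul, RatFunc.algebraMap_C, RatFunc.algebraMap_C, map_div₀,
      div_mul_div_comm]
    rfl
  · rw [redG_eq ⟨_, hg⟩ hq' (div_mul_cancel₀ _ hq0)]
    exact div_ne_zero (fun h => hp' (ratBar_eq_zero_iff.mp h)) (ratBar_ne_zero_of_mem hq')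

/-- The reduction of an element of the semilocal ring is regular at each point of `T`. -/
theorem redG_mem_Loc {T : Set (Kappa A)} {t : Kappa A} (ht : t ∈ T) {f : RatFunc L}
    (hf : f ∈ Lam A T) : redG A ⟨f, Lam_le_Og T hf⟩ ∈ Loc t := by
  obtain ⟨p, q, hq, h⟩ := mem_Lam.mp hf
  refine ⟨polyBar A p, polyBar A q, hq.2 t ht, ?_⟩
  have := redG_mul_bar (Lam_le_Og T hf) hq.1 h
  simpa [ratBar] using this

end Fermat.Agent.EichlerShimura
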