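import Fermat.Agent.EichlerShimura.Integral
import Fermat.Agent.EichlerShimura.Consts
import Mathlib.RingTheory.Discriminant

/-!
# Algebras over `L(X)` with good reduction for the Gauss valuation

A `Model` is an algebra with a basis whose structure constants are Gauss-integral and reduce to
those of a basis of an algebra over `k(X)` with nonzero discriminant.
-/

set_option autoImplicit false

noncomputable section

open Polynomial IsLocalRing

namespace Fermat.Agent.EichlerShimura

section Duality

variable {K : Type*} [Field K] {E : Type*} [CommRing E] [Algebra K E] {ι : Type*} [Fintype ι]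
  [DecidableEq ι]

theorem linearIndependent_of_discr_ne_zero {z : ι → E} (h : Algebra.discr K z ≠ 0) :
    LinearIndependent K z := by
  by_contra hli
  exact h (Algebra.discr_zero_of_not_linearIndependent K hli)

/-- Coordinates of integral elements in an integral system with unit discriminant. -/
theorem exists_coords_mem {R : Subring K} (hR : IntClosedIn R) (b : Module.Basis ι K E) {z : ι → E}
    (hz : ∀ i, IsIntegral R (z i)) (hd : Algebra.discr K z ≠ 0) (hdi : (Algebra.discr K z)⁻¹ ∈ R)
    {y : E} (hy : IsIntegral R y) :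
    ∃ c : ι → K, (∀ i, c i ∈ R) ∧ y = ∑ i, c i • z i := by
  have : Module.Finite K E := Module.Finite.of_basis b
  let B : Module.Basis ι K E := Module.Basis.mk (linearIndependent_of_discr_ne_zero hd) (by
    rw [(linearIndependent_of_discr_ne_zero hd).span_eq_top_of_card_eq_finrank'
      (Module.finrank_eq_card_basis b).symm])
  have hBz : ⇑B = z := Module.Basis.coe_mk _ _
  have hrepr : y = ∑ i, B.repr y i • z i := by rw [← hBz, B.sum_repr]
  refine ⟨fun i => B.repr y i, fun i => ?_, hrepr⟩
  set v : ι → K := fun i => Algebra.trace K E (z i * y) with hv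
  have hMc : (Algebra.traceMatrix K z).mulVec (fun i => B.repr y i) = v := by
    funext i
    rw [hv]
    simp only [Matrix.mulVec, dotProduct, Algebra.traceMatrix_apply, Algebra.traceForm_apply]
    conv_rhs => rw [hrepr, Finset.mul_sum, map_sum]
    refine Finset.sum_congr rfl fun j _ => ?_
    rw [mul_smul_comm, map_smul, smul_eq_mul, mul_comm]
  have hunit : IsUnit (Algebra.traceMatrix K z).det := isUnit_iff_ne_zero.mpr hd
  have hc : (fun i => B.repr y i) = (Algebra.traceMatrix K z)⁻¹.mulVec v := by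
    rw [← hMc, Matrix.mulVec_mulVec, Matrix.nonsing_inv_mul _ hunit, Matrix.one_mulVec]
  show B.repr y i ∈ R
  rw [congrFun hc i]
  have hMmem : ∀ a b, Algebra.traceMatrix K z a b ∈ R := fun a b =>
    trace_mem hR ((hz a).mul (hz b))
  refine Subring.sum_mem _ fun j _ => Subring.mul_mem _ ?_ (trace_mem hR ((hz j).mul hy))
  show (Algebra.traceMatrix K z)⁻¹ i j ∈ R
  rw [show (Algebra.traceMatrix K z)⁻¹ i j =
    (Algebra.traceMatrix K z).det⁻¹ * (Algebra.traceMatrix K z).adjugate i j by
      rw [Matrix.inv_def, Ring.inverse_eq_inv']; rfl]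
  refine Subring.mul_mem _ hdi ?_
  rw [Matrix.adjugate_apply]
  let M' : Matrix ι ι R := Matrix.updateRow (fun a b => ⟨_, hMmem a b⟩) j (Pi.single i 1)
  have : (Algebra.traceMatrix K z).updateRow j (Pi.single i 1) = M'.map R.subtype := by
    ext a b
    by_cases ha : a = j
    · subst ha
      by_cases hb : b = i
      · subst hb; simp [M']
      · simp [M', hb]
    · simp [M', Matrix.updateRow_ne ha]
  rw [this, ← RingHom.mapMatrix_apply, ← RingHom.map_det]
  exact (M'.det).2

end Duality

variable {L : Type*} [Field L] (A : ValuationSubring L) (ι : Type*) [Fintype ι]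
  (E : Type*) [CommRing E] [Algebra (RatFunc L) E]
  (Eb : Type*) [CommRing Eb] [Algebra (RatFunc (Kappa A)) Eb]

/-- An algebra over `L(X)` with good reduction. -/
structure Model where
  b : Module.Basis ι (RatFunc L) E
  bb : Module.Basis ι (RatFunc (Kappa A)) Eb
  one_int : ∀ i, b.repr 1 i ∈ Og A
  one_red : ∀ i, redG A ⟨_, one_int i⟩ = bb.repr 1 i
  mul_int : ∀ i j l, b.repr (b i * b j) l ∈ Og A
  mul_red : ∀ i j l, redG A ⟨_, mul_int i j l⟩ = bb.repr (bb i * bb j) l
  disc_ne : ∀ [DecidableEq ι], Algebra.discr (RatFunc (Kappa A)) bb ≠ 0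

namespace Model

variable {A ι E Eb} (M : Model A ι E Eb)

theorem repr_mul (y z : E) (l : ι) :
    M.b.repr (y * z) l = ∑ i, ∑ j, M.b.repr y i * M.b.repr z j * M.b.repr (M.b i * M.b j) l := by
  conv_lhs => rw [← M.b.sum_repr y, ← M.b.sum_repr z, Finset.sum_mul]
  simp only [Finset.mul_sum, map_sum, smul_mul_assoc, mul_smul_comm, map_smul,
    Finsupp.coe_finsetSum, Finsupp.coe_smul, Pi.smul_apply, Finset.sum_apply, smul_eq_mul]
  exact Finset.sum_congr rfl fun i _ => Finset.sum_congr rfl fun j _ => by ring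

/-- The lattice of Gauss-integral elements. -/
def S : Subring E where
  carrier := {y | ∀ i, M.b.repr y i ∈ Og A}
  zero_mem' i := by simp
  one_mem' := M.one_int
  add_mem' {y z} hy hz i := by rw [map_add, Finsupp.add_apply]; exact add_mem (hy i) (hz i)
  neg_mem' {y} hy i := by rw [map_neg, Finsupp.neg_apply]; exact neg_mem (hy i)
  mul_mem' {y z} hy hz l := by
    rw [M.repr_mul]
    exact sum_mem fun i _ => sum_mem fun j _ => mul_mem (mul_mem (hy i) (hz j)) (M.mul_int i j l)

/-- The basis vectors lie in the lattice. -/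
theorem basis_mem (i : ι) : M.b i ∈ M.S := fun j => by
  classical
  rw [M.b.repr_self, Finsupp.single_apply]
  split
  · exact one_mem _
  · exact zero_mem _

/-- Coordinates as elements of the Gauss ring. -/
def co (y : M.S) (i : ι) : Og A := ⟨M.b.repr (y : E) i, y.2 i⟩

/-- The coordinates of a product through the structure constants of the basis. -/
theorem co_mul (y z : M.S) (l : ι) :
    M.co (y * z) l = ∑ i, ∑ j, M.co y i * M.co z j * ⟨_, M.mul_int i j l⟩ := by
  refine Subtype.ext ?_
  refine (M.repr_mul (y : E) (z : E) l).trans ?_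
  simp only [AddSubmonoidClass.coe_finsetSum, MulMemClass.coe_mul]
  rfl

/-- The reduction map. -/
def red : M.S →+* Eb where
  toFun y := ∑ i, redG A (M.co y i) • M.bb i
  map_zero' := by
    refine Finset.sum_eq_zero fun i _ => ?_
    rw [show M.co 0 i = 0 from Subtype.ext (by simp [co]), map_zero, zero_smul]
  map_one' := by
    conv_rhs => rw [← M.bb.sum_repr (1 : Eb)]
    exact Finset.sum_congr rfl fun i _ => by rw [← M.one_red i]; rfl
  map_add' y z := by
    rw [← Finset.sum_add_distrib]
    refine Finset.sum_congr rfl fun i _ => ?_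
    rw [show M.co (y + z) i = M.co y i + M.co z i from Subtype.ext (by simp [co]),
      map_add, add_smul]
  map_mul' y z := by
    rw [Finset.sum_mul]
    simp only [Finset.mul_sum, smul_mul_smul_comm]
    conv_rhs =>
      arg 2; ext i; arg 2; ext j
      rw [← M.bb.sum_repr (M.bb i * M.bb j)]
      simp only [Finset.smul_sum, smul_smul]
    conv_rhs => arg 2; ext i; rw [Finset.sum_comm]
    rw [Finset.sum_comm]
    refine Finset.sum_congr rfl fun l _ => ?_
    rw [co_mul, map_sum, Finset.sum_smul]
    refine Finset.sum_congr rfl fun i _ => ?_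
    rw [map_sum, Finset.sum_smul]
    refine Finset.sum_congr rfl fun j _ => ?_
    rw [map_mul, map_mul, M.mul_red]

theorem red_apply (y : M.S) : M.red y = ∑ i, redG A (M.co y i) • M.bb i := rfl

/-- The coordinates of the reduction are the reductions of the coordinates. -/
theorem repr_red (y : M.S) (i : ι) : M.bb.repr (M.red y) i = redG A (M.co y i) := by
  rw [red_apply, M.bb.repr_sum_self]

/-- The basis reduces to the basis of the reduced algebra. -/
@[simp] theorem red_basis (i : ι) : M.red ⟨M.b i, M.basis_mem i⟩ = M.bb i := by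
  classical
  refine M.bb.ext_elem fun j => ?_
  rw [repr_red, M.bb.repr_self]
  by_cases h : i = j
  · subst h
    rw [Finsupp.single_eq_same, show M.co ⟨M.b i, M.basis_mem i⟩ i = 1 from
      Subtype.ext (by simp [co]), map_one]
  · rw [Finsupp.single_eq_of_ne' h, show M.co ⟨M.b i, M.basis_mem i⟩ j = 0 from
      Subtype.ext (by simp [co, Finsupp.single_eq_of_ne' h]), map_zero]

/-- Gauss-integral functions of `X` lie in the lattice. -/
theorem algebraMap_mem {f : RatFunc L} (hf : f ∈ Og A) : algebraMap (RatFunc L) E f ∈ M.S := by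
  intro i
  rw [Algebra.algebraMap_eq_smul_one, map_smul, Finsupp.smul_apply, smul_eq_mul]
  exact mul_mem hf (M.one_int i)

/-- Reduction commutes with the structure maps. -/
theorem red_algebraMap {f : RatFunc L} (hf : f ∈ Og A) :
    M.red ⟨_, M.algebraMap_mem hf⟩ = algebraMap (RatFunc (Kappa A)) Eb (redG A ⟨f, hf⟩) := by
  refine M.bb.ext_elem fun i => ?_
  have h : M.co ⟨_, M.algebraMap_mem hf⟩ i = ⟨f, hf⟩ * ⟨_, M.one_int i⟩ := Subtype.ext (by
    show M.b.repr (algebraMap (RatFunc L) E f) i = f * M.b.repr 1 i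
    rw [Algebra.algebraMap_eq_smul_one, map_smul, Finsupp.smul_apply, smul_eq_mul])
  rw [repr_red, h, map_mul, M.one_red i, Algebra.algebraMap_eq_smul_one, map_smul,
    Finsupp.smul_apply, smul_eq_mul]

/-- Every combination of the reduced basis with reduced coefficients is a reduction. -/
theorem red_surjective_aux (c : ι → Og A) :
    ∃ y : M.S, M.red y = ∑ i, redG A (c i) • M.bb i := by
  refine ⟨⟨∑ i, (c i : RatFunc L) • M.b i, fun i => ?_⟩, ?_⟩
  · rw [M.b.repr_sum_self]; exact (c i).2
  · rw [red_apply]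
    refine Finset.sum_congr rfl fun i _ => ?_
    congr 2
    exact Subtype.ext (by simp only [co]; rw [M.b.repr_sum_self])

variable [DecidableEq ι]

theorem leftMulMatrix_mem (y : M.S) (i j : ι) :
    Algebra.leftMulMatrix M.b (y : E) i j ∈ Og A := by
  rw [Algebra.leftMulMatrix_eq_repr_mul]
  exact (y * ⟨M.b j, M.basis_mem j⟩ : M.S).2 i

/-- The multiplication matrix over the Gauss ring. -/
def mulMatrix (y : M.S) : Matrix ι ι (Og A) := fun i j => ⟨_, M.leftMulMatrix_mem y i j⟩

theorem map_subtype_mulMatrix (y : M.S) :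
    (M.mulMatrix y).map (Og A).subtype = Algebra.leftMulMatrix M.b (y : E) := rfl

theorem map_redG_mulMatrix (y : M.S) :
    (M.mulMatrix y).map (redG A) = Algebra.leftMulMatrix M.bb (M.red y) := by
  ext i j
  rw [Algebra.leftMulMatrix_eq_repr_mul, ← M.red_basis j, ← map_mul, repr_red, Matrix.map_apply]
  refine congrArg _ (Subtype.ext ?_)
  simp [mulMatrix, co, Algebra.leftMulMatrix_eq_repr_mul]

theorem trace_red (y : M.S) : ∃ h : Algebra.trace (RatFunc L) E (y : E) ∈ Og A,
    redG A ⟨_, h⟩ = Algebra.trace (RatFunc (Kappa A)) Eb (M.red y) := by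
  have h1 : Algebra.trace (RatFunc L) E (y : E) = ((M.mulMatrix y).trace : Og A) := by
    rw [Algebra.trace_eq_matrix_trace M.b, ← M.map_subtype_mulMatrix]
    exact (AddMonoidHom.map_trace (Og A).subtype.toAddMonoidHom _).symm
  refine ⟨h1 ▸ ((M.mulMatrix y).trace).2, ?_⟩
  rw [Algebra.trace_eq_matrix_trace M.bb, ← M.map_redG_mulMatrix]
  refine Eq.trans ?_ (AddMonoidHom.map_trace (redG A).toAddMonoidHom _)
  exact congrArg _ (Subtype.ext h1)

/-- The characteristic polynomial of a lattice element is Gauss-integral and reduces to that of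
its reduction. -/
theorem cpoly_red [Module.Finite (RatFunc L) E] [Module.Finite (RatFunc (Kappa A)) Eb]
    (y : M.S) (i : ℕ) :
    ∃ h : (cpoly (RatFunc L) (y : E)).coeff i ∈ Og A,
      redG A ⟨_, h⟩ = (cpoly (RatFunc (Kappa A)) (M.red y)).coeff i := by
  have h1 : (cpoly (RatFunc L) (y : E)).coeff i =
      (((M.mulMatrix y).charpoly.coeff i : Og A) : RatFunc L) := by
    rw [cpoly_eq M.b, ← M.map_subtype_mulMatrix, Matrix.charpoly_map, coeff_map]
    rfl
  refine ⟨h1 ▸ ((M.mulMatrix y).charpoly.coeff i).2, ?_⟩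
  rw [cpoly_eq M.bb, ← M.map_redG_mulMatrix, Matrix.charpoly_map, coeff_map]
  exact congrArg _ (Subtype.ext h1)

/-- The norm of a lattice element is Gauss-integral and reduces to the norm of the reduction. -/
theorem norm_red (y : M.S) : ∃ h : Algebra.norm (RatFunc L) (y : E) ∈ Og A,
    redG A ⟨_, h⟩ = Algebra.norm (RatFunc (Kappa A)) (M.red y) := by
  have h1 : Algebra.norm (RatFunc L) (y : E) = (((M.mulMatrix y).det : Og A) : RatFunc L) := by
    rw [Algebra.norm_eq_matrix_det M.b, ← M.map_subtype_mulMatrix]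
    exact (RingHom.map_det (Og A).subtype _).symm
  refine ⟨h1 ▸ ((M.mulMatrix y).det).2, ?_⟩
  rw [Algebra.norm_eq_matrix_det M.bb, ← M.map_redG_mulMatrix]
  refine Eq.trans ?_ (RingHom.map_det (redG A) _)
  exact congrArg _ (Subtype.ext h1)

theorem discr_red (y : ι → M.S) :
    ∃ h : Algebra.discr (RatFunc L) (fun i => (y i : E)) ∈ Og A,
      redG A ⟨_, h⟩ = Algebra.discr (RatFunc (Kappa A)) (fun i => M.red (y i)) := by
  let T : Matrix ι ι (Og A) := fun i j => ⟨_, (M.trace_red (y i * y j)).1⟩
  have h1 : Algebra.discr (RatFunc L) (fun i => (y i : E)) = ((T.det : Og A) : RatFunc L) := by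
    rw [Algebra.discr_def]
    exact (congrArg Matrix.det (show Algebra.traceMatrix (RatFunc L) (fun i => (y i : E)) =
      T.map (Og A).subtype from rfl)).trans (RingHom.map_det (Og A).subtype T).symm
  refine ⟨h1 ▸ (T.det).2, ?_⟩
  conv_rhs => rw [Algebra.discr_def]
  refine Eq.trans ?_ ((RingHom.map_det (redG A) T).trans (congrArg Matrix.det ?_))
  · exact congrArg _ (Subtype.ext h1)
  · ext i j
    show redG A (T i j) = _
    rw [Algebra.traceMatrix_apply, Algebra.traceForm_apply, ← map_mul]
    exact (M.trace_red (y i * y j)).2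

theorem discr_basis_ne_zero : Algebra.discr (RatFunc L) M.b ≠ 0 ∧
    (Algebra.discr (RatFunc L) M.b)⁻¹ ∈ Og A := by
  obtain ⟨h, hr⟩ := M.discr_red (fun i => ⟨M.b i, M.basis_mem i⟩)
  have hne : redG A ⟨_, h⟩ ≠ 0 := by
    rw [hr]; simpa using M.disc_ne
  refine ⟨fun h0 => hne ?_, inv_mem_Og h hne⟩
  rw [← map_zero (redG A)]
  exact congrArg _ (Subtype.ext h0)

/-- The lattice consists of the elements integral over the Gauss ring. -/
theorem mem_S_iff_isIntegral {y : E} : y ∈ M.S ↔ IsIntegral (Og A).toSubring y := by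
  have : Module.Finite (RatFunc L) E := Module.Finite.of_basis M.b
  have : Module.Finite (RatFunc (Kappa A)) Eb := Module.Finite.of_basis M.bb
  refine ⟨fun hy => isIntegral_of_cpoly fun i => (M.cpoly_red ⟨y, hy⟩ i).1, fun hy => ?_⟩
  have hb : ∀ i, IsIntegral (Og A).toSubring (M.b i) := fun i =>
    isIntegral_of_cpoly fun n => (M.cpoly_red ⟨_, M.basis_mem i⟩ n).1
  obtain ⟨c, hc, hy'⟩ := exists_coords_mem (ValuationSubring.intClosedIn (Og A)) M.b hb
    M.discr_basis_ne_zero.1 M.discr_basis_ne_zero.2 hy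
  intro i
  rw [hy', M.b.repr_sum_self]
  exact hc i

omit [DecidableEq ι] in
/-- Every element is a constant times a primitive one. -/
theorem exists_scale' {y : E} (hy : y ≠ 0) :
    ∃ c : L, c ≠ 0 ∧ ∃ z : M.S, y = algebraMap (RatFunc L) E (RatFunc.C c) * (z : E) ∧
      M.red z ≠ 0 := by
  classical
  have hsup : (Finset.univ.filter fun i => M.b.repr y i ≠ 0).Nonempty := by
    by_contra h
    refine hy (M.b.ext_elem fun i => ?_)
    simpa using fun h' : M.b.repr y i ≠ 0 => h ⟨i, by simp [h']⟩
  choose c hc g hg heq hred using fun i : {i // M.b.repr y i ≠ 0} =>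
    exists_scale_ratFunc (A := A) i.2
  obtain ⟨m, -, hmax⟩ := Finset.exists_max_image
    (Finset.univ : Finset {i // M.b.repr y i ≠ 0}) (fun i => A.valuation (c i))
    (by obtain ⟨i, hi⟩ := hsup; exact ⟨⟨i, (Finset.mem_filter.mp hi).2⟩, Finset.mem_univ _⟩)
  have hz : ∀ i, RatFunc.C (c m)⁻¹ * M.b.repr y i ∈ Og A := fun i => by
    by_cases h : M.b.repr y i = 0
    · simp [h]
    · rw [show M.b.repr y i = _ from heq ⟨i, h⟩, ← mul_assoc, ← map_mul]
      refine mul_mem (C_mem_Og ?_) (hg _)
      rw [← A.valuation_le_one_iff, map_mul, map_inv₀, inv_mul_le_iff₀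
        ((Valuation.pos_iff _).mpr (hc m)), mul_one]
      exact hmax _ (Finset.mem_univ _)
  set z : E := ∑ i, (RatFunc.C (c m)⁻¹ * M.b.repr y i) • M.b i with hzdef
  have hzS : z ∈ M.S := fun i => by rw [hzdef, M.b.repr_sum_self]; exact hz i
  refine ⟨c m, hc m, ⟨z, hzS⟩, ?_, fun h0 => hred m ?_⟩
  · show y = _ * z
    rw [hzdef, ← Algebra.smul_def, Finset.smul_sum]
    conv_lhs => rw [← M.b.sum_repr y]
    refine Finset.sum_congr rfl fun i _ => ?_
    rw [smul_smul, ← mul_assoc, ← map_mul, mul_inv_cancel₀ (hc m), map_one, one_mul]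
  · have h1 := M.repr_red ⟨z, hzS⟩ (m : ι)
    rw [h0, map_zero, Finsupp.zero_apply] at h1
    rw [h1]
    refine congrArg _ (Subtype.ext ?_)
    show g m = M.b.repr z (m : ι)
    rw [hzdef, M.b.repr_sum_self, show M.b.repr y (m : ι) = _ from heq m, ← mul_assoc, ← map_mul,
      inv_mul_cancel₀ (hc m), map_one, one_mul]

end Model

end Fermat.Agent.EichlerShimura
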