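import Fermat.Agent.EichlerShimura.Cover

/-!
# Lifting norms from a cover that splits the ramification
-/

set_option autoImplicit false

noncomputable section

open Polynomial IsLocalRing

namespace Fermat.Agent.EichlerShimura

theorem norm_mk_map' {R S : Type*} [CommRing R] [CommRing S] [Nontrivial S] (σ : R →+* S)
    {f : R[X]} (hf : f.Monic) (w : R[X]) {g : S[X]} (hg : g = f.map σ) :
    Algebra.norm S (AdjoinRoot.mk g (w.map σ)) = σ (Algebra.norm R (AdjoinRoot.mk f w)) := by
  subst hg
  exact norm_mk_map σ hf w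

theorem RatCover.exists_mul_eq_of_mem_Loc {K₀ : Type*} [Field K₀] (C₀ : RatCover K₀) {t : K₀}
    (ht : C₀.den.eval t ≠ 0) {f : RatFunc K₀} (hf : f ∈ Loc (C₀.num.eval t / C₀.den.eval t)) :
    C₀.hom f ∈ Loc t := by
  have hphi : C₀.phi ∈ Loc t := ⟨C₀.num, C₀.den, ht, C₀.phi_mul_den⟩
  let g : K₀[X] →+* Loc t := eval₂RingHom
    ((RatFunc.C : K₀ →+* RatFunc K₀).codRestrict (Loc t) (C_mem_Loc t)) ⟨_, hphi⟩
  have hg : ((Loc t).subtype).comp g = C₀.hom.comp (algebraMap K₀[X] (RatFunc K₀)) :=
    Polynomial.ringHom_ext (fun a => by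
      simp only [g, RingHom.comp_apply, coe_eval₂RingHom, eval₂_C, RatFunc.algebraMap_C,
        RatCover.hom_C]
      rfl) (by
      simp only [g, RingHom.comp_apply, coe_eval₂RingHom, eval₂_X, RatFunc.algebraMap_X,
        RatCover.hom_X]
      rfl)
  have hv : (evalLoc t).comp g = evalRingHom (C₀.num.eval t / C₀.den.eval t) :=
    Polynomial.ringHom_ext (fun a => by
      simp only [g, RingHom.comp_apply, coe_eval₂RingHom, eval₂_C, coe_evalRingHom, eval_C]
      rw [evalLoc_eq (p := C a) (q := 1) _ (by simp) (by simp [RatFunc.algebraMap_C]), eval_C,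
        eval_one, div_one]) (by
      simp only [g, RingHom.comp_apply, coe_eval₂RingHom, eval₂_X, coe_evalRingHom, eval_X]
      exact evalLoc_eq ⟨_, hphi⟩ ht C₀.phi_mul_den)
  obtain ⟨p, q, hq, hpq⟩ := mem_Loc.mp hf
  have hgq : (g q : RatFunc K₀) = C₀.hom (algebraMap K₀[X] (RatFunc K₀) q) := RingHom.congr_fun hg q
  have hgp : (g p : RatFunc K₀) = C₀.hom (algebraMap K₀[X] (RatFunc K₀) p) := RingHom.congr_fun hg p
  have hinv : (g q : RatFunc K₀)⁻¹ ∈ Loc t := inv_mem_Loc (g q).2 (by
    show (evalLoc t).comp g q ≠ 0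
    rw [hv]
    exact hq)
  have hq0 : (g q : RatFunc K₀) ≠ 0 := by
    rw [hgq, _root_.map_ne_zero, Ne, map_eq_zero_iff _ (RatFunc.algebraMap_injective K₀)]
    exact fun h => hq (by rw [h, eval_zero])
  have : C₀.hom f = (g p : RatFunc K₀) * (g q : RatFunc K₀)⁻¹ := by
    rw [eq_mul_inv_iff_mul_eq₀ hq0, hgq, hgp, ← map_mul, hpq]
  rw [this]
  exact mul_mem (g p).2 hinv

variable {L : Type*} [Field L] [IsAlgClosed L] {A : ValuationSubring L}
variable {ι : Type*} [Fintype ι]
variable {E : Type*} [Field E] [Algebra (RatFunc L) E]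
variable {Eb : Type*} [CommRing Eb] [Algebra (RatFunc (Kappa A)) Eb]

namespace CoverData

variable (c : CoverData A) {T : Set (Kappa A)}

omit [IsAlgClosed L] in
theorem pre_finite (hT : T.Finite) : (c.pre T).Finite := by
  classical
  refine (hT.biUnion fun a _ =>
    (polyBar A c.num - C a * polyBar A c.den).roots.toFinset.finite_toSet).subset
    fun t ht => Set.mem_biUnion ht.2 ?_
  rw [Finset.mem_coe, Multiset.mem_toFinset, mem_roots', IsRoot, eval_sub, eval_mul, eval_C,
    div_mul_cancel₀ _ ht.1, sub_self]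
  refine ⟨fun h => ?_, rfl⟩
  have h1 := sub_eq_zero.mp h
  have h2 := congrArg degree h1
  refine absurd h2.symm (ne_of_lt (lt_of_le_of_lt ?_ c.spec.deg_lt))
  calc _ ≤ 0 + _ := (degree_mul_le _ _).trans (add_le_add degree_C_le le_rfl)
    _ = _ := zero_add _

omit [IsAlgClosed L] in
theorem pre_nonempty [IsAlgClosed (Kappa A)] (hT : T.Nonempty) : (c.pre T).Nonempty := by
  obtain ⟨a, ha⟩ := hT
  have hlt : (C a * polyBar A c.den).degree < (polyBar A c.num).degree :=
    lt_of_le_of_lt ((degree_mul_le _ _).trans (by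
      calc _ ≤ 0 + (polyBar A c.den).degree := add_le_add degree_C_le le_rfl
        _ = _ := zero_add _)) c.spec.deg_lt
  obtain ⟨t, ht⟩ := IsAlgClosed.exists_root (polyBar A c.num - C a * polyBar A c.den) (by
    rw [degree_sub_eq_left_of_degree_lt hlt]
    show c.spec.num.degree ≠ 0
    rw [degree_eq_natDegree c.spec.monic.ne_zero]
    exact_mod_cast c.spec.pos.ne')
  rw [IsRoot, eval_sub, eval_mul, eval_C, sub_eq_zero] at ht
  have hd : (polyBar A c.den).eval t ≠ 0 := fun h0 => by
    obtain ⟨u, v, huv⟩ := c.cop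
    have := congrArg (eval t) huv
    rw [h0, mul_zero] at ht
    simp [ht, h0] at this
  exact ⟨t, hd, by rw [ht, mul_div_cancel_right₀ _ hd]; exact ha⟩

theorem eqnA_map_ratIncl : c.eqnA.map (ratIncl A) = c.gen.eqn := by
  have h : (ratIncl A).comp C = RatFunc.C.comp A.subtype := RingHom.ext fun a => ratIncl_C a
  have hX : ratIncl A X = RatFunc.X := by simp [ratIncl, polyIncl, RatFunc.algebraMap_X]
  unfold CoverData.eqnA RatCover.eqn
  rw [Polynomial.map_sub, Polynomial.map_mul, map_C, Polynomial.map_map, Polynomial.map_map, h, hX,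
    ← Polynomial.map_map, ← Polynomial.map_map]
  rfl

omit [IsAlgClosed L] in
theorem eqnA_map_ratBar : c.eqnA.map (ratBar A) = c.spec.eqn := by
  have h : (ratBar A).comp C = RatFunc.C.comp (residue A) := RingHom.ext fun a => ratBar_C a
  have hX : ratBar A X = RatFunc.X := by simp [ratBar, polyBar, RatFunc.algebraMap_X]
  unfold CoverData.eqnA RatCover.eqn
  rw [Polynomial.map_sub, Polynomial.map_mul, map_C, Polynomial.map_map, Polynomial.map_map, h, hX,
    ← Polynomial.map_map, ← Polynomial.map_map]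
  rfl

end CoverData

namespace Model

variable (M : Model A ι E Eb) (c : CoverData A)

/-- The model of the base change. -/
def baseChange : Model A ι (c.gen.BC E) (c.spec.BC Eb) where
  b := c.gen.bcBasis E M.b
  bb := c.spec.bcBasis Eb M.bb
  one_int i := by rw [RatCover.bcBasis_repr_one]; exact c.hom_mem_Og (M.one_int i)
  one_red i := by
    simp only [RatCover.bcBasis_repr_one]
    rw [c.redG_hom (M.one_int i), M.one_red]
  mul_int i j l := by rw [RatCover.bcBasis_repr_mul]; exact c.hom_mem_Og (M.mul_int i j l)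
  mul_red i j l := by
    simp only [RatCover.bcBasis_repr_mul]
    rw [c.redG_hom (M.mul_int i j l), M.mul_red]
  disc_ne := by
    intro _
    rw [RatCover.discr_bcBasis]
    exact (_root_.map_ne_zero _).mpr M.disc_ne

/-- Constants of the Gauss lattice. -/
def algS : Og A →+* M.S :=
  ((algebraMap (RatFunc L) E).comp (Og A).subtype).codRestrict M.S fun f => M.algebraMap_mem f.2

omit [IsAlgClosed L] in
theorem red_comp_algS :
    M.red.comp M.algS = (algebraMap (RatFunc (Kappa A)) Eb).comp (redG A) :=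
  RingHom.ext fun f => M.red_algebraMap f.2

/-- The equation over the Gauss lattice. -/
def eqnS : M.S[X] :=
  c.eqnA.map (M.algS.comp ((ratIncl A).codRestrict (Og A) fun q => apply_mem_fracPart q))

omit [IsAlgClosed L] in
theorem eqnS_monic : (M.eqnS c).Monic := c.eqnA_monic.map _

theorem eqnS_map_subtype : c.gen.eqnIn E = (M.eqnS c).map M.S.subtype := by
  rw [RatCover.eqnIn, ← c.eqnA_map_ratIncl, eqnS, Polynomial.map_map, Polynomial.map_map]
  rfl

omit [IsAlgClosed L] in
theorem eqnS_map_red : c.spec.eqnIn Eb = (M.eqnS c).map M.red := by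
  have h2 : (redG A).comp ((ratIncl A).codRestrict (Og A) fun q => apply_mem_fracPart q) =
      ratBar A :=
    RingHom.ext fun q => redG_ratIncl q
  rw [RatCover.eqnIn, ← c.eqnA_map_ratBar, eqnS, Polynomial.map_map, Polynomial.map_map,
    ← RingHom.comp_assoc, red_comp_algS, RingHom.comp_assoc, h2]

omit [IsAlgClosed L] in
theorem redG_X : redG A ⟨ratIncl A X, apply_mem_fracPart X⟩ = RatFunc.X := by
  rw [redG_ratIncl]; simp [ratBar, polyBar, RatFunc.algebraMap_X]

theorem redG_eval₂ (P : (Og A)[X]) {f : RatFunc L} (hf : f ∈ Og A)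
    (hP : P.eval₂ (c.gen.hom.comp (Og A).subtype) RatFunc.X = f) :
    (P.map (redG A)).eval₂ c.spec.hom RatFunc.X = redG A ⟨f, hf⟩ := by
  have hX : (RatFunc.X : RatFunc L) ∈ Og A := by
    rw [show (RatFunc.X : RatFunc L) = ratIncl A X by simp [ratIncl, polyIncl,
      RatFunc.algebraMap_X]]
    exact apply_mem_fracPart X
  let γ : (Og A)[X] →+* Og A := eval₂RingHom
    ((c.gen.hom.comp (Og A).subtype).codRestrict (Og A) fun g => c.hom_mem_Og g.2) ⟨_, hX⟩
  have h1 : (Og A).subtype.comp γ = eval₂RingHom (c.gen.hom.comp (Og A).subtype) RatFunc.X :=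
    Polynomial.ringHom_ext (fun a => by simp [γ]) (by simp [γ])
  have h2 : (redG A).comp γ = eval₂RingHom (c.spec.hom.comp (redG A)) RatFunc.X :=
    Polynomial.ringHom_ext (fun a => by simp [γ]; exact c.redG_hom a.2) (by
      simp [γ]
      rw [← redG_X]
      exact congrArg _ (Subtype.ext (by simp [ratIncl, polyIncl, RatFunc.algebraMap_X])))
  rw [eval₂_map, ← coe_eval₂RingHom, ← h2, RingHom.comp_apply]
  exact congrArg _ (Subtype.ext ((RingHom.congr_fun h1 P).trans hP))

theorem exists_poly [IsAlgClosed (Kappa A)] (Y : (M.baseChange c).S) : ∃ W : M.S[X],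
    c.gen.bcMk E (W.map M.S.subtype) = (Y : c.gen.BC E) ∧
      c.spec.bcMk Eb (W.map M.red) = (M.baseChange c).red Y := by
  choose P hP using fun l => c.exists_eval₂_eq' (Y.2 l)
  refine ⟨∑ l, (P l).map M.algS * C ⟨M.b l, M.basis_mem l⟩, ?_, ?_⟩
  · rw [Polynomial.map_sum, map_sum]
    conv_rhs => rw [← (M.baseChange c).b.sum_repr (Y : c.gen.BC E)]
    refine Finset.sum_congr rfl fun l _ => ?_
    rw [Polynomial.map_mul, map_C, map_mul, Algebra.smul_def,
      show (M.baseChange c).b l = algebraMap E (c.gen.BC E)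
      (M.b l) from c.gen.bcBasis_apply E M.b l]
    congr 1
    show _ = c.gen.toBC E _
    rw [← hP l, ← eval₂_map, c.gen.toBC_eval₂, Polynomial.map_map, Polynomial.map_map]
    rfl
  · rw [Polynomial.map_sum, map_sum, Model.red_apply]
    refine Finset.sum_congr rfl fun l _ => ?_
    rw [Polynomial.map_mul, map_C, map_mul, Algebra.smul_def,
      show (M.baseChange c).bb l = algebraMap Eb (c.spec.BC Eb) (M.bb l) from
        c.spec.bcBasis_apply Eb M.bb l, M.red_basis]
    congr 1
    show _ = c.spec.toBC Eb _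
    rw [show (M.baseChange c).co Y l = ⟨_, Y.2 l⟩ from rfl, ← redG_eval₂ c (P l) (Y.2 l) (hP l),
      c.spec.toBC_eval₂, Polynomial.map_map, Polynomial.map_map, red_comp_algS]

variable {T : Set (Kappa A)}

theorem isIntegral_norm [IsAlgClosed (Kappa A)] {Y : c.gen.BC E}
    (hY : IsIntegral (Lam A (c.pre T)) Y) : IsIntegral (Lam A T) (Algebra.norm E Y) := by
  classical
  let alg : Algebra (Lam A T) (c.gen.BC E) :=
    ((algebraMap E (c.gen.BC E)).comp (algebraMap (Lam A T) E)).toAlgebra
  have : IsScalarTower (Lam A T) E (c.gen.BC E) := IsScalarTower.of_algebraMap_eq' rfl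
  set Cl := integralClosure (Lam A T) (c.gen.BC E) with hCl
  -- The root of the cover is integral over `Lam A T`.
  have hroot : IsIntegral (Lam A T) (c.gen.bcMk E X) := by
    refine ⟨c.eqnA.map ((ratIncl A).codRestrict (Lam A T) fun q => apply_mem_fracPart q),
      c.eqnA_monic.map _, ?_⟩
    rw [eval₂_map]
    have h := c.gen.bcMk_eqnIn E
    have h1 : c.gen.eqnIn E = c.eqnA.map ((algebraMap (RatFunc L) E).comp (ratIncl A)) := by
      rw [RatCover.eqnIn, ← Polynomial.map_map, c.eqnA_map_ratIncl]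
    rw [h1] at h
    refine Eq.trans ?_ h
    generalize c.eqnA = q
    induction q using Polynomial.induction_on' with
    | add p q hp hq => rw [eval₂_add, hp, hq, Polynomial.map_add, map_add]
    | monomial n a =>
      rw [eval₂_monomial, Polynomial.map_monomial, ← C_mul_X_pow_eq_monomial, map_mul, map_pow]
      rfl
  -- So every coefficient in `Lam A (c.pre T)` is, and by transitivity so is `Y`.
  have hmem : ∀ f : Lam A (c.pre T), algebraMap (Lam A (c.pre T)) (c.gen.BC E) f ∈ Cl := by
    intro f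
    obtain ⟨P, hP⟩ := c.exists_eval₂_eq f.2
    show c.gen.toBC E (f : RatFunc L) ∈ Cl
    rw [← hP, ← eval₂_map, c.gen.toBC_eval₂, Polynomial.map_map]
    clear hP
    induction P using Polynomial.induction_on' with
    | add p q hp hq =>
      rw [Polynomial.map_add, map_add]
      exact Cl.add_mem hp hq
    | monomial n a =>
      rw [Polynomial.map_monomial, ← C_mul_X_pow_eq_monomial, map_mul, map_pow]
      exact Cl.mul_mem (Cl.algebraMap_mem a) (Cl.pow_mem hroot n)
  have hYC : IsIntegral Cl Y := by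
    obtain ⟨p, hp, hpY⟩ := hY
    refine ⟨p.map ((algebraMap (Lam A (c.pre T)) (c.gen.BC E)).codRestrict Cl hmem), hp.map _, ?_⟩
    rw [eval₂_map]
    exact hpY
  have hYT : IsIntegral (Lam A T) Y := isIntegral_trans (A := Cl) Y hYC
  let b : Module.Basis (Fin (c.gen.eqnIn E).natDegree) E (c.gen.BC E) :=
    (AdjoinRoot.powerBasis' (c.gen.eqnIn_monic E)).basis
  -- The norm is, up to sign, a coefficient of a characteristic polynomial.
  rw [Algebra.norm_eq_matrix_det b, Matrix.det_eq_sign_charpoly_coeff]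
  exact ((isIntegral_one.neg).pow _).mul (isIntegral_coeff_charpoly (hYT.map
    ((Algebra.leftMulMatrix b).restrictScalars (Lam A T))) 0)

variable [DecidableEq ι]

/-- Norms from the cover of reductions lift. -/
theorem exists_norm_lift [IsAlgClosed (Kappa A)] [Nontrivial Eb] (hT : T.Finite) (hT' : T.Nonempty)
    (hU : ∀ d : A, residue A d ∈ c.pre T → UnramAt ι (c.gen.BC E) (d : L)) {H : c.spec.BC Eb}
    (hH : ∀ t ∈ c.pre T, IsIntegral (Loc t).toSubring H) :
    ∃ Z : Rint E T, M.redT T Z = Algebra.norm Eb H := by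
  obtain ⟨Y, hY⟩ := (M.baseChange c).exists_lift (c.pre_finite hT) (c.pre_nonempty hT') hU hH
  obtain ⟨W, hW, hW'⟩ := M.exists_poly c ((M.baseChange c).incl _ Y)
  set N := Algebra.norm M.S (AdjoinRoot.mk (M.eqnS c) W) with hN
  have h1 : Algebra.norm E (Y : c.gen.BC E) = (N : E) := by
    rw [show (Y : c.gen.BC E) = c.gen.bcMk E (W.map M.S.subtype) from hW.symm]
    exact norm_mk_map' M.S.subtype (M.eqnS_monic c) W (M.eqnS_map_subtype c)
  have h2 : Algebra.norm Eb H = M.red N := by
    rw [← hY, show (M.baseChange c).redT _ Y = c.spec.bcMk Eb (W.map M.red) from hW'.symm]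
    exact norm_mk_map' M.red (M.eqnS_monic c) W (M.eqnS_map_red c)
  refine ⟨⟨(N : E), ?_⟩, ?_⟩
  · rw [← h1]
    exact mem_Rint.mpr (isIntegral_norm c (mem_Rint.mp Y.2))
  · rw [h2]
    exact congrArg M.red (Subtype.ext rfl)

/-- A power of every regular reduced function lifts. -/
theorem exists_pow_lift [IsAlgClosed (Kappa A)] [Nontrivial Eb] (hT : T.Finite) (hT' : T.Nonempty)
    (hU : ∀ d : A, residue A d ∈ c.pre T → UnramAt ι (c.gen.BC E) (d : L)) {h : Eb}
    (hh : ∀ a ∈ T, IsIntegral (Loc a).toSubring h) :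
    ∃ Z : Rint E T, M.redT T Z = h ^ c.num.natDegree := by
  obtain ⟨Z, hZ⟩ := M.exists_norm_lift c hT hT' hU
    (H := algebraMap Eb (c.spec.BC Eb) h) fun t ht => by
      obtain ⟨p, hp, hph⟩ := hh _ ht.2
      refine ⟨p.map ((c.spec.hom.comp (Loc _).toSubring.subtype).codRestrict (Loc t).toSubring
        fun f => c.spec.exists_mul_eq_of_mem_Loc ht.1 f.2), hp.map _, ?_⟩
      rw [eval₂_map]
      have h1 := congrArg (algebraMap Eb (c.spec.BC Eb)) hph
      rw [hom_eval₂, map_zero] at h1
      refine Eq.trans (congrArg (fun σ => p.eval₂ σ _) (RingHom.ext fun f => ?_)) h1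
      exact c.spec.toBC_hom Eb _
  exact ⟨Z, by rw [hZ, RatCover.norm_algebraMap_BC, c.spec_m]⟩

end Model

end Fermat.Agent.EichlerShimura
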