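import Fermat.Agent.EichlerShimura.RedDivisor

/-!
# A chart, stated on the coordinate function
-/

set_option autoImplicit false

noncomputable section

open scoped Classical
open Polynomial IsLocalRing AlgebraicCurve

namespace Fermat.Agent.EichlerShimura

open Fermat.Agent.FF

theorem restrict_eq_placeAtPt_iff_mem {K F : Type*} [Field K] [Field F] [Algebra (RatFunc K) F]
    [Algebra K F] [IsScalarTower K (RatFunc K) F] [FiniteDimensional (RatFunc K) F]
    {c : K} (P : Place K F) {x : F}
    (hx : algebraMap (RatFunc K) F RatFunc.X = x) :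
    P.restrict (RatFunc K) = placeAtPt c ↔ x - algebraMap K F c ∈ ordGe P 1 := by
  have he : algebraMap (RatFunc K) F (unifAt c) = x - algebraMap K F c := by
    rw [unifAt_eq, map_sub, hx, IsScalarTower.algebraMap_apply K (RatFunc K) F]
    rfl
  constructor
  -- If `P` lies over `x = c`, the uniformiser `x - c` has positive order at `P`.
  · intro h
    refine mem_ordGe_of_le P ?_
    rw [← he, P.ord_restrict, h, ord_unifAt, mul_one]
    exact_mod_cast P.ramificationIndex_pos (F := RatFunc K)
  · intro h
    -- Conversely `x`, hence every polynomial in `x`, is regular at `P`.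
    rw [← he] at h
    have hxc : x ∈ P.toValuationSubring := by
      rw [← mem_ordGe_zero]
      have := add_mem (ordGe_anti P (zero_le_one' ℤ) h)
        (mem_ordGe_of_le P (le_of_eq (ord_algebraMap P c).symm))
      simpa [he] using this
    have hpoly : ∀ p : K[X],
        algebraMap (RatFunc K) F (algebraMap K[X] (RatFunc K) p) ∈ P.toValuationSubring :=
          fun p => by
      induction p using Polynomial.induction_on' with
      | add p q hp hq => rw [map_add, map_add]; exact add_mem hp hq
      | monomial n a =>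
        rw [← C_mul_X_pow_eq_monomial, map_mul, map_pow, RatFunc.algebraMap_C, RatFunc.algebraMap_X,
          map_mul, map_pow, hx, ← RatFunc.algebraMap_eq_C, ← IsScalarTower.algebraMap_apply]
        exact mul_mem (P.algebraMap_mem' a) (pow_mem hxc n)
    refine eq_placeAtPt _ fun f hf => ?_
    rw [Place.restrict_toValuationSubring, ValuationSubring.mem_comap]
    obtain ⟨p, q, hq, hpq⟩ := mem_Loc.mp hf
    have hq0 : algebraMap K[X] (RatFunc K) q ≠ 0 :=
      (map_ne_zero_iff _ (RatFunc.algebraMap_injective _)).mpr fun h => hq (by rw [h, eval_zero])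
    -- A polynomial with nonzero value at `c` is congruent to that value, so has order zero.
    obtain ⟨r, hr⟩ : X - C c ∣ q - C (q.eval c) := dvd_iff_isRoot.mpr (by simp)
    have h2 : algebraMap (RatFunc K) F (algebraMap K[X] (RatFunc K) q) -
        algebraMap K F (q.eval c) ∈ ordGe P 1 := by
      rw [IsScalarTower.algebraMap_apply K (RatFunc K) F, RatFunc.algebraMap_eq_C,
        ← RatFunc.algebraMap_C, ← map_sub, ← map_sub, hr, map_mul, map_mul]
      simpa [unifAt] using mul_mem_ordGe P h ((mem_ordGe_zero P).mpr (hpoly r))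
    have hord : P.ord (algebraMap (RatFunc K) F (algebraMap K[X] (RatFunc K) q)) = 0 := by
      obtain ⟨-, h3⟩ := ord_add_eq_left P (f := algebraMap K F (q.eval c))
        ((_root_.map_ne_zero _).mpr hq) (((mem_ordGe P).mp h2).imp_right fun h => by
          rw [ord_algebraMap]; omega)
      rw [add_sub_cancel] at h3
      rw [h3, ord_algebraMap]
    have hinv : (algebraMap (RatFunc K) F (algebraMap K[X] (RatFunc K) q))⁻¹
        ∈ P.toValuationSubring := (mem_iff P).mpr (Or.inr (by rw [P.ord_inv, hord]; rfl))
    have := mul_mem (hpoly p) hinv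
    rwa [← hpq, map_mul, mul_inv_cancel_right₀ ((_root_.map_ne_zero _).mpr hq0)] at this

variable {L : Type*} [Field L] [IsAlgClosed L] {A : ValuationSubring L}
variable {ι : Type*} [Fintype ι] [DecidableEq ι]
variable {E : Type*} [Field E] [Algebra (RatFunc L) E] [Algebra L E] [IsScalarTower L (RatFunc L) E]
  [FiniteDimensional (RatFunc L) E] [IsFunctionField L E]
variable {Eb : Type*} [Field Eb] [Algebra (RatFunc (Kappa A)) Eb] [Algebra (Kappa A) Eb]
  [IsScalarTower (Kappa A) (RatFunc (Kappa A)) Eb] [FiniteDimensional (RatFunc (Kappa A)) Eb]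
  [IsFunctionField (Kappa A) Eb] [IsAlgClosed (Kappa A)]

/-- The reduction of the points of the disc `x ≡ t`. -/
theorem Model.exists_chartRed (M : Model A ι E Eb) {x : E} {xb : Eb}
    (hx : algebraMap (RatFunc L) E RatFunc.X = x)
    (hxb : algebraMap (RatFunc (Kappa A)) Eb RatFunc.X = xb)
    {t : Kappa A} (hlift : HasPowLift M t) :
    ∃ r : Place L E → Option (Place (Kappa A) Eb),
      (∀ P, (∃ c : A, residue A c = t ∧ x - algebraMap L E (c : L) ∈ ordGe P 1) →
        ∃ Q, r P = some Q ∧ xb - algebraMap (Kappa A) Eb t ∈ ordGe Q 1) ∧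
      (∀ P Q, r P = some Q → ∃ c : A, residue A c = t ∧ x - algebraMap L E (c : L) ∈ ordGe P 1) ∧
      ∀ (y : M.S), M.red y ≠ 0 → ∀ Q : Place (Kappa A) Eb,
        xb - algebraMap (Kappa A) Eb t ∈ ordGe Q 1 →
          Q.ord (M.red y) = ∑ P ∈ (suppFin (y : E)).filter (fun P : Place L E => r P = some Q),
            P.ord (y : E) := by
  have hdisc : ∀ P : Place L E,
      OverDisc t P ↔ ∃ c : A, residue A c = t ∧ x - algebraMap L E (c : L) ∈ ordGe P 1 := fun P =>
    exists_congr fun c => and_congr_right fun _ => restrict_eq_placeAtPt_iff_mem P hx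
  refine ⟨fun P => if h : OverDisc t P then some (M.exists_isSpec h).choose else none,
    fun P hP => ?_, fun P Q hPQ => ?_, fun y hy Q hQ => ?_⟩
  · have h := (hdisc P).mpr hP
    exact ⟨_, dif_pos h, (restrict_eq_placeAtPt_iff_mem _ hxb).mp (M.exists_isSpec h).choose_spec.1⟩
  · by_cases h : OverDisc t P
    · exact (hdisc P).mp h
    · simp [h] at hPQ
  · rw [← M.discSum_eq hlift hy ((restrict_eq_placeAtPt_iff_mem Q hxb).mpr hQ), Model.discSum]
    refine Finset.sum_congr ?_ fun _ _ => rfl
    refine Finset.filter_congr fun P _ => ⟨fun hP => ?_, fun hP => ?_⟩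
    · dsimp only
      rw [dif_pos hP.1]
      exact congrArg some (M.isSpec_unique hlift hP.1 (M.exists_isSpec hP.1).choose_spec hP.2)
    · by_cases h : OverDisc t P
      · dsimp only at hP
        rw [dif_pos h] at hP
        exact ⟨h, Option.some.inj hP ▸ (M.exists_isSpec h).choose_spec⟩
      · simp [h] at hP

end Fermat.Agent.EichlerShimura
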