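import Fermat.Agent.EichlerShimura.Purity
import Fermat.Agent.EichlerShimura.BaseChange
import Mathlib.RingTheory.Polynomial.Resultant.Basic

/-!
# Covers `x = num t / den t` of the line defined over the valuation ring
-/

set_option autoImplicit false

noncomputable section

open Polynomial IsLocalRing

namespace Fermat.Agent.EichlerShimura

section Homog

variable {R S : Type*} [CommRing R] [CommRing S]

/-- The homogenised substitution `p ↦ den^D p(num/den)`. -/
def homog (num den p : R[X]) (D : ℕ) : R[X] :=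
  ∑ i ∈ Finset.range (D + 1), C (p.coeff i) * num ^ i * den ^ (D - i)

theorem map_homog (g g' : R[X] →+* S) {num den : R[X]} (hC : ∀ a, g (C a) = g' (C a))
    (hX : g X * g' den = g' num) {p : R[X]} {D : ℕ} (hD : p.natDegree ≤ D) :
    g p * g' den ^ D = g' (homog num den p D) := by
  conv_lhs => rw [p.as_sum_range_C_mul_X_pow' (Nat.lt_succ_of_le hD)]
  rw [homog, map_sum, map_sum, Finset.sum_mul]
  refine Finset.sum_congr rfl fun i hi => ?_
  rw [Finset.mem_range] at hi
  simp only [map_mul, map_pow, hC, ← hX]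
  rw [show g' den ^ D = g' den ^ i * g' den ^ (D - i) by rw [← pow_add]; congr 1; omega]
  ring

end Homog

variable {L : Type*} [Field L] (A : ValuationSubring L)

/-- A rational substitution over `A` whose reduction has the same degree. -/
structure CoverData where
  num : A[X]
  den : A[X]
  monic : num.Monic
  deg_lt : den.degree < num.degree
  cop : IsCoprime (polyBar A num) (polyBar A den)
  pos : 0 < num.natDegree

namespace CoverData

variable {A} (c : CoverData A)

theorem polyBar_den_ne_zero : polyBar A c.den ≠ 0 := by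
  intro h
  have := c.cop
  rw [h, isCoprime_zero_right] at this
  have h0 := natDegree_eq_zero_of_isUnit this
  rw [polyBar, coe_mapRingHom, c.monic.natDegree_map] at h0
  exact c.pos.ne' h0

/-- The reduced substitution. -/
def spec : RatCover (Kappa A) where
  num := polyBar A c.num
  den := polyBar A c.den
  monic := c.monic.map _
  deg_lt := by
    refine lt_of_le_of_lt degree_map_le (lt_of_lt_of_le c.deg_lt ?_)
    rw [polyBar, coe_mapRingHom, c.monic.degree_map]
  cop := c.cop
  pos := by rw [polyBar, coe_mapRingHom, c.monic.natDegree_map]; exact c.pos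

variable [IsAlgClosed L]

/-- The generic substitution. -/
def gen : RatCover L where
  num := polyIncl A c.num
  den := polyIncl A c.den
  monic := c.monic.map _
  deg_lt := by
    rw [polyIncl, coe_mapRingHom, degree_map_eq_of_injective Subtype.val_injective,
      c.monic.degree_map]
    exact c.deg_lt
  cop := by
    rw [Polynomial.isCoprime_iff_aeval_ne_zero_of_isAlgClosed L L]
    intro r
    rw [← not_and_or]
    rintro ⟨h1, h2⟩
    rw [coe_aeval_eq_eval] at h1 h2
    have hr : r ∈ A := mem_of_monic_root c.monic h1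
    obtain ⟨u, v, huv⟩ := c.cop
    have := congrArg (eval (residue A ⟨r, hr⟩)) huv
    rw [eval_add, eval_mul, eval_mul, ← residue_eval, ← residue_eval,
      show c.num.eval ⟨r, hr⟩ = 0 from Subtype.ext (by rw [coe_eval]; exact h1),
      show c.den.eval ⟨r, hr⟩ = 0 from Subtype.ext (by rw [coe_eval]; exact h2)] at this
    simp at this
  pos := by rw [polyIncl, coe_mapRingHom, c.monic.natDegree_map]; exact c.pos

omit [IsAlgClosed L] in
theorem spec_m : c.spec.m = c.num.natDegree := c.monic.natDegree_map _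

omit [IsAlgClosed L] in
theorem ratBar_den_ne_zero : ratBar A c.den ≠ 0 := fun h =>
  c.polyBar_den_ne_zero (ratBar_eq_zero_iff.mp h)

theorem hom_ratIncl {p : A[X]} {D : ℕ} (hD : p.natDegree ≤ D) :
    c.gen.hom (ratIncl A p) * ratIncl A c.den ^ D = ratIncl A (homog c.num c.den p D) := by
  refine map_homog (c.gen.hom.comp (ratIncl A)) (ratIncl A) (fun a => ?_) ?_ hD
  · rw [RingHom.comp_apply, ratIncl_C, RatCover.hom_C]
  · simp only [RingHom.comp_apply, ratIncl, polyIncl, coe_mapRingHom, map_X, RatFunc.algebraMap_X,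
      RatCover.hom_X]
    exact c.gen.phi_mul_den

omit [IsAlgClosed L] in
theorem hom_ratBar {p : A[X]} {D : ℕ} (hD : p.natDegree ≤ D) :
    c.spec.hom (ratBar A p) * ratBar A c.den ^ D = ratBar A (homog c.num c.den p D) := by
  refine map_homog (c.spec.hom.comp (ratBar A)) (ratBar A) (fun a => ?_) ?_ hD
  · rw [RingHom.comp_apply, ratBar_C, RatCover.hom_C]
  · simp only [RingHom.comp_apply, ratBar, polyBar, coe_mapRingHom, map_X, RatFunc.algebraMap_X,
      RatCover.hom_X]
    exact c.spec.phi_mul_den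

omit [IsAlgClosed L] in
theorem homog_bar_ne_zero {q : A[X]} {D : ℕ} (hD : q.natDegree ≤ D) (hq : polyBar A q ≠ 0) :
    polyBar A (homog c.num c.den q D) ≠ 0 := fun h => by
  have h1 := c.hom_ratBar hD
  rw [ratBar_eq_zero_iff.mpr h, mul_eq_zero] at h1
  rcases h1 with h1 | h1
  · exact ratBar_ne_zero_of_mem hq ((map_eq_zero _).mp h1)
  · exact pow_ne_zero _ c.ratBar_den_ne_zero h1

theorem hom_frac {f : RatFunc L} {p q : A[X]} (h : f * ratIncl A q = ratIncl A p) :
    c.gen.hom f * ratIncl A (homog c.num c.den q (max p.natDegree q.natDegree)) =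
      ratIncl A (homog c.num c.den p (max p.natDegree q.natDegree)) := by
  rw [← c.hom_ratIncl (le_max_right _ _), ← c.hom_ratIncl (le_max_left _ _), ← mul_assoc,
    ← map_mul, h]

theorem hom_mem_Og {f : RatFunc L} (hf : f ∈ Og A) : c.gen.hom f ∈ Og A := by
  obtain ⟨p, q, hq, h⟩ := mem_Og.mp hf
  exact ⟨_, _, c.homog_bar_ne_zero (le_max_right _ _) hq, c.hom_frac h⟩

theorem redG_hom {f : RatFunc L} (hf : f ∈ Og A) :
    redG A ⟨_, c.hom_mem_Og hf⟩ = c.spec.hom (redG A ⟨f, hf⟩) := by
  obtain ⟨p, q, hq, h⟩ := mem_Og.mp hf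
  rw [redG_eq ⟨f, hf⟩ hq h, redG_eq ⟨_, c.hom_mem_Og hf⟩
    (c.homog_bar_ne_zero (le_max_right _ _) hq) (c.hom_frac h), map_div₀,
    ← c.hom_ratBar (le_max_left p.natDegree q.natDegree),
    ← c.hom_ratBar (le_max_right p.natDegree q.natDegree),
    mul_div_mul_right _ _ (pow_ne_zero _ c.ratBar_den_ne_zero)]

/-- The preimage of a set of residues. -/
def pre (T : Set (Kappa A)) : Set (Kappa A) :=
  {t | (polyBar A c.den).eval t ≠ 0 ∧
    (polyBar A c.num).eval t / (polyBar A c.den).eval t ∈ T}

variable {T : Set (Kappa A)}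

/-- The equation over `A[x]`. -/
def eqnA : A[X][X] := c.num.map C - C X * c.den.map C

omit [IsAlgClosed L] in
theorem degree_C_mul_den_lt :
    (C (X : A[X]) * c.den.map C).degree < (c.num.map (C : A →+* A[X])).degree := by
  rw [c.monic.degree_map]
  refine lt_of_le_of_lt (degree_mul_le _ _) (lt_of_le_of_lt ?_ c.deg_lt)
  calc _ ≤ 0 + c.den.degree := add_le_add degree_C_le degree_map_le
    _ = _ := zero_add _

omit [IsAlgClosed L] in
theorem eqnA_monic : c.eqnA.Monic := (c.monic.map _).sub_of_left c.degree_C_mul_den_lt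

omit [IsAlgClosed L] in
theorem natDegree_eqnA : c.eqnA.natDegree = c.num.natDegree := by
  unfold eqnA
  rw [natDegree_eq_of_degree_eq (degree_sub_eq_left_of_degree_lt c.degree_C_mul_den_lt),
    c.monic.natDegree_map]

omit [IsAlgClosed L] in
theorem eval_resultant [IsAlgClosed (Kappa A)] {q : A[X]} {a : Kappa A}
    (h : ∀ b, (polyBar A c.num).eval b - a * (polyBar A c.den).eval b = 0 →
      (polyBar A q).eval b ≠ 0) :
    (polyBar A (resultant c.eqnA (q.map C) c.num.natDegree q.natDegree)).eval a ≠ 0 := by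
  set ψ : A[X] →+* Kappa A := (evalRingHom a).comp (polyBar A) with hψ
  show ψ _ ≠ 0
  rw [← resultant_map_map]
  have hf : c.eqnA.map ψ = polyBar A c.num - C a * polyBar A c.den := by
    have h1 : ψ.comp C = residue A := by ext r; simp [hψ, polyBar]
    have h2 : ψ X = a := by simp [hψ, polyBar]
    simp [eqnA, Polynomial.map_map, h1, h2, polyBar]
  have hg : (q.map C).map ψ = polyBar A q := by
    have h1 : ψ.comp C = residue A := by ext r; simp [hψ, polyBar]
    simp [Polynomial.map_map, h1, polyBar]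
  have hm : (c.eqnA.map ψ).natDegree = c.num.natDegree := by
    rw [c.eqnA_monic.natDegree_map, c.natDegree_eqnA]
  obtain ⟨k, hk⟩ := Nat.exists_eq_add_of_le
    (show ((q.map C).map ψ).natDegree ≤ q.natDegree from
      natDegree_map_le.trans natDegree_map_le)
  rw [hk, resultant_add_right_deg _ _ _ _ _ le_rfl, ← hm]
  refine mul_ne_zero (pow_ne_zero _ (by
    rw [(c.eqnA_monic.map ψ).coeff_natDegree]; exact one_ne_zero)) (resultant_ne_zero _ _ ?_)
  rw [hf, hg, Polynomial.isCoprime_iff_aeval_ne_zero_of_isAlgClosed (Kappa A) (Kappa A)]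
  intro b
  simp only [coe_aeval_eq_eval, eval_sub, eval_mul, eval_C]
  exact or_iff_not_imp_left.mpr fun hb => h b (not_not.mp hb)

omit [IsAlgClosed L] in
theorem resultant_mem [IsAlgClosed (Kappa A)] {q : A[X]} (hq : q ∈ diskPolys A (c.pre T)) :
    resultant c.eqnA (q.map C) c.num.natDegree q.natDegree ∈ diskPolys A T := by
  classical
  refine ⟨fun h0 => ?_, fun a ha => c.eval_resultant fun b hb => ?_⟩
  · obtain ⟨a, ha⟩ := ((polyBar A q).roots.toFinset.image fun b =>
      (polyBar A c.num).eval b / (polyBar A c.den).eval b).exists_notMem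
    refine c.eval_resultant (a := a) (fun b hb hb0 => ha (Finset.mem_image.mpr ⟨b, ?_, ?_⟩))
      (by rw [h0, eval_zero])
    · rw [Multiset.mem_toFinset, mem_roots hq.1]; exact hb0
    · rcases eq_or_ne ((polyBar A c.den).eval b) 0 with hd | hd
      · obtain ⟨u, v, huv⟩ := c.cop
        have := congrArg (eval b) huv
        rw [hd, mul_zero, sub_zero] at hb
        simp [hb, hd] at this
      · rw [div_eq_iff hd]; linear_combination hb
  · rcases eq_or_ne ((polyBar A c.den).eval b) 0 with hd | hd
    · obtain ⟨u, v, huv⟩ := c.cop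
      have := congrArg (eval b) huv
      rw [hd, mul_zero, sub_zero] at hb
      simp [hb, hd] at this
    · refine hq.2 b ⟨hd, ?_⟩
      rw [show (polyBar A c.num).eval b = a * (polyBar A c.den).eval b by linear_combination hb,
        mul_div_cancel_right₀ _ hd]
      exact ha

/-- Polynomials over `A[x]` evaluated at `t`. -/
def evA : A[X][X] →+* RatFunc L := eval₂RingHom (c.gen.hom.comp (ratIncl A)) RatFunc.X

theorem evA_map_C (p : A[X]) : c.evA (p.map C) = ratIncl A p := by
  induction p using Polynomial.induction_on' with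
  | add p q hp hq => rw [Polynomial.map_add, map_add, map_add, hp, hq]
  | monomial n a =>
    rw [Polynomial.map_monomial, evA, coe_eval₂RingHom, eval₂_monomial, RingHom.comp_apply,
      ratIncl_C, RatCover.hom_C, ← C_mul_X_pow_eq_monomial, map_mul, map_pow, ratIncl_C]
    simp [ratIncl, polyIncl, RatFunc.algebraMap_X]

theorem evA_eqnA : c.evA c.eqnA = 0 := by
  have h : c.evA c.eqnA + c.evA (C X * c.den.map C) = c.evA (c.num.map C) := by
    rw [← map_add, eqnA]
    exact congrArg c.evA (sub_add_cancel (G := A[X][X]) _ _)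
  rw [map_mul, c.evA_map_C, c.evA_map_C, evA, coe_eval₂RingHom, eval₂_C, RingHom.comp_apply,
    show ratIncl A X = RatFunc.X by simp [ratIncl, polyIncl, RatFunc.algebraMap_X],
    RatCover.hom_X] at h
  rw [show c.gen.phi * ratIncl A c.den = ratIncl A c.num from c.gen.phi_mul_den] at h
  exact add_eq_right.mp h

/-- `Lam A (pre T)` is generated by `t` over `Lam A T`. -/
theorem exists_eval₂_eq [IsAlgClosed (Kappa A)] {f : RatFunc L} (hf : f ∈ Lam A (c.pre T)) :
    ∃ P : (Lam A T)[X], P.eval₂ (c.gen.hom.comp (Lam A T).subtype) RatFunc.X = f := by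
  obtain ⟨p, q, hq, h⟩ := mem_Lam.mp hf
  obtain ⟨u, v, -, -, huv⟩ := exists_mul_add_mul_eq_C_resultant c.eqnA (q.map C)
    (m := c.num.natDegree) (n := q.natDegree) (by rw [c.natDegree_eqnA]) natDegree_map_le
    (Or.inl c.pos.ne')
  set R := resultant c.eqnA (q.map C) c.num.natDegree q.natDegree
  have hR : R ∈ diskPolys A T := c.resultant_mem hq
  have hR0 : ratIncl A R ≠ 0 :=
    (map_ne_zero_iff _ ratIncl_injective).mpr fun h0 => hR.1 (by rw [h0, map_zero])
  have key : ratIncl A q * c.evA v = c.gen.hom (ratIncl A R) := by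
    have := congrArg c.evA huv
    rw [map_add, map_mul, map_mul, c.evA_eqnA, zero_mul, zero_add, c.evA_map_C] at this
    rw [this, evA, coe_eval₂RingHom, eval₂_C]
    rfl
  have hf' : f = c.evA (v * p.map C) * c.gen.hom (ratIncl A R)⁻¹ := by
    rw [map_mul, c.evA_map_C, map_inv₀, eq_mul_inv_iff_mul_eq₀ ((_root_.map_ne_zero _).mpr hR0),
      ← key, ← h]
    ring
  refine ⟨(v * p.map C).map ((ratIncl A).codRestrict (Lam A T) (fun r => apply_mem_fracPart r)) *
    C ⟨_, inv_apply_mem_fracPart hR hR0⟩, ?_⟩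
  rw [hf', eval₂_mul, eval₂_C, eval₂_map, evA, coe_eval₂RingHom]
  rfl

theorem exists_eval₂_eq' [IsAlgClosed (Kappa A)] {f : RatFunc L} (hf : f ∈ Og A) :
    ∃ P : (Og A)[X], P.eval₂ (c.gen.hom.comp (Og A).subtype) RatFunc.X = f := by
  obtain ⟨p, q, hq, h⟩ := mem_Og.mp hf
  have hf' : f ∈ Lam A (c.pre ∅) := ⟨p, q, ⟨hq, fun t ht => absurd ht.2 (Set.notMem_empty _)⟩, h⟩
  obtain ⟨P, hP⟩ := c.exists_eval₂_eq hf'
  refine ⟨P.map (Subring.inclusion (Lam_le_Og ∅) : Lam A ∅ →+* Og A), ?_⟩
  rw [eval₂_map]
  exact hP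

end CoverData

end Fermat.Agent.EichlerShimura
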