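import Fermat.Agent.EichlerShimura.GlobalRed
import Fermat.Prelude.Def_ModularCurve_ArithmeticGalois
import Fermat.Agent.MordellWeil.Main

/-!
# The reduction of `J₀(N)` and automorphisms of the coefficients

Since the group of classes over `ℚ̄` is divisible, at a place where the level is a unit an
additive map on divisors with values in divisors which kills the divisors of integral functions
with nonzero reduction kills everything of degree zero.
-/

set_option autoImplicit false

noncomputable section

open IsLocalRing AlgebraicCurve ModularCurve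
open scoped Pointwise

attribute [local instance 20000] SubalgebraClass.toAlgebra

namespace Fermat.Agent.EichlerShimura

local notation "Qb" => AlgebraicClosure ℚ

section CoeffAut

variable (N : ℕ) [NeZero N] {k : Type*} [Field k]

omit [NeZero N] in
theorem coeffMap_mem_fullC (φ : k →+* k) {x : LaurentSeries k}
    (hx : x ∈ modularFunctionFieldFullC k N) : coeffMap φ x ∈ modularFunctionFieldFullC k N := by
  induction hx using IntermediateField.adjoin_induction with
  | mem x hx =>
    obtain ⟨d, hd, hdN, rfl⟩ := hx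
    rw [coeffMap_qExpand, coeffMap_jqModC]
    exact jqModCd_mem_full k N hdN
  | algebraMap a =>
    rw [coeffMap_algebraMap]
    exact IntermediateField.algebraMap_mem _ _
  | add x y _ _ hx hy => rw [map_add]; exact add_mem hx hy
  | inv x _ hx => rw [map_inv₀]; exact inv_mem hx
  | mul x y _ _ hx hy => rw [map_mul]; exact mul_mem hx hy

/-- The semilinear automorphism of the modular function field given by an automorphism of the
coefficient field. -/
def coeffAut (φ : k ≃+* k) : SemilinearAut k (modularFunctionFieldFullC k N) :=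
  ⟨(({ toFun := fun x => ⟨coeffMap φ.toRingHom (x : LaurentSeries k),
          coeffMap_mem_fullC N φ.toRingHom x.2⟩
       invFun := fun x => ⟨coeffMap φ.symm.toRingHom (x : LaurentSeries k),
          coeffMap_mem_fullC N φ.symm.toRingHom x.2⟩
       left_inv := fun x => Subtype.ext <| by
         show coeffMap φ.symm.toRingHom (coeffMap φ.toRingHom _) = _
         rw [coeffMap_coeffMap, coeffMap_congr (g := RingHom.id k)
           (RingHom.ext fun a => φ.symm_apply_apply a) _, coeffMap_id]
       right_inv := fun x => Subtype.ext <| by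
         show coeffMap φ.toRingHom (coeffMap φ.symm.toRingHom _) = _
         rw [coeffMap_coeffMap, coeffMap_congr (g := RingHom.id k)
           (RingHom.ext fun a => φ.apply_symm_apply a) _, coeffMap_id]
       map_mul' := fun x y => Subtype.ext (map_mul (coeffMap φ.toRingHom)
         (x : LaurentSeries k) (y : LaurentSeries k))
       map_add' := fun x y => Subtype.ext (map_add (coeffMap φ.toRingHom)
         (x : LaurentSeries k) (y : LaurentSeries k)) } :
      modularFunctionFieldFullC k N ≃+* modularFunctionFieldFullC k N), φ),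
    fun a => Subtype.ext (coeffMap_algebraMap φ.toRingHom a)⟩

omit [NeZero N] in
/-- A coefficient automorphism acts on expansions coefficientwise. -/
theorem coe_coeffAut_smul (φ : k ≃+* k) (x : modularFunctionFieldFullC k N) :
    ((coeffAut N φ • x : modularFunctionFieldFullC k N) : LaurentSeries k) =
      coeffMap φ.toRingHom (x : LaurentSeries k) :=
  rfl

omit [NeZero N] in
theorem coeffAut_refl : coeffAut N (RingEquiv.refl k) = 1 :=
  Subtype.ext (Prod.ext (RingEquiv.ext fun x => Subtype.ext
    (coeffMap_id (x : LaurentSeries k))) rfl)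

end CoeffAut

section Div

variable {K F : Type*} [Field K] [Field F] [Algebra K F] [FF.IsFunctionField K F]

/-- A semilinear automorphism commutes with taking divisors. -/
theorem smul_div (g : SemilinearAut K F) (f : F) : g • FF.div K f = FF.div K (g • f) := by
  ext w
  rw [SemilinearAut.divisor_smul_apply, FF.div_apply, FF.div_apply]
  conv_rhs => rw [← smul_inv_smul g w, SemilinearAut.ord_smul]

/-- The divisor of a power is the multiple of the divisor. -/
theorem div_pow (f : F) (n : ℕ) : FF.div K (f ^ n) = n • FF.div K f := by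
  ext w
  rw [Finsupp.smul_apply, FF.div_apply, FF.div_apply, FF.ord_pow, nsmul_eq_mul]

end Div

section Main

variable {N : ℕ} [NeZero N] {A : ValuationSubring Qb}

local notation "Fb" => modularFunctionFieldBar N
local notation "Fk" => modularFunctionFieldFullC (Kappa A) N

/-- An additive map into divisors killing the divisors of integral functions kills degree zero. -/
theorem eq_zero_of_degree_zero [IsAlgClosed (Kappa A)] (hNA : (N : Kappa A) ≠ 0) {α : Type*}
    (δ : Divisor Qb Fb →+ (α →₀ ℤ))
    (hδ : ∀ D ∈ integralPrincipalDivisors A (residue A) N, δ D = 0) (D : Divisor Qb Fb)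
    (hD : D ∈ Divisor.degZero (K := Qb) (F := Fb)) : δ D = 0 := by
  have hprin : ∀ E ∈ Divisor.principal (K := Qb) (F := Fb), δ E = 0 := fun E hE =>
    (AddSubgroup.closure_le δ.ker).mpr hδ (principalGeneratedByIntegral hNA hE)
  ext Q
  rw [Finsupp.zero_apply]
  set n : ℕ := (δ D Q).natAbs + 1 with hn
  obtain ⟨y, hy⟩ := MordellWeil.jZero_exists_nsmul_eq N n (Nat.succ_pos _) (Pic0.mk ⟨D, hD⟩)
  obtain ⟨E, rfl⟩ := Pic0.mk_surjective y
  have hmem : (⟨D, hD⟩ : Divisor.degZero (K := Qb) (F := Fb)) - n • E ∈
      (Divisor.principal (K := Qb) (F := Fb)).addSubgroupOf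
        (Divisor.degZero (K := Qb) (F := Fb)) := by
    rw [← QuotientAddGroup.eq_iff_sub_mem, QuotientAddGroup.mk_nsmul]
    exact hy.symm
  rw [AddSubgroup.mem_addSubgroupOf, AddSubgroupClass.coe_sub, AddSubgroupClass.coe_nsmul] at hmem
  have h0 := hprin _ hmem
  rw [map_sub, map_nsmul, sub_eq_zero] at h0
  refine Int.eq_zero_of_dvd_of_natAbs_lt_natAbs (d := (n : ℤ)) ⟨δ E Q, ?_⟩ ?_
  · rw [h0, Finsupp.smul_apply, nsmul_eq_mul]
  · rw [Int.natAbs_natCast, hn]
    exact Nat.lt_succ_self _

omit [NeZero N] in
/-- An integral divisor, as the divisor of a function. -/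
theorem exists_eq_div [FF.IsFunctionField Qb Fb] {D : Divisor Qb Fb}
    (hD : D ∈ integralPrincipalDivisors A (residue A) N) :
    ∃ (y : LaurentSeries A) (hy : coeffMap A.subtype y ∈ Fb)
      (_ : coeffMap (residue A) y ∈ Fk),
      coeffMap (residue A) y ≠ 0 ∧ D = FF.div Qb (⟨coeffMap A.subtype y, hy⟩ : Fb) := by
  obtain ⟨y, hy, hyk, hne, hDy⟩ := hD
  exact ⟨y, hy, hyk, hne, Finsupp.ext hDy⟩

omit [NeZero N] in
/-- A place reduction carries the divisor of an integral function to that of its reduction. -/
theorem mapDomain_div [FF.IsFunctionField Qb Fb] [FF.IsFunctionField (Kappa A) Fk]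
    {r : Place Qb Fb → Place (Kappa A) Fk} (hr : IsPlaceReductionModL A N r)
    (y : LaurentSeries A) (f : Fb) (g : Fk) (hf : coeffMap A.subtype y = (f : LaurentSeries Qb))
    (hg : coeffMap (residue A) y = (g : LaurentSeries (Kappa A))) (hg0 : g ≠ 0) :
    Finsupp.mapDomain r (FF.div Qb f) = FF.div (Kappa A) g := by
  ext Q
  have hyk : coeffMap (residue A) y ∈ Fk := hg ▸ g.2
  rw [hr.2 y (hf ▸ f.2) hyk (fun h => hg0 (Subtype.ext (hg.symm.trans h))) (FF.div Qb f)
    (fun P => congrArg P.ord (Subtype.ext hf.symm)) Q, FF.div_apply]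
  exact congrArg Q.ord (Subtype.ext hg)

variable {σ : Qb ≃ₐ[ℚ] Qb}

/-- Coefficientwise, reduction intertwines `σ` with the automorphism it induces. -/
theorem reductionModL_smul [IsAlgClosed (Kappa A)] (hNA : (N : Kappa A) ≠ 0) (hσ : σ • A = A)
    (φ : Kappa A ≃+* Kappa A)
    (hφ : ∀ x : A, residue A ⟨σ x, Arith.map_mem_of_mem_decomposition hσ x.2⟩ = φ (residue A x))
    (x : JZero N) :
    reductionModL A N (σ • x) = coeffAut N φ • reductionModL A N x := by
  have h := reductionInputsModL (A := A) hNA
  have := ModFun.isFunctionField_bar N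
  have := RedTorsion.isFunctionField_full (K := Kappa A) (N := N) (F := Fk) rfl hNA
  set r := placeReductionModL h with hrdef
  have hr := isPlaceReductionModL_placeReductionModL h
  set g := arithmeticGalois (L := AlgebraicClosure ℚ) (modularFunctionFieldFull N) σ with hg
  let σA : A →+* A :=
    (((σ : Qb →+* Qb).comp A.subtype).codRestrict A.toSubring
      fun a => Arith.map_mem_of_mem_decomposition hσ a.2)
  let δ : Divisor Qb Fb →+ Divisor (Kappa A) Fk :=
    (Finsupp.mapDomain.addMonoidHom r).comp
        (DistribSMul.toAddMonoidHom (Divisor Qb Fb) g) -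
      (DistribSMul.toAddMonoidHom (Divisor (Kappa A) Fk) (coeffAut N φ)).comp
        (Finsupp.mapDomain.addMonoidHom r)
  have hδ : ∀ D ∈ integralPrincipalDivisors A (residue A) N, δ D = 0 := by
    intro D hD
    obtain ⟨y, hy, hyk, hne, rfl⟩ := exists_eq_div hD
    show Finsupp.mapDomain r (g • FF.div Qb _) - coeffAut N φ • Finsupp.mapDomain r
      (FF.div Qb _) = 0
    rw [mapDomain_div hr y _ ⟨_, hyk⟩ rfl rfl fun h => hne (congrArg Subtype.val h), smul_div,
      smul_div, sub_eq_zero]
    refine mapDomain_div hr (coeffMap σA y) _ _ ?_ ?_ ?_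
    · rw [coeffMap_coeffMap, coe_arithmeticGalois_smul, coeffMap_coeffMap]
      exact coeffMap_congr (RingHom.ext fun a => rfl) y
    · rw [coeffMap_coeffMap, coe_coeffAut_smul, coeffMap_coeffMap]
      exact coeffMap_congr (RingHom.ext hφ) y
    · exact (smul_ne_zero_iff_ne (coeffAut N φ)).mpr fun h => hne (congrArg Subtype.val h)
  obtain ⟨D, rfl⟩ := Pic0.mk_surjective x
  rw [galois_smul_pic0_def, SemilinearAut.pic0_smul_mk, reductionModL_mk h, reductionModL_mk h,
    SemilinearAut.pic0_smul_mk]
  refine congrArg Pic0.mk (Subtype.ext ?_)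
  exact sub_eq_zero.mp (eq_zero_of_degree_zero hNA δ hδ D D.2)

/-- Inertia does not move the reduction. -/
theorem reductionModL_inertia [IsAlgClosed (Kappa A)] (hNA : (N : Kappa A) ≠ 0)
    (hσ : σ ∈ A.inertiaSubgroupIn ℚ) (x : JZero N) :
    reductionModL A N (σ • x) = reductionModL A N x := by
  obtain ⟨h, h'⟩ := Arith.mem_inertia_iff_forall_mem.mp hσ
  rw [reductionModL_smul hNA h (RingEquiv.refl _) (fun x => Arith.residue_eq_iff.mpr (h' x x.2)) x,
    coeffAut_refl, one_smul]

variable {ℓ : ℕ} [Fact ℓ.Prime] [CharP (Kappa A) ℓ]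

variable (A ℓ) in
/-- The Frobenius of the residue field. -/
def frobRing [IsAlgClosed (Kappa A)] : Kappa A ≃+* Kappa A :=
  RingEquiv.ofBijective (frobenius (Kappa A) ℓ) ⟨(frobenius (Kappa A) ℓ).injective, fun a =>
    IsAlgClosed.exists_pow_nat_eq a (Fact.out : ℓ.Prime).pos⟩

/-- A Frobenius element acts on the reduction as the Frobenius. -/
theorem reductionModL_frobenius [IsAlgClosed (Kappa A)] (hNA : (N : Kappa A) ≠ 0)
    (hσ : A.IsFrobeniusAt σ ℓ) (x : JZero N) :
    reductionModL A N (σ • x) = coeffAut N (frobRing A ℓ) • reductionModL A N x := by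
  obtain ⟨h, h'⟩ := Arith.isFrobeniusAt_iff_forall_mem.mp hσ
  exact reductionModL_smul hNA h (frobRing A ℓ)
    (fun x => (Arith.residue_eq_iff.mpr (h' x x.2)).trans (map_pow (residue A) x ℓ)) x

end Main

end Fermat.Agent.EichlerShimura
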