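import Fermat.Agent.EichlerShimura.Disc
import Mathlib.LinearAlgebra.Charpoly.ToMatrix

/-!
# Integrality through characteristic polynomials

For a finite algebra `E` over a field `K` and a subring `R` of `K` closed under integral elements,
an element is integral over `R` iff its characteristic polynomial has coefficients in `R`.
-/

set_option autoImplicit false

noncomputable section

open Polynomial IsLocalRing

namespace Fermat.Agent.EichlerShimura

section Matrix

variable {R F : Type*} [CommRing R] [Field F] [Algebra R F] {n : Type*} [Fintype n] [DecidableEq n]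

theorem isIntegral_root_charpoly {M : Matrix n n F} (hM : IsIntegral R M) {lam : F}
    (hlam : M.charpoly.IsRoot lam) : IsIntegral R lam := by
  obtain ⟨p, hp, hpM⟩ := hM
  refine ⟨p, hp, ?_⟩
  rw [IsRoot, Matrix.eval_charpoly] at hlam
  obtain ⟨v, hv, hv0⟩ := Matrix.exists_mulVec_eq_zero_iff.mpr hlam
  have hMv : M.mulVec v = lam • v := by
    rw [Matrix.sub_mulVec, sub_eq_zero] at hv0
    rw [← hv0]
    ext i
    simp [Matrix.scalar_apply, Matrix.mulVec_diagonal]
  have key : ∀ q : R[X], (aeval M q).mulVec v = (aeval lam q) • v := by
    intro q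
    induction q using Polynomial.induction_on' with
    | add a b ha hb => rw [map_add, map_add, Matrix.add_mulVec, ha, hb, add_smul]
    | monomial k a =>
      have hk : (M ^ k).mulVec v = (lam ^ k) • v := by
        induction k with
        | zero => simp
        | succ k ih =>
          rw [pow_succ, ← Matrix.mulVec_mulVec, hMv, Matrix.mulVec_smul, ih, smul_smul, pow_succ]
          ring_nf
      rw [aeval_monomial, aeval_monomial, IsScalarTower.algebraMap_apply R F (Matrix n n F),
        ← Algebra.smul_def, Matrix.smul_mulVec, hk, smul_smul]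
  have h := key p
  rw [← aeval_def] at hpM
  rw [hpM, Matrix.zero_mulVec] at h
  rw [← aeval_def]
  rcases smul_eq_zero.mp h.symm with h0 | h0
  · exact h0
  · exact absurd h0 hv

theorem isIntegral_coeff_charpoly {M : Matrix n n F} (hM : IsIntegral R M) (i : ℕ) :
    IsIntegral R (M.charpoly.coeff i) := by
  let ι := algebraMap F (AlgebraicClosure F)
  suffices h : IsIntegral R ((M.charpoly.map ι).coeff i) by
    rw [coeff_map] at h
    exact (isIntegral_algHom_iff (IsScalarTower.toAlgHom R F (AlgebraicClosure F)) ι.injective).mp h
  have hint : IsIntegral R (M.map ι) :=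
    hM.map ((IsScalarTower.toAlgHom R F (AlgebraicClosure F)).mapMatrix (m := n))
  set S := integralClosure R (AlgebraicClosure F)
  have hmem : M.charpoly.map ι ∈ lifts (algebraMap S (AlgebraicClosure F)) := by
    rw [(IsAlgClosed.splits (M.charpoly.map ι)).eq_prod_roots_of_monic
      (M.charpoly_monic.map ι)]
    refine Subsemiring.multiset_prod_mem _ _ fun p hp => ?_
    obtain ⟨r, hr, rfl⟩ := Multiset.mem_map.mp hp
    rw [mem_roots'] at hr
    have : IsIntegral R r := isIntegral_root_charpoly hint (by
      rw [Matrix.charpoly_map]; exact hr.2)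
    exact (mem_lifts _).mpr ⟨X - C (⟨r, this⟩ : S), by simp⟩
  obtain ⟨y, hy⟩ := (lifts_iff_coeff_lifts _).mp hmem i
  exact hy ▸ y.2

end Matrix

variable {K : Type*} [Field K] {E : Type*} [CommRing E] [Algebra K E] [Module.Finite K E]

variable (K) in
/-- The characteristic polynomial of multiplication by `y`. -/
def cpoly (y : E) : K[X] := (Algebra.lmul K E y).charpoly

/-- `cpoly` is the characteristic polynomial of the multiplication matrix in any basis. -/
theorem cpoly_eq {ι : Type*} [Fintype ι] [DecidableEq ι] (b : Module.Basis ι K E) (y : E) :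
    cpoly K y = (Algebra.leftMulMatrix b y).charpoly :=
  ((Algebra.lmul K E y).charpoly_toMatrix b).symm

/-- Cayley–Hamilton: an element is a root of its characteristic polynomial. -/
theorem aeval_cpoly (y : E) : aeval y (cpoly K y) = 0 := by
  have h := LinearMap.aeval_self_charpoly (Algebra.lmul K E y)
  rw [aeval_algHom_apply] at h
  have := congrArg (fun f : Module.End K E => f 1) h
  simpa [cpoly] using this

/-- The characteristic polynomial is monic. -/
theorem cpoly_monic (y : E) : (cpoly K y).Monic := LinearMap.charpoly_monic _

/-- An intermediate closure condition: every element of `K` integral over `R` lies in `R`. -/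
def IntClosedIn (R : Subring K) : Prop := ∀ x : K, IsIntegral R x → x ∈ R

/-- A valuation ring contains every element of its field integral over it. -/
theorem ValuationSubring.intClosedIn (V : ValuationSubring K) : IntClosedIn V.toSubring := by
  intro x hx
  obtain ⟨y, hy⟩ := (IsIntegrallyClosed.isIntegral_iff (R := V) (K := K)).mp hx
  exact hy ▸ y.2

variable {R : Subring K}

/-- An element whose characteristic polynomial has coefficients in `R` is integral over `R`. -/
theorem isIntegral_of_cpoly {y : E} (h : ∀ i, (cpoly K y).coeff i ∈ R) : IsIntegral R y := by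
  have h0 := aeval_cpoly (K := K) y
  have hm := cpoly_monic (K := K) y
  revert h h0 hm
  generalize cpoly K y = q
  intro h h0 hm
  obtain ⟨p, hp, hdeg, hmon⟩ := lifts_and_natDegree_eq_and_monic
    ((lifts_iff_coeff_lifts (f := algebraMap R K) q).mpr fun i => ⟨⟨_, h i⟩, rfl⟩) hm
  refine ⟨p, hmon, ?_⟩
  rw [← aeval_def, ← aeval_map_algebraMap K, hp, h0]

/-- The characteristic polynomial of an integral element has coefficients in an integrally closed
subring. -/
theorem cpoly_coeff_mem (hR : IntClosedIn R) {y : E} (hy : IsIntegral R y) (i : ℕ) :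
    (cpoly K y).coeff i ∈ R := by
  classical
  let b := Module.Free.chooseBasis K E
  rw [cpoly_eq b]
  exact hR _ (isIntegral_coeff_charpoly
    (hy.map ((Algebra.leftMulMatrix b).restrictScalars R)) i)

omit [Module.Finite K E] in
/-- Integrality is monotone in the subring. -/
theorem isIntegral_mono {R' : Subring K} (h : R ≤ R') {y : E} (hy : IsIntegral R y) :
    IsIntegral R' y := by
  obtain ⟨p, hp, hpy⟩ := hy
  refine ⟨p.map (Subring.inclusion h), hp.map _, ?_⟩
  rw [eval₂_map]
  exact hpy

/-- The trace of an integral element lies in an integrally closed subring. -/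
theorem trace_mem (hR : IntClosedIn R) {y : E} (hy : IsIntegral R y) :
    Algebra.trace K E y ∈ R := by
  classical
  let b := Module.Free.chooseBasis K E
  rw [Algebra.trace_eq_matrix_trace b]
  rcases isEmpty_or_nonempty (Module.Free.ChooseBasisIndex K E) with h | h
  · simp [Matrix.trace]
  · rw [Matrix.trace_eq_neg_charpoly_coeff]
    exact R.neg_mem (by rw [← cpoly_eq b]; exact cpoly_coeff_mem hR hy _)

/-- The norm of an integral element lies in an integrally closed subring. -/
theorem norm_mem (hR : IntClosedIn R) {y : E} (hy : IsIntegral R y) :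
    Algebra.norm K y ∈ R := by
  classical
  let b := Module.Free.chooseBasis K E
  rw [Algebra.norm_eq_matrix_det b, Matrix.det_eq_sign_charpoly_coeff, ← cpoly_eq b]
  exact R.mul_mem (R.pow_mem (R.neg_mem R.one_mem) _) (cpoly_coeff_mem hR hy 0)

section Lam

variable {L : Type*} [Field L] [IsAlgClosed L] {A : ValuationSubring L}

/-- `Lam A T` contains the elements of `L(X)` integral over it. -/
theorem Lam_intClosedIn (T : Set (Kappa A)) : IntClosedIn (Lam A T) := by
  intro x hx
  exact mem_Lam_iff.mpr
    ⟨ValuationSubring.intClosedIn (Og A) x (isIntegral_mono (Lam_le_Og T) hx),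
      fun c hc => ValuationSubring.intClosedIn (Loc (c : L)) x (isIntegral_mono (Lam_le_Loc hc) hx)⟩

variable {E : Type*} [CommRing E] [Algebra (RatFunc L) E] [Module.Finite (RatFunc L) E]

/-- Integrality over `Lam A T` is integrality over the Gauss ring and at every point over `T`. -/
theorem isIntegral_Lam_iff {T : Set (Kappa A)} {y : E} :
    IsIntegral (Lam A T) y ↔ IsIntegral (Og A).toSubring y ∧
      ∀ c : A, residue A c ∈ T → IsIntegral (Loc (c : L)).toSubring y := by
  refine ⟨fun h => ⟨isIntegral_mono (Lam_le_Og T) h,
    fun c hc => isIntegral_mono (Lam_le_Loc hc) h⟩, fun h => ?_⟩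
  exact isIntegral_of_cpoly fun i => mem_Lam_iff.mpr
    ⟨cpoly_coeff_mem (ValuationSubring.intClosedIn (Og A)) h.1 i,
      fun c hc => cpoly_coeff_mem (ValuationSubring.intClosedIn (Loc (c : L))) (h.2 c hc) i⟩

end Lam

end Fermat.Agent.EichlerShimura
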