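import Fermat.Agent.EichlerShimura.Regular
import Fermat.Agent.FF.Along

/-!
# The place of `L(x)` at a point
-/

set_option autoImplicit false

noncomputable section

open Polynomial AlgebraicCurve IntermediateField

namespace Fermat.Agent.EichlerShimura

open Fermat.Agent.FF

variable {L : Type*} [Field L]

theorem transcendental_ratFuncX : Transcendental L (RatFunc.X : RatFunc L) := by
  rw [transcendental_iff]
  intro p hp
  rw [← RatFunc.algebraMap_X, aeval_algebraMap_apply, aeval_X_left_apply] at hp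
  exact (map_eq_zero_iff _ (RatFunc.algebraMap_injective L)).mp hp

instance isFunctionField_ratFunc : IsFunctionField L (RatFunc L) := by
  have h : ∀ p : L[X], algebraMap L[X] (RatFunc L) p ∈ L⟮(RatFunc.X : RatFunc L)⟯ := fun p => by
    have : algebraMap L[X] (RatFunc L) p = aeval (RatFunc.X : RatFunc L) p := by
      rw [← RatFunc.algebraMap_X, aeval_algebraMap_apply, aeval_X_left_apply]
    rw [this]
    exact algebra_adjoin_le_adjoin L _ (aeval_mem_adjoin_singleton L _)
  have : FiniteDimensional L⟮(RatFunc.X : RatFunc L)⟯ (RatFunc L) :=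
    Module.Finite.of_surjective (Algebra.linearMap _ _) fun f =>
      ⟨⟨f, by rw [← RatFunc.num_div_denom f]; exact div_mem (h _) (h _)⟩, rfl⟩
  exact isFunctionField_of_finite transcendental_ratFuncX

/-- The uniformiser at `c`. -/
def unifAt (c : L) : RatFunc L := algebraMap L[X] (RatFunc L) (X - C c)

/-- The uniformiser at a point of the line is nonzero. -/
theorem unifAt_ne_zero (c : L) : unifAt c ≠ 0 :=
  (map_ne_zero_iff _ (RatFunc.algebraMap_injective L)).mpr (X_sub_C_ne_zero c)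

/-- The uniformiser at `c` is `X - c`. -/
theorem unifAt_eq (c : L) : unifAt c = RatFunc.X - RatFunc.C c := by
  simp [unifAt, RatFunc.algebraMap_X, RatFunc.algebraMap_C]

theorem unifAt_mem (c : L) : unifAt c ∈ Loc c := algebraMap_mem_Loc c _

/-- The value of a polynomial at `c` is its evaluation. -/
theorem evalLoc_algebraMap (c : L) (p : L[X]) :
    evalLoc c ⟨_, algebraMap_mem_Loc c p⟩ = p.eval c := by
  rw [evalLoc_eq (p := p) (q := 1) _ (by simp) (by rw [map_one, mul_one]), eval_one, _root_.div_one]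

theorem inv_unifAt_not_mem (c : L) : (unifAt c)⁻¹ ∉ Loc c := fun h => by
  have h1 : evalLoc c (⟨_, unifAt_mem c⟩ * ⟨_, h⟩) = 1 := by
    rw [← map_one (evalLoc c)]
    exact congrArg _ (Subtype.ext (mul_inv_cancel₀ (unifAt_ne_zero c)))
  rw [map_mul, show evalLoc c ⟨_, unifAt_mem c⟩ = 0 from (evalLoc_algebraMap c _).trans (by simp),
    zero_mul] at h1
  exact zero_ne_one h1

/-- The place `x = c`. -/
def placeAtPt (c : L) : Place L (RatFunc L) :=
  placeOfValuationSubring (Loc c) (fun a => C_mem_Loc c a) fun h =>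
    inv_unifAt_not_mem c (h ▸ ValuationSubring.mem_top _)

@[simp] theorem placeAtPt_toValuationSubring (c : L) :
    (placeAtPt c).toValuationSubring = Loc c := rfl

/-- Every nonzero function is a power of the uniformiser times a unit. -/
theorem exists_eq_zpow_mul (c : L) {f : RatFunc L} (hf : f ≠ 0) :
    ∃ (k : ℤ) (u : RatFunc L), u ∈ Loc c ∧ u⁻¹ ∈ Loc c ∧ f = unifAt c ^ k * u := by
  obtain ⟨p, hp, hp'⟩ := exists_eq_pow_rootMultiplicity_mul_and_not_dvd f.num
    (RatFunc.num_ne_zero hf) c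
  obtain ⟨q, hq, hq'⟩ := exists_eq_pow_rootMultiplicity_mul_and_not_dvd f.denom
    (RatFunc.denom_ne_zero f) c
  rw [dvd_iff_isRoot, IsRoot] at hp' hq'
  have hi := RatFunc.algebraMap_injective L
  have hp0 : algebraMap L[X] (RatFunc L) p ≠ 0 :=
    (map_ne_zero_iff _ hi).mpr fun h => hp' (by rw [h, eval_zero])
  have hq0 : algebraMap L[X] (RatFunc L) q ≠ 0 :=
    (map_ne_zero_iff _ hi).mpr fun h => hq' (by rw [h, eval_zero])
  refine ⟨(f.num.rootMultiplicity c : ℤ) - f.denom.rootMultiplicity c,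
    algebraMap L[X] (RatFunc L) p / algebraMap L[X] (RatFunc L) q,
    ⟨p, q, hq', div_mul_cancel₀ _ hq0⟩, ?_, ?_⟩
  · rw [inv_div]; exact ⟨q, p, hp', div_mul_cancel₀ _ hp0⟩
  · conv_lhs => rw [← RatFunc.num_div_denom f, hp, hq]
    simp only [map_mul, map_pow]
    rw [show algebraMap L[X] (RatFunc L) (X - C c) = unifAt c from rfl,
      zpow_sub₀ (unifAt_ne_zero c), zpow_natCast, zpow_natCast, div_mul_div_comm]

theorem ord_eq_zero_of_unit {F : Type*} [Field F] [Algebra L F] (v : Place L F) {u : F}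
    (h0 : u ≠ 0) (h : u ∈ v.toValuationSubring) (h' : u⁻¹ ∈ v.toValuationSubring) :
    v.ord u = 0 := by
  have h1 := (mem_iff_ord v h0).mp h
  have h2 := (mem_iff_ord v (inv_ne_zero h0)).mp h'
  rw [v.ord_inv] at h2
  omega

/-- The uniformiser at a point has order one there. -/
theorem ord_unifAt (c : L) : (placeAtPt c).ord (unifAt c) = 1 := by
  have h0 := (mem_iff_ord (placeAtPt c) (unifAt_ne_zero c)).mp (unifAt_mem c)
  obtain ⟨t, ht, ht1⟩ := exists_ord_eq (placeAtPt c) 1
  obtain ⟨k, u, hu, hu', hfac⟩ := exists_eq_zpow_mul c ht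
  have hu0 : u ≠ 0 := by
    rintro rfl
    exact ht (by rw [hfac, mul_zero])
  have := congrArg (placeAtPt c).ord hfac
  rw [ht1, (placeAtPt c).ord_mul (zpow_ne_zero _ (unifAt_ne_zero c)) hu0,
    ord_eq_zero_of_unit (placeAtPt c) hu0 hu hu', add_zero, Place.ord_zpow] at this
  exact Int.eq_one_of_dvd_one h0 (Dvd.intro_left k this.symm)

/-- The only place containing `Loc c` is the place at `c`. -/
theorem eq_placeAtPt {c : L} (v : Place L (RatFunc L)) (h : ∀ f ∈ Loc c, f ∈ v.toValuationSubring) :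
    v = placeAtPt c := by
  have key : ∀ f : RatFunc L, f ≠ 0 →
      ∃ k : ℤ, v.ord f = k * v.ord (unifAt c) ∧ (placeAtPt c).ord f = k := by
    intro f hf
    obtain ⟨k, u, hu, hu', hfac⟩ := exists_eq_zpow_mul c hf
    have hu0 : u ≠ 0 := by
      rintro rfl
      exact hf (by rw [hfac, mul_zero])
    refine ⟨k, ?_, ?_⟩
    · rw [hfac, v.ord_mul (zpow_ne_zero _ (unifAt_ne_zero c)) hu0,
        ord_eq_zero_of_unit v hu0 (h _ hu) (h _ hu'), add_zero, Place.ord_zpow]
    · rw [hfac, (placeAtPt c).ord_mul (zpow_ne_zero _ (unifAt_ne_zero c)) hu0,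
        ord_eq_zero_of_unit (placeAtPt c) hu0 hu hu', add_zero, Place.ord_zpow, ord_unifAt, mul_one]
  have hpos : 0 < v.ord (unifAt c) := by
    refine lt_of_le_of_ne ((mem_iff_ord v (unifAt_ne_zero c)).mp (h _ (unifAt_mem c))) fun h0 => ?_
    obtain ⟨t, ht, ht1⟩ := exists_ord_eq v 1
    obtain ⟨k, hk, -⟩ := key t ht
    rw [ht1, ← h0, mul_zero] at hk
    exact one_ne_zero hk
  refine Place.ext (SetLike.ext fun f => ?_)
  rcases eq_or_ne f 0 with rfl | hf
  · simp [zero_mem]
  obtain ⟨k, hk, hk'⟩ := key f hf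
  rw [mem_iff_ord v hf, mem_iff_ord (placeAtPt c) hf, hk, hk']
  exact mul_nonneg_iff_of_pos_right hpos

theorem exists_eq_unifAt_mul {c : L} {f : RatFunc L} (hf : f ∈ Loc c)
    (h : evalLoc c ⟨f, hf⟩ = 0) : ∃ g ∈ Loc c, f = unifAt c * g :=
  ⟨_, div_X_sub_C_mem_Loc hf h, (mul_inv_cancel_left₀ (unifAt_ne_zero c) f).symm⟩

theorem mem_ordGe_zero_placeAtPt {c : L} {f : RatFunc L} :
    f ∈ ordGe (placeAtPt c) 0 ↔ f ∈ Loc c := mem_ordGe_zero (placeAtPt c)

theorem exists_of_mem_ordGe_one {c : L} {f : RatFunc L} (hf : f ∈ ordGe (placeAtPt c) 1) :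
    ∃ g ∈ Loc c, f = unifAt c * g := by
  rcases eq_or_ne f 0 with rfl | hf0
  · exact ⟨0, zero_mem _, (mul_zero _).symm⟩
  refine ⟨(unifAt c)⁻¹ * f, ?_, (mul_inv_cancel_left₀ (unifAt_ne_zero c) f).symm⟩
  rw [← mem_ordGe_zero_placeAtPt]
  refine mem_ordGe_of_le _ ?_
  rw [(placeAtPt c).ord_mul (inv_ne_zero (unifAt_ne_zero c)) hf0, Place.ord_inv, ord_unifAt]
  have := le_ord_of_mem_ordGe _ hf0 hf
  omega

end Fermat.Agent.EichlerShimura
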