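import Fermat.Agent.EichlerShimura.LinePlace
import Fermat.Agent.EichlerShimura.NormLift
import Fermat.Agent.RedTorsion.TraceVal
import Fermat.Agent.FF.LocalBasis

/-!
# A cover absorbing the ramification makes the algebra unramified

Over algebraically closed constants of characteristic zero, if every place of `E` over `x = c` has
ramification index dividing the multiplicity of the point `d` in the fibre of the cover over `c`,
the base change is unramified at `d`.

Main result: `unramAt_baseChange`.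
-/

set_option autoImplicit false

noncomputable section

open Polynomial AlgebraicCurve

namespace Fermat.Agent.EichlerShimura

open Fermat.Agent.FF

variable {L : Type*} [Field L]

/-! ## Integrality over a point -/

theorem exists_den_factor (C₀ : RatCover L) {d : L} (hd : C₀.den.eval d ≠ 0) :
    ∃ w ∈ Loc d,
      unifAt d ^ (C₀.num - C (C₀.num.eval d / C₀.den.eval d) * C₀.den).rootMultiplicity d =
        C₀.hom (unifAt (C₀.num.eval d / C₀.den.eval d)) * w ∧
      evalLoc d ⟨C₀.hom (unifAt (C₀.num.eval d / C₀.den.eval d)),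
        C₀.exists_mul_eq_of_mem_Loc hd (unifAt_mem _)⟩ = 0 ∧
      ∀ hw : w ∈ Loc d, evalLoc d ⟨w, hw⟩ ≠ 0 := by
  set c := C₀.num.eval d / C₀.den.eval d with hc
  set P := C₀.num - C c * C₀.den with hP
  have hP0 : P ≠ 0 := by
    intro h
    have := congrArg degree (sub_eq_zero.mp h)
    refine absurd this.symm (ne_of_lt (lt_of_le_of_lt ?_ C₀.deg_lt))
    calc _ ≤ 0 + _ := (degree_mul_le _ _).trans (add_le_add degree_C_le le_rfl)
      _ = _ := zero_add _
  obtain ⟨r, hr, hr'⟩ := exists_eq_pow_rootMultiplicity_mul_and_not_dvd P hP0 d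
  rw [dvd_iff_isRoot, IsRoot] at hr'
  have hi := RatFunc.algebraMap_injective L
  have hr0 : algebraMap L[X] (RatFunc L) r ≠ 0 :=
    (map_ne_zero_iff _ hi).mpr fun h => hr' (by rw [h, eval_zero])
  have hphi : C₀.hom (unifAt c) * algebraMap L[X] (RatFunc L) C₀.den =
      algebraMap L[X] (RatFunc L) P := by
    rw [unifAt_eq, map_sub, RatCover.hom_X, RatCover.hom_C, sub_mul, C₀.phi_mul_den, hP,
      map_sub, map_mul, RatFunc.algebraMap_C]
  refine ⟨algebraMap L[X] (RatFunc L) C₀.den / algebraMap L[X] (RatFunc L) r,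
    ⟨C₀.den, r, hr', div_mul_cancel₀ _ hr0⟩, ?_, ?_, fun hw => ?_⟩
  · rw [mul_div, hphi, eq_div_iff hr0, unifAt, ← map_pow, ← map_mul, ← hr]
  · rw [evalLoc_eq _ hd hphi, hP, eval_sub, eval_mul, eval_C, hc, div_mul_cancel₀ _ hd, sub_self,
      zero_div]
  · rw [evalLoc_eq _ hr' (div_mul_cancel₀ _ hr0)]
    exact div_ne_zero hd hr'

variable {E : Type*} [Field E] [Algebra (RatFunc L) E] [Algebra L E] [IsScalarTower L (RatFunc L) E]
  [FiniteDimensional (RatFunc L) E] [IsFunctionField L E]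

omit [IsFunctionField L E] in
theorem restrict_eq_placeAtPt_iff {c : L} (P : Place L E) (h : ∀ f ∈ Loc c,
    algebraMap (RatFunc L) E f ∈ P.toValuationSubring) : P.restrict (RatFunc L) = placeAtPt c :=
  eq_placeAtPt _ fun f hf => by
    rw [Place.restrict_toValuationSubring, ValuationSubring.mem_comap]
    exact h f hf

theorem isIntegral_Loc_of_places {c : L} {f : E}
    (h : ∀ P ∈ (placeAtPt c).fiber E, f ∈ P.toValuationSubring) :
    IsIntegral (Loc c).toSubring f := by
  let R : Subalgebra L E :=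
    { (Loc c).toSubring.map (algebraMap (RatFunc L) E) with
      algebraMap_mem' := fun a => ⟨_, C_mem_Loc c a, by
        rw [IsScalarTower.algebraMap_apply L (RatFunc L) E]; rfl⟩ }
  have hR : IsIntegral R f := isIntegral_of_forall_mem R fun v hv =>
    h v (Place.mem_fiber.mpr (restrict_eq_placeAtPt_iff v fun g hg => hv _ ⟨g, hg, rfl⟩))
  obtain ⟨p, hp, hpf⟩ := hR
  have hlift : p.map (algebraMap R E) ∈
      lifts (algebraMap (Loc c).toSubring E) := by
    refine (lifts_iff_coeff_lifts _).mpr fun n => ?_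
    obtain ⟨g, hg, hge⟩ := (p.coeff n).2
    exact ⟨⟨g, hg⟩, by rw [coeff_map]; exact hge⟩
  obtain ⟨q, hq, -, hqm⟩ := lifts_and_natDegree_eq_and_monic hlift (hp.map _)
  exact ⟨q, hqm, by rw [← eval_map, hq, eval_map, hpf]⟩

omit [Algebra L E] [IsScalarTower L (RatFunc L) E] [FiniteDimensional (RatFunc L) E]
  [IsFunctionField L E] in
/-- An element integral at the image `c` of `d` stays integral at `d` after base change. -/
private theorem isIntegral_algebraMap_BC (C₀ : RatCover L) {d : L} (hd : C₀.den.eval d ≠ 0)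
    {f : E} (hf : IsIntegral (Loc (C₀.num.eval d / C₀.den.eval d)).toSubring f) :
    IsIntegral (Loc d).toSubring (algebraMap E (C₀.BC E) f) := by
  obtain ⟨p, hp, hpe⟩ := hf
  refine ⟨p.map ((C₀.hom.comp (Loc (C₀.num.eval d / C₀.den.eval d)).toSubring.subtype).codRestrict
    (Loc d).toSubring fun g => C₀.exists_mul_eq_of_mem_Loc hd g.2), hp.map _, ?_⟩
  rw [eval₂_map]
  have h2 := congrArg (algebraMap E (C₀.BC E)) hpe
  rw [hom_eval₂, map_zero] at h2
  exact Eq.trans (congrArg (fun τ => p.eval₂ τ _) (RingHom.ext fun g => C₀.toBC_hom E _)) h2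

/-- A function with residue `a` at `c` pulls back to a function with value `a` at `d`. -/
private theorem exists_hom_mem_Loc (C₀ : RatCover L) {d : L} (hd : C₀.den.eval d ≠ 0)
    {T : RatFunc L} {a : L}
    (hT : T - algebraMap L (RatFunc L) a ∈ ordGe (placeAtPt (C₀.num.eval d / C₀.den.eval d)) 1) :
    ∃ h : C₀.hom T ∈ Loc d, evalLoc d ⟨C₀.hom T, h⟩ = a := by
  obtain ⟨T', hT', hTe⟩ := exists_of_mem_ordGe_one hT
  have h1 := C₀.exists_mul_eq_of_mem_Loc hd hT'
  have h2 := C₀.exists_mul_eq_of_mem_Loc hd (unifAt_mem (C₀.num.eval d / C₀.den.eval d))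
  have he : C₀.hom T =
      C₀.hom (unifAt (C₀.num.eval d / C₀.den.eval d)) * C₀.hom T' + RatFunc.C a := by
    rw [← map_mul, ← hTe, map_sub, show algebraMap L (RatFunc L) a = RatFunc.C a from rfl,
      RatCover.hom_C, sub_add_cancel]
  refine ⟨he ▸ add_mem (mul_mem h2 h1) (C_mem_Loc d a), ?_⟩
  obtain ⟨w, -, -, hphi0, -⟩ := exists_den_factor C₀ hd
  rw [show (⟨C₀.hom T, he ▸ add_mem (mul_mem h2 h1) (C_mem_Loc d a)⟩ : Loc d) =
    ⟨_, h2⟩ * ⟨_, h1⟩ + ⟨_, C_mem_Loc d a⟩ from Subtype.ext he, map_add, map_mul, hphi0, zero_mul,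
    zero_add]
  exact (evalLoc_eq (p := C a) (q := 1) _ (by simp)
    (by simp [RatFunc.algebraMap_C])).trans (by simp)

/-! ## The trace matrix -/

omit [Algebra (RatFunc L) E] [IsScalarTower L (RatFunc L) E] [FiniteDimensional (RatFunc L) E]
  [IsFunctionField L E] in
/-- Elements of prescribed order `-i` at each place of a finite set and small at the others. -/
private theorem exists_local_elements (S : Finset (Place L E)) (N : ℕ) :
    ∃ u : Place L E → ℕ → E, (∀ P ∈ S, ∀ i : ℕ, u P i ≠ 0 ∧ P.ord (u P i) = -(i : ℤ)) ∧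
      ∀ P' ∈ S, ∀ P (i : ℕ), P' ≠ P → u P i ∈ ordGe P' N := by
  classical
  choose t ht ht' using fun (P : Place L E) (i : ℕ) => exists_ord_eq P (-(i : ℤ))
  choose u hu using fun (P : Place L E) (i : ℕ) => exists_approx S
    (fun P' => if P' = P then t P i else 0) (fun P' => if P' = P then 1 - (i : ℤ) else N)
  refine ⟨u, fun P hP i => ?_, fun P' hP' P i hne => by simpa [hne] using hu P i P' hP'⟩
  have h1 : u P i - t P i ∈ ordGe P (1 - (i : ℤ)) := by simpa using hu P i P hP
  obtain ⟨h2, h3⟩ := ord_add_eq_left P (ht P i) (g := u P i - t P i)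
    (((mem_ordGe P).mp h1).imp_right fun h => by rw [ht' P i]; omega)
  rw [add_sub_cancel] at h2 h3
  exact ⟨h2, h3.trans (ht' P i)⟩

/-- The index with the opposite residue in the same block. -/
private theorem exists_partner {α : Type*} {S : Finset α} {e : α → ℕ} (v : Σ P : S, Fin (e P)) :
    ∃ w : Σ P : S, Fin (e P), ∀ v' : Σ P : S, Fin (e P),
      ((w.1 : α) = v'.1 ∧ ((w.2 : ℕ) + v'.2) % e w.1 = 0) ↔ v' = v := by
  obtain ⟨⟨P, hP⟩, j⟩ := v
  have hpos : 0 < e P := Fin.pos j
  refine ⟨⟨⟨P, hP⟩, ⟨(e P - j) % e P, Nat.mod_lt _ hpos⟩⟩, ?_⟩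
  rintro ⟨⟨P₁, hP₁⟩, k⟩
  refine ⟨?_, fun h => ?_⟩
  · rintro ⟨h1, h2⟩
    simp only at h1 h2
    subst h1
    refine Sigma.ext rfl (heq_of_eq (Fin.ext ?_))
    show (k : ℕ) = j
    have hj := j.2
    have hk := k.2
    simp only at hj hk
    rcases Nat.eq_zero_or_pos (j : ℕ) with hj0 | hj0
    · rw [hj0, Nat.sub_zero, Nat.mod_self, zero_add, Nat.mod_eq_of_lt hk] at h2
      omega
    · rw [Nat.mod_eq_of_lt (by omega : e P - j < e P)] at h2
      obtain ⟨m, hm⟩ := Nat.dvd_of_mod_eq_zero h2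
      rcases m with _ | _ | m
      · omega
      · omega
      · have : e P * 2 ≤ e P * (m + 1 + 1) := Nat.mul_le_mul_left _ (by omega)
        omega
  · rw [h]
    exact ⟨rfl, by simp only; rw [Nat.mod_add_mod, Nat.sub_add_cancel j.2.le, Nat.mod_self]⟩

/-- A matrix with, for every column, a row supported exactly there has nonzero determinant. -/
private theorem det_ne_zero_of_partners {ι K : Type*} [Fintype ι] [DecidableEq ι] [Field K]
    (A : Matrix ι ι K) (h : ∀ b, ∃ a, A a b ≠ 0 ∧ ∀ b', b' ≠ b → A a b' = 0) : A.det ≠ 0 := by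
  intro h0
  obtain ⟨x, hx, hx0⟩ := Matrix.exists_mulVec_eq_zero_iff.mpr h0
  refine hx (funext fun b => ?_)
  obtain ⟨a, ha, hne⟩ := h b
  have hrow := congrFun hx0 a
  rw [Matrix.mulVec, dotProduct, Pi.zero_apply, Finset.sum_eq_single b
    (fun b' _ hb' => by rw [hne b' hb', zero_mul]) (fun hb => absurd (Finset.mem_univ b) hb),
    mul_eq_zero] at hrow
  exact hrow.resolve_left ha

variable [IsAlgClosed L] [CharZero L]

variable {ι : Type*} [Fintype ι] [DecidableEq ι]

omit [Fintype ι] [DecidableEq ι] in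
/-- If `y` is a unit at one place over `c` and vanishes at the others, the pull back of its trace
does not vanish at `d`. -/
private theorem exists_hom_trace_ne_zero (C₀ : RatCover L) {d : L} (hd : C₀.den.eval d ≠ 0)
    {P : Place L E} (hP : P.restrict (RatFunc L) = placeAtPt (C₀.num.eval d / C₀.den.eval d))
    {y : E} (hy0 : y ≠ 0) (hy : P.ord y = 0)
    (hother : ∀ P' : Place L E,
      P'.restrict (RatFunc L) = placeAtPt (C₀.num.eval d / C₀.den.eval d) → P' ≠ P →
        y ∈ ordGe P' 1) :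
    ∃ h : C₀.hom (Algebra.trace (RatFunc L) E y) ∈ Loc d, evalLoc d ⟨_, h⟩ ≠ 0 := by
  obtain ⟨a, ha⟩ := RedTorsion.exists_sub_mem_ordGe_one P (f := y) (mem_ordGe_of_le P hy.ge)
  have ha0 : a ≠ 0 := by
    rintro rfl
    rw [map_zero, sub_zero] at ha
    have := le_ord_of_mem_ordGe P hy0 ha
    omega
  obtain ⟨r, hr0, hr⟩ := RedTorsion.trace_sub_mem_ordGe_one _ P hP ha hother
  obtain ⟨h, hv⟩ := exists_hom_mem_Loc C₀ hd (T := Algebra.trace (RatFunc L) E y) hr
  exact ⟨h, hv ▸ mul_ne_zero (Nat.cast_ne_zero.mpr hr0.ne') ha0⟩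

omit [Fintype ι] [DecidableEq ι] [IsAlgClosed L] [CharZero L] [IsFunctionField L E]
  [FiniteDimensional (RatFunc L) E] [Algebra L E] [IsScalarTower L (RatFunc L) E] in
/-- If `f ^ e * g ^ i` is integral over `c`, `f` twisted by the `i * (M / e)`-th power of the
uniformiser at `d` is integral at `d`; here `g` is the uniformiser at `c` and `M` the multiplicity
of `d`. -/
private theorem isIntegral_twist (C₀ : RatCover L) {d : L} (hd : C₀.den.eval d ≠ 0) {f : E}
    {e i : ℕ} (he : 0 < e)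
    (hdvd : e ∣ (C₀.num - C (C₀.num.eval d / C₀.den.eval d) * C₀.den).rootMultiplicity d)
    (hf : IsIntegral (Loc (C₀.num.eval d / C₀.den.eval d)).toSubring
      (f ^ e * algebraMap (RatFunc L) E (unifAt (C₀.num.eval d / C₀.den.eval d)) ^ i)) :
    IsIntegral (Loc d).toSubring (algebraMap E (C₀.BC E) f * C₀.toBC E (unifAt d ^
      (i * ((C₀.num - C (C₀.num.eval d / C₀.den.eval d) * C₀.den).rootMultiplicity d / e)))) := by
  obtain ⟨w, hw, hpow, -, -⟩ := exists_den_factor C₀ hd
  set c := C₀.num.eval d / C₀.den.eval d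
  set M := (C₀.num - C c * C₀.den).rootMultiplicity d
  refine IsIntegral.of_pow he ?_
  have hexp : (i * (M / e)) * e = M * i := by
    rw [mul_assoc, Nat.div_mul_cancel hdvd, mul_comm]
  have key : (algebraMap E (C₀.BC E) f * C₀.toBC E (unifAt d ^ (i * (M / e)))) ^ e =
      algebraMap E (C₀.BC E) (f ^ e * algebraMap (RatFunc L) E (unifAt c) ^ i) *
        C₀.toBC E (w ^ i) := by
    simp only [mul_pow, ← map_pow, ← pow_mul]
    rw [hexp, pow_mul, hpow, mul_pow, map_mul, ← mul_assoc, map_mul]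
    congr 1
    congr 1
    rw [map_pow, C₀.toBC_hom, C₀.algebraMap_BC]
    simp only [map_pow]
  rw [key]
  exact (isIntegral_algebraMap_BC C₀ hd hf).mul (isIntegral_algebraMap_of_mem (pow_mem hw i))

omit [Fintype ι] [DecidableEq ι] in
/-- The entry of the trace matrix at two indices `i`, `j` over one place `P`: it does not vanish
at `d` exactly when `i + j ≡ 0` modulo the ramification index. -/
private theorem exists_entry_same (C₀ : RatCover L) {d : L} (hd : C₀.den.eval d ≠ 0)
    {P : Place L E} (hP : P.restrict (RatFunc L) = placeAtPt (C₀.num.eval d / C₀.den.eval d))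
    (hdvd : P.ramificationIndex (RatFunc L) ∣
      (C₀.num - C (C₀.num.eval d / C₀.den.eval d) * C₀.den).rootMultiplicity d)
    {fi fj : E} {i j : ℕ} (hi : fi ≠ 0 ∧ P.ord fi = -(i : ℤ)) (hj : fj ≠ 0 ∧ P.ord fj = -(j : ℤ))
    (hother : ∀ P' : Place L E,
      P'.restrict (RatFunc L) = placeAtPt (C₀.num.eval d / C₀.den.eval d) → P' ≠ P →
        fi ∈ ordGe P' 1 ∧ fj ∈ ordGe P' 1) :
    ∃ h : unifAt d ^ (i * ((C₀.num - C (C₀.num.eval d / C₀.den.eval d) *
      C₀.den).rootMultiplicity d /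
          P.ramificationIndex (RatFunc L)) +
        j * ((C₀.num - C (C₀.num.eval d / C₀.den.eval d) * C₀.den).rootMultiplicity d /
          P.ramificationIndex (RatFunc L))) *
        C₀.hom (Algebra.trace (RatFunc L) E (fi * fj)) ∈ Loc d,
      evalLoc d ⟨_, h⟩ = 0 ↔ ¬ (i + j) % P.ramificationIndex (RatFunc L) = 0 := by
  obtain ⟨w, hw, hpow, hphi0, hw0⟩ := exists_den_factor C₀ hd
  set c := C₀.num.eval d / C₀.den.eval d with hc
  set M := (C₀.num - C c * C₀.den).rootMultiplicity d with hM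
  set Q := placeAtPt c with hQ
  set g : E := algebraMap (RatFunc L) E (unifAt c) with hg
  have hg0 : g ≠ 0 := (_root_.map_ne_zero _).mpr (unifAt_ne_zero c)
  have hord : ∀ P' : Place L E, P'.restrict (RatFunc L) = Q →
      P'.ord g = (P'.ramificationIndex (RatFunc L) : ℤ) := fun P' hP' => by
    rw [hg, P'.ord_restrict, hP', hQ, ord_unifAt, mul_one]
  set s : RatFunc L := unifAt d with hs
  set e := P.ramificationIndex (RatFunc L) with he
  have hwi : ∀ n : ℕ, w ^ n ∈ Loc d := fun n => pow_mem hw n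
  have hsi : ∀ n : ℕ, s ^ n ∈ Loc d := fun n => pow_mem (unifAt_mem d) n
  have hepos : 0 < e := P.ramificationIndex_pos
  set q := M / e with hq
  set sidx := (i + j) / e with hsidx
  set k := (i + j) % e with hk
  have hsplit : i + j = k + e * sidx := (Nat.mod_add_div _ _).symm
  have hMq : e * q = M := Nat.mul_div_cancel' hdvd
  have hMpos : 0 < M := Nat.pos_of_ne_zero fun h0 => by
    rw [h0, pow_zero] at hpow
    have h2 : evalLoc d (⟨C₀.hom (unifAt c), C₀.exists_mul_eq_of_mem_Loc hd (unifAt_mem c)⟩ *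
        ⟨w, hw⟩) = 1 := by
      rw [← map_one (evalLoc d)]
      exact congrArg _ (Subtype.ext hpow.symm)
    rw [map_mul, hphi0, zero_mul] at h2
    exact zero_ne_one h2
  set y := fi * fj * g ^ sidx with hy
  set T := Algebra.trace (RatFunc L) E y with hT
  have hval : s ^ (i * q + j * q) * C₀.hom (Algebra.trace (RatFunc L) E (fi * fj)) =
      C₀.hom T * w ^ sidx * s ^ (k * q) := by
    rw [hT, hy, hg, ← map_pow, mul_comm (fi * fj), ← Algebra.smul_def, map_smul,
      smul_eq_mul, RingHom.map_mul, RingHom.map_pow, ← add_mul, hsplit, add_mul, pow_add,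
      show e * sidx * q = M * sidx by rw [← hMq]; ring, pow_mul (s) M, hpow, mul_pow]
    ring
  rw [hval]
  have hy0 : y ≠ 0 := mul_ne_zero (mul_ne_zero hi.1 hj.1) (pow_ne_zero _ hg0)
  have hyord : P.ord y = -(k : ℤ) := by
    rw [hy, P.ord_mul (mul_ne_zero hi.1 hj.1) (pow_ne_zero _ hg0),
      P.ord_mul hi.1 hj.1, hi.2, hj.2, ord_pow, hord P hP]
    linarith
  have hyO : ∀ P' : Place L E, P'.restrict (RatFunc L) = Q → P' ≠ P → y ∈ ordGe P' 1 := by
    intro P' hP' hne
    refine ordGe_anti P' ?_ (mul_mem_ordGe P' (mul_mem_ordGe P' (hother P' hP' hne).1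
      (hother P' hP' hne).2) (mem_ordGe_of_le P' (le_refl (P'.ord (g ^ sidx)))))
    rw [ord_pow, hord P' hP']
    have : (0 : ℤ) ≤ (sidx : ℤ) * (P'.ramificationIndex (RatFunc L) : ℤ) := by positivity
    linarith
  by_cases hk0 : k = 0
  · rw [hk0, zero_mul, pow_zero, mul_one]
    -- nonzero value at `P`
    obtain ⟨hTm, hTv⟩ := exists_hom_trace_ne_zero C₀ hd hP hy0 (by rw [hyord, hk0]; rfl) hyO
    refine ⟨mul_mem hTm (hwi sidx), ?_⟩
    rw [show (⟨C₀.hom T * w ^ sidx, mul_mem hTm (hwi sidx)⟩ : Loc d) =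
      ⟨_, hTm⟩ * (⟨w, hw⟩ : Loc d) ^ sidx from Subtype.ext (by simp [hT, hy]), map_mul, map_pow]
    exact iff_of_false (mul_ne_zero hTv (pow_ne_zero _ (hw0 hw))) (by simp)
  · have hkpos : 0 < k * q := Nat.mul_pos (Nat.pos_of_ne_zero hk0)
      (Nat.pos_of_ne_zero fun h => hMpos.ne' (by rw [← hMq, h, mul_zero]))
    have hTm : C₀.hom T ∈ Loc d := by
      refine C₀.exists_mul_eq_of_mem_Loc hd (mem_ordGe_zero_placeAtPt.mp ?_)
      have := RedTorsion.trace_mem_ordGe Q 0 (y := y) (fun P' hP' => by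
        rcases eq_or_ne P' P with rfl | hne
        · refine ordGe_anti P' ?_ (mem_ordGe_of_le P' hyord.ge)
          have h1 : k < e := Nat.mod_lt _ hepos
          simp only [e] at h1 ⊢
          omega
        · refine ordGe_anti P' ?_ (hyO P' hP' hne)
          omega) (exists_restrict_eq Q)
      simpa using this
    refine ⟨mul_mem (mul_mem hTm (hwi sidx)) (hsi _), iff_of_true ?_ hk0⟩
    rw [show (⟨C₀.hom T * w ^ sidx * s ^ (k * q), mul_mem (mul_mem hTm (hwi sidx)) (hsi _)⟩ :
      Loc d) = ⟨_, mul_mem hTm (hwi sidx)⟩ * (⟨s, unifAt_mem d⟩ : Loc d) ^ (k * q) from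
        Subtype.ext (by simp), map_mul, map_pow,
      show evalLoc d ⟨s, unifAt_mem d⟩ = 0 from (evalLoc_algebraMap d _).trans (by simp),
      zero_pow hkpos.ne', mul_zero]

omit [Algebra (RatFunc L) E] [IsScalarTower L (RatFunc L) E] [FiniteDimensional (RatFunc L) E]
  [Fintype ι] [DecidableEq ι] [IsFunctionField L E] [IsAlgClosed L] [CharZero L] in
/-- `f ^ e * g ^ i` is regular where `g` has order `e'` and `f` is regular, or `e = e'` and `f`
has a pole of order at most `i`. -/
private theorem pow_mul_pow_mem_ordGe_zero {P : Place L E} {f g : E} {e e' i : ℕ}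
    (hg : P.ord g = (e' : ℤ)) (he : 0 < e')
    (hf : (e = e' ∧ f ∈ ordGe P (-(i : ℤ))) ∨ f ∈ ordGe P 0) :
    f ^ e * g ^ i ∈ ordGe P 0 := by
  rcases hf with ⟨rfl, hf⟩ | hf
  · refine ordGe_anti P ?_ (mul_mem_ordGe P (pow_mem_ordGe P hf e)
      (mem_ordGe_of_le P (le_refl (P.ord (g ^ i)))))
    rw [ord_pow, hg]
    ring_nf
    exact le_rfl
  · refine ordGe_anti P ?_ (mul_mem_ordGe P (pow_mem_ordGe P hf e)
      (mem_ordGe_of_le P (le_refl (P.ord (g ^ i)))))
    rw [ord_pow, hg]
    positivity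

omit [Fintype ι] [DecidableEq ι] [IsAlgClosed L] in
/-- The trace entry of local elements at two places over the point vanishes at `d`. -/
private theorem exists_entry_ne (C₀ : RatCover L) {d : L} (hd : C₀.den.eval d ≠ 0)
    {P P' : Place L E} (hne' : P' ≠ P) {N : ℕ}
    (hex : ∃ P : Place L E,
      P.restrict (RatFunc L) = placeAtPt (C₀.num.eval d / C₀.den.eval d))
    {fi fj : E}
    (hi : ∀ P'' : Place L E, P''.restrict (RatFunc L) =
      placeAtPt (C₀.num.eval d / C₀.den.eval d) → P'' ≠ P → fi ∈ ordGe P'' N)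
    (hj : ∀ P'' : Place L E, P''.restrict (RatFunc L) =
      placeAtPt (C₀.num.eval d / C₀.den.eval d) → P'' ≠ P' → fj ∈ ordGe P'' N)
    {i j : ℕ} (hiP : fi ∈ ordGe P (-(i : ℤ))) (hjP : fj ∈ ordGe P' (-(j : ℤ))) (hiN : i < N)
    (hjN : j < N) (k : ℕ) :
    ∃ h : unifAt d ^ k * C₀.hom (Algebra.trace (RatFunc L) E (fi * fj)) ∈ Loc d,
      evalLoc d ⟨_, h⟩ = 0 := by
  have hT := RedTorsion.trace_mem_ordGe_one (placeAtPt (C₀.num.eval d / C₀.den.eval d))
    (u := fi * fj) (fun P'' hP'' => by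
      rcases eq_or_ne P'' P with rfl | h1
      · refine ordGe_anti P'' ?_ (mul_mem_ordGe P'' hiP (hj P'' hP'' hne'.symm))
        omega
      · rcases eq_or_ne P'' P' with rfl | h2
        · refine ordGe_anti P'' ?_ (mul_mem_ordGe P'' (hi P'' hP'' h1) hjP)
          omega
        · refine ordGe_anti P'' ?_ (mul_mem_ordGe P'' (hi P'' hP'' h1) (hj P'' hP'' h2))
          omega) hex
  obtain ⟨h1, h1'⟩ := exists_hom_mem_Loc C₀ hd (a := 0) (by rwa [map_zero, sub_zero])
  refine ⟨mul_mem (pow_mem (unifAt_mem d) k) h1, ?_⟩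
  rw [show (⟨_, mul_mem (pow_mem (unifAt_mem d) k) h1⟩ : Loc d) =
    ⟨_, pow_mem (unifAt_mem d) k⟩ * ⟨_, h1⟩ from rfl, map_mul, h1', mul_zero]

/-! ## The base change is unramified -/

/-- The base change along a cover absorbing the ramification is unramified. -/
theorem unramAt_baseChange (C₀ : RatCover L) (b : Module.Basis ι (RatFunc L) E) {d : L}
    (hd : C₀.den.eval d ≠ 0)
    (hram : ∀ P : Place L E,
      algebraMap (RatFunc L) E (unifAt (C₀.num.eval d / C₀.den.eval d)) ∈ ordGe P 1 →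
      (P.ord (algebraMap (RatFunc L) E (unifAt (C₀.num.eval d / C₀.den.eval d)))) ∣
        ((C₀.num - C (C₀.num.eval d / C₀.den.eval d) * C₀.den).rootMultiplicity d : ℤ)) :
    UnramAt ι (C₀.BC E) d := by
  classical
  set c := C₀.num.eval d / C₀.den.eval d with hc
  set M := (C₀.num - C c * C₀.den).rootMultiplicity d with hM
  set Q := placeAtPt c with hQ
  set g : E := algebraMap (RatFunc L) E (unifAt c) with hg
  set S := Q.fiber E with hS
  let e : Place L E → ℕ := fun P => P.ramificationIndex (RatFunc L)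
  have hord : ∀ P ∈ S, P.ord g = (e P : ℤ) := fun P hP => by
    rw [hg, P.ord_restrict, Place.mem_fiber.mp hP, hQ, ord_unifAt, mul_one]
  have hepos : ∀ P : Place L E, 0 < e P := fun P => P.ramificationIndex_pos
  have hdvd : ∀ P ∈ S, e P ∣ M := fun P hP => by
    have h1 := hram P (mem_ordGe_of_le P (by rw [hord P hP]; exact_mod_cast hepos P))
    rw [hord P hP] at h1
    exact_mod_cast h1
  have hn : ∑ P ∈ S, e P = Fintype.card ι :=
    (ramification_sum Q).trans (Module.finrank_eq_card_basis b)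
  -- local elements
  set N : ℕ := 2 * Fintype.card ι + 2 with hN
  obtain ⟨u, hu1, huO⟩ := exists_local_elements S N
  have huP' : ∀ P ∈ S, ∀ i : ℕ, u P i ∈ ordGe P (-(i : ℤ)) := fun P hP i =>
    mem_ordGe_of_le P (hu1 P hP i).2.symm.le
  have heN : ∀ P ∈ S, e P ≤ Fintype.card ι := fun P hP => by
    rw [← hn]; exact Finset.single_le_sum (f := e) (fun _ _ => Nat.zero_le _) hP
  -- the index
  let σT := Σ P : S, Fin (e P)
  have hcard : Fintype.card σT = Fintype.card ι := by
    simp only [σT, Fintype.card_sigma, Fintype.card_fin]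
    rw [← hn]
    exact Finset.sum_coe_sort S e
  let eqv : ι ≃ σT := (Fintype.equivOfCardEq hcard).symm
  set s : RatFunc L := unifAt d with hs
  let zz : σT → C₀.BC E := fun v =>
    algebraMap E (C₀.BC E) (u v.1 v.2) * C₀.toBC E (s ^ ((v.2 : ℕ) * (M / e v.1)))
  -- integrality
  have hint : ∀ v, IsIntegral (Loc d).toSubring (zz v) := by
    rintro ⟨⟨P, hP⟩, i⟩
    refine isIntegral_twist C₀ hd (hepos P) (hdvd P hP) (isIntegral_Loc_of_places fun P' hP' => ?_)
    rw [← mem_ordGe_zero]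
    refine pow_mul_pow_mem_ordGe_zero (hord P' hP') (hepos P') ?_
    rcases eq_or_ne P' P with rfl | hne
    · exact .inl ⟨rfl, huP' P' hP i⟩
    · exact .inr (ordGe_anti P' (Int.natCast_nonneg N) (huO P' hP' P i hne))
  -- the trace matrix modulo `d`
  have htr : ∀ (y : E) (f : RatFunc L),
      Algebra.trace (RatFunc L) (C₀.BC E) (algebraMap E (C₀.BC E) y * C₀.toBC E f) =
        f * C₀.hom (Algebra.trace (RatFunc L) E y) := fun y f => by
    rw [mul_comm, show C₀.toBC E f * algebraMap E (C₀.BC E) y = f • algebraMap E (C₀.BC E) y from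
      (Algebra.smul_def _ _).symm, map_smul, C₀.trace_algebraMap_BC E b, smul_eq_mul]
  have hzz : ∀ v v' : σT, zz v * zz v' = algebraMap E (C₀.BC E) (u v.1 v.2 * u v'.1 v'.2) *
      C₀.toBC E (s ^ ((v.2 : ℕ) * (M / e v.1) + (v'.2 : ℕ) * (M / e v'.1))) := fun v v' => by
    simp only [zz, map_mul, pow_add]
    ring
  have hne : ∃ P : Place L E, P.restrict (RatFunc L) = Q := exists_restrict_eq Q
  -- the value of each entry
  have hentry : ∀ v v' : σT, ∃ hT : Algebra.trace (RatFunc L) (C₀.BC E) (zz v * zz v') ∈ Loc d,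
      (evalLoc d ⟨_, hT⟩ = 0 ↔
        ¬((v.1 : Place L E) = v'.1 ∧ ((v.2 : ℕ) + v'.2) % e v.1 = 0)) := by
    rintro ⟨⟨P, hP⟩, i⟩ ⟨⟨P', hP'⟩, j⟩
    simp only
    rw [hzz, htr]
    simp only
    have hsi : ∀ k : ℕ, s ^ k ∈ Loc d := fun k => pow_mem (unifAt_mem d) k
    by_cases hPP : P = P'
    · subst hPP
      obtain ⟨h, hh⟩ := exists_entry_same C₀ hd (Place.mem_fiber.mp hP) (hdvd P hP) (hu1 P hP i)
        (hu1 P hP j) fun P'' hP'' hne'' =>
          ⟨ordGe_anti P'' (by omega) (huO P'' (Place.mem_fiber.mpr hP'') P i hne''),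
            ordGe_anti P'' (by omega) (huO P'' (Place.mem_fiber.mpr hP'') P j hne'')⟩
      exact ⟨h, hh.trans (by simp [e])⟩
    · obtain ⟨h, hh⟩ := exists_entry_ne C₀ hd (N := N) (Ne.symm hPP) hne
        (fun P'' hP'' => huO P'' (Place.mem_fiber.mpr hP'') P i) (fun P'' hP'' =>
          huO P'' (Place.mem_fiber.mpr hP'') P' j) (huP' P hP i) (huP' P' hP' j)
        (i.2.trans_le (heN P hP) |>.trans_le (by omega))
        (j.2.trans_le (heN P' hP') |>.trans_le (by omega)) _
      exact ⟨h, iff_of_true hh fun h' => hPP h'.1⟩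
  choose hmem hiff using fun a a' : ι => hentry (eqv a) (eqv a')
  let D : Matrix ι ι (Loc d) := fun a a' => ⟨_, hmem a a'⟩
  have hdiscr : Algebra.discr (RatFunc L) (fun a => zz (eqv a)) = (D.det : RatFunc L) := by
    rw [Algebra.discr_def]
    exact (congrArg Matrix.det (show Algebra.traceMatrix (RatFunc L) (fun a => zz (eqv a)) =
      D.map (Loc d).subtype from rfl)).trans (RingHom.map_det (Loc d).subtype D).symm
  have hDdet : evalLoc d D.det ≠ 0 := by
    rw [RingHom.map_det]
    refine det_ne_zero_of_partners _ fun b => ?_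
    obtain ⟨v, hv⟩ := exists_partner (eqv b)
    refine ⟨eqv.symm v, ?_, fun b' hb' => ?_⟩ <;>
      simp only [RingHom.mapMatrix_apply, Matrix.map_apply]
    · rw [Ne, hiff, not_not, eqv.apply_symm_apply]
      exact (hv _).mpr rfl
    · rw [hiff, eqv.apply_symm_apply]
      exact fun h => hb' (eqv.injective ((hv _).mp h))
  have hmemD : Algebra.discr (RatFunc L) (fun a => zz (eqv a)) ∈ Loc d := hdiscr ▸ D.det.2
  refine ⟨fun a => zz (eqv a), fun a => hint _, fun h0 => hDdet ?_, inv_mem_Loc hmemD ?_⟩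
  · rw [show D.det = 0 from Subtype.ext (by rw [← hdiscr, h0]; rfl), map_zero]
  · rw [show (⟨_, hmemD⟩ : Loc d) = D.det from Subtype.ext hdiscr]
    exact hDdet

end Fermat.Agent.EichlerShimura
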