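import Fermat.Agent.EichlerShimura.RedPoint

/-!
# Divisors of reduced functions

Over a residue disc at which powers of regular reduced functions lift, the divisor of a nonzero
reduction of a function is the image of its divisor under the reduction of points, the constant
fields being algebraically closed.

Main result: `discSum_eq`.
-/

set_option autoImplicit false

noncomputable section

open scoped Classical
open Polynomial IsLocalRing AlgebraicCurve

namespace Fermat.Agent.EichlerShimura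

open Fermat.Agent.FF

/-! ## Norms and fibres -/

theorem inertiaDeg_eq_one {K F G : Type*} [Field K] [Field F] [Field G] [Algebra K F] [Algebra K G]
    [Algebra G F] [IsScalarTower K G F] [FiniteDimensional G F] [IsAlgClosed K]
    [IsFunctionField K G] [IsFunctionField K F] (P : Place K F) : P.inertiaDeg G = 1 := by
  have := P.deg_restrict_mul_inertiaDeg (F := G)
  rw [deg_eq_one, deg_eq_one, one_mul] at this
  exact this

/-- The order of a norm at a place is the sum of the orders over the fibre. -/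
theorem ord_norm_eq {K F G : Type*} [Field K] [Field F] [Field G] [Algebra K F] [Algebra K G]
    [Algebra G F] [IsScalarTower K G F] [FiniteDimensional G F] [IsAlgClosed K]
    [IsFunctionField K G] [IsFunctionField K F] (v : Place K G) {f : F} (hf : f ≠ 0) :
    v.ord (Algebra.norm G f) = ∑ w ∈ v.fiber F, w.ord f := by
  rw [ord_norm v hf]
  exact Finset.sum_congr rfl fun w _ => by rw [inertiaDeg_eq_one]; simp

theorem placeAtPt_injective {K₀ : Type*} [Field K₀] :
    Function.Injective (placeAtPt : K₀ → Place K₀ (RatFunc K₀)) := fun c d h => by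
  by_contra hne
  have h1 := ord_placeAtPt_algebraMap d (X_sub_C_ne_zero c)
  rw [rootMultiplicity_X_sub_C, if_neg (Ne.symm hne), ← h,
    ord_placeAtPt_algebraMap c (X_sub_C_ne_zero c), rootMultiplicity_X_sub_C_self] at h1
  norm_num at h1

variable {L : Type*} [Field L] [IsAlgClosed L] {A : ValuationSubring L}
variable {ι : Type*} [Fintype ι] [DecidableEq ι]
variable {E : Type*} [Field E] [Algebra (RatFunc L) E] [Algebra L E] [IsScalarTower L (RatFunc L) E]
  [FiniteDimensional (RatFunc L) E] [IsFunctionField L E]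
variable {Eb : Type*} [Field Eb] [Algebra (RatFunc (Kappa A)) Eb] [Algebra (Kappa A) Eb]
  [IsScalarTower (Kappa A) (RatFunc (Kappa A)) Eb] [FiniteDimensional (RatFunc (Kappa A)) Eb]
  [IsFunctionField (Kappa A) Eb] [IsAlgClosed (Kappa A)]

/-- The support of a function as a finset. -/
def suppFin (y : E) : Finset (Place L E) := (finite_support (K := L) y).toFinset

omit [IsAlgClosed L] [Algebra (RatFunc L) E] [IsScalarTower L (RatFunc L) E]
  [FiniteDimensional (RatFunc L) E] in
theorem notMem_suppFin {y : E} {P : Place L E} : P ∉ suppFin y ↔ P.ord y = 0 := by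
  simp [suppFin]

omit [IsAlgClosed L] [Algebra (RatFunc L) E] [IsScalarTower L (RatFunc L) E]
  [FiniteDimensional (RatFunc L) E] in
theorem sum_filter_suppFin (p : Place L E → Prop) [DecidablePred p] {y : E} {S : Finset (Place L E)}
    (hS : suppFin y ⊆ S) : ∑ P ∈ (suppFin y).filter p, P.ord y = ∑ P ∈ S.filter p, P.ord y :=
  Finset.sum_subset (Finset.filter_subset_filter _ hS) fun P hP hP' => by
    simp only [Finset.mem_filter] at hP hP'
    exact notMem_suppFin.mp fun h => hP' ⟨h, hP.2⟩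

omit [IsAlgClosed L] [Algebra (RatFunc L) E] [IsScalarTower L (RatFunc L) E]
  [FiniteDimensional (RatFunc L) E] in
theorem sum_filter_suppFin_mul (p : Place L E → Prop) [DecidablePred p] {y z : E} (hy : y ≠ 0)
    (hz : z ≠ 0) :
    ∑ P ∈ (suppFin (y * z)).filter p, P.ord (y * z) =
      ∑ P ∈ (suppFin y).filter p, P.ord y + ∑ P ∈ (suppFin z).filter p, P.ord z := by
  set S : Finset (Place L E) := suppFin (y * z) ∪ suppFin y ∪ suppFin z
  rw [sum_filter_suppFin p (S := S) (by intro P hP; simp [S, hP]),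
    sum_filter_suppFin p (y := y) (S := S) (by intro P hP; simp [S, hP]),
    sum_filter_suppFin p (y := z) (S := S) (by intro P hP; simp [S, hP]), ← Finset.sum_add_distrib]
  exact Finset.sum_congr rfl fun P _ => P.ord_mul hy hz

/-- If `N(y) q = p` and `q(c) ≠ 0`, the total order of `y` over `c` is the multiplicity of `c` as a
root of `p`. -/
private theorem sum_fiber_eq_rootMultiplicity {y : E} (hy : y ≠ 0) {p q : L[X]} (hp : p ≠ 0)
    {c : L} (hqc : q.eval c ≠ 0)
    (hpq : Algebra.norm (RatFunc L) y * algebraMap L[X] (RatFunc L) q =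
      algebraMap L[X] (RatFunc L) p) :
    ∑ P ∈ (placeAtPt c).fiber E, P.ord y = (p.rootMultiplicity c : ℤ) := by
  have hq : q ≠ 0 := fun h => hqc (by rw [h, eval_zero])
  rw [← ord_norm_eq (placeAtPt c) hy]
  have hord := congrArg (placeAtPt c).ord hpq
  rw [(placeAtPt c).ord_mul (Algebra.norm_ne_zero_iff.mpr hy)
    ((map_ne_zero_iff _ (RatFunc.algebraMap_injective L)).mpr hq), ord_placeAtPt_algebraMap _ hp,
    ord_placeAtPt_algebraMap _ hq, rootMultiplicity_eq_zero hqc, Nat.cast_zero, add_zero] at hord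
  exact hord

/-! ## The orders over a residue disc -/

namespace Model

variable (M : Model A ι E Eb) {t : Kappa A}

/-- The total order of `y` at the points reducing to `Q`. -/
def discSum (t : Kappa A) (Q : Place (Kappa A) Eb) (y : E) : ℤ :=
  ∑ P ∈ (suppFin y).filter (fun P : Place L E => OverDisc t P ∧ IsSpec M t P Q), P.ord y

omit [IsAlgClosed L] [IsFunctionField L E] [IsAlgClosed (Kappa A)] in
theorem ord_nonneg_of_Rint {P : Place L E} (hP : OverDisc t P)
    (Y : Rint E ({t} : Set (Kappa A))) : 0 ≤ P.ord (Y : E) := by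
  obtain ⟨c, hc, hP⟩ := hP
  exact ord_nonneg P (mem_place_of_Rint hc hP Y.2)

omit [Algebra L E] [IsScalarTower L (RatFunc L) E] [FiniteDimensional (RatFunc L) E]
    [IsFunctionField L E] [IsFunctionField (Kappa A) Eb] [IsAlgClosed (Kappa A)] in
theorem redT_mem_place {Q : Place (Kappa A) Eb}
    (hQ : Q.restrict (RatFunc (Kappa A)) = placeAtPt t) (Y : Rint E ({t} : Set (Kappa A))) :
    M.redT {t} Y ∈ Q.toValuationSubring :=
  mem_place_of_isIntegral hQ (M.redT_isIntegral Y (Set.mem_singleton t))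

/-- Equality of the total orders over the residue disc and over its centre. -/
theorem sum_disc_eq {Y : Rint E ({t} : Set (Kappa A))} (hY : M.redT {t} Y ≠ 0) :
    ∑ P ∈ (suppFin (Y : E)).filter (OverDisc t), P.ord (Y : E) =
      ∑ Q ∈ (placeAtPt t).fiber Eb, Q.ord (M.redT {t} Y) := by
  have := M.finite
  have := M.finite'
  have hY0 : (Y : E) ≠ 0 := fun h => hY (by rw [show Y = 0 from Subtype.ext h, map_zero])
  -- `N(Y) q = p` with `q` nonvanishing on the disc; downstairs `N(ȳ) q̄ = p̄`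
  have hN : Algebra.norm (RatFunc L) (Y : E) ∈ Lam A {t} :=
    norm_mem (Lam_intClosedIn _) (mem_Rint.mp Y.2)
  obtain ⟨hNg, hNr⟩ := M.norm_red (M.incl {t} Y)
  have hNbar : redG A ⟨_, Lam_le_Og _ hN⟩ = Algebra.norm (RatFunc (Kappa A)) (M.redT {t} Y) := hNr
  obtain ⟨p, q, hq, hpq⟩ := mem_Lam.mp hN
  have hqt := hq.2 t (Set.mem_singleton t)
  have hNb0 : Algebra.norm (RatFunc (Kappa A)) (M.redT {t} Y) ≠ 0 := Algebra.norm_ne_zero_iff.mpr hY
  have hbar := redG_mul_bar (Lam_le_Og _ hN) hq.1 hpq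
  rw [hNbar] at hbar
  have hp : polyBar A p ≠ 0 := fun h => by
    rw [ratBar_eq_zero_iff.mpr h, mul_eq_zero] at hbar
    exact hbar.elim hNb0 (ratBar_ne_zero_of_mem hq.1)
  have hordt : (placeAtPt t).ord (Algebra.norm (RatFunc (Kappa A)) (M.redT {t} Y)) =
      (polyBar A p).rootMultiplicity t := by
    have hord := congrArg (placeAtPt t).ord hbar
    rw [(placeAtPt t).ord_mul hNb0 (ratBar_ne_zero_of_mem hq.1), ratBar, RingHom.comp_apply,
      RingHom.comp_apply, ord_placeAtPt_algebraMap t hq.1, ord_placeAtPt_algebraMap t hp,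
      rootMultiplicity_eq_zero (p := polyBar A q) hqt, Nat.cast_zero, add_zero] at hord
    exact hord
  -- so the right side counts the roots of `p` reducing to `t`
  rw [← ord_norm_eq (placeAtPt t) hY, hordt, ← card_filter_roots_eq p hp t]
  set R := (polyIncl A p).roots.filter fun r => r ∈ A ∧ res A r = t with hR
  have hp0 : polyIncl A p ≠ 0 := fun h => hp (by
    rw [show p = 0 from polyIncl_injective (by rw [h, map_zero]), map_zero])
  have hqc : ∀ c : A, residue A c = t → (polyIncl A q).eval (c : L) ≠ 0 := fun c hc h0 => by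
    refine hqt ?_
    rw [← hc, ← residue_eval, show q.eval c = 0 from Subtype.ext (by rw [coe_eval]; exact h0),
      map_zero]
  have hfib : ∀ c : A, residue A c = t →
      ∑ P ∈ (placeAtPt (c : L)).fiber E, P.ord (Y : E) =
        ((polyIncl A p).rootMultiplicity (c : L) : ℤ) :=
    fun c hc => sum_fiber_eq_rootMultiplicity hY0 hp0 (hqc c hc) hpq
  -- the fibres over these roots carry that many zeros
  set U := R.toFinset.biUnion fun r => (placeAtPt r).fiber E with hU
  have hmemR : ∀ r ∈ R.toFinset, ∃ c : A, (c : L) = r ∧ residue A c = t := fun r hr => by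
    rw [Multiset.mem_toFinset, hR, Multiset.mem_filter] at hr
    exact ⟨⟨r, hr.2.1⟩, rfl, by rw [← res_of_mem hr.2.1]; exact hr.2.2⟩
  have hsum : ∑ P ∈ U, P.ord (Y : E) = (Multiset.card R : ℤ) := by
    rw [hU, Finset.sum_biUnion, ← Multiset.toFinset_sum_count_eq, Nat.cast_sum]
    · refine Finset.sum_congr rfl fun r hr => ?_
      obtain ⟨c, rfl, hc⟩ := hmemR r hr
      rw [hfib c hc, hR, Multiset.count_filter_of_pos ⟨c.2, (res_coe c).trans hc⟩, count_roots]
    · intro r _ s _ hrs
      refine Finset.disjoint_left.mpr fun P hP hP' => hrs (placeAtPt_injective ?_)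
      rw [← Place.mem_fiber.mp hP, ← Place.mem_fiber.mp hP']
  rw [← hsum]
  -- and every point of the disc in the support of `Y` lies over one of them
  refine Eq.trans ?_ (Finset.sum_subset (Finset.filter_subset (fun P => P.ord (Y : E) ≠ 0) U)
    fun P hP hP' => by simpa [hP] using hP')
  refine Finset.sum_congr ?_ fun _ _ => rfl
  ext P
  simp only [Finset.mem_filter, suppFin, Set.Finite.mem_toFinset, Set.mem_ofPred_eq, hU,
    Finset.mem_biUnion, Place.mem_fiber]
  constructor
  · rintro ⟨hne, c, hc, hP⟩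
    refine ⟨⟨c, ?_, hP⟩, hne⟩
    have hpos : 0 < P.ord (Y : E) := lt_of_le_of_ne (ord_nonneg_of_Rint ⟨c, hc, hP⟩ Y) (Ne.symm hne)
    have hge : P.ord (Y : E) ≤ ∑ P' ∈ (placeAtPt (c : L)).fiber E, P'.ord (Y : E) :=
      Finset.single_le_sum (f := fun P' : Place L E => P'.ord (Y : E))
        (fun P' hP' => ord_nonneg_of_Rint ⟨c, hc, Place.mem_fiber.mp hP'⟩ Y)
          (Place.mem_fiber.mpr hP)
    rw [hfib c hc] at hge
    rw [Multiset.mem_toFinset, hR, Multiset.mem_filter]
    refine ⟨?_, c.2, (res_coe c).trans hc⟩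
    rw [← Multiset.count_pos, count_roots]
    omega
  · rintro ⟨⟨r, hr, hP⟩, hne⟩
    obtain ⟨c, rfl, hc⟩ := hmemR r hr
    exact ⟨hne, c, hc, hP⟩

omit [Algebra L E] [IsScalarTower L (RatFunc L) E] [FiniteDimensional (RatFunc L) E]
  [IsFunctionField L E] [IsAlgClosed L] [IsAlgClosed (Kappa A)] in
/-- An integral element whose reduction vanishes at `Q` and is `1` at the other places over `t`. -/
private theorem exists_separating_lift (hlift : HasPowLift M t) {Q : Place (Kappa A) Eb}
    (hQ : Q.restrict (RatFunc (Kappa A)) = placeAtPt t) :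
    ∃ Z : Rint E ({t} : Set (Kappa A)), M.redT {t} Z ∈ ordGe Q 1 ∧
      ∀ Q' : Place (Kappa A) Eb, Q'.restrict (RatFunc (Kappa A)) = placeAtPt t → Q' ≠ Q →
        M.redT {t} Z - 1 ∈ ordGe Q' 1 := by
  obtain ⟨h, hint, hhQ, hh'⟩ := exists_separating (t := t) Q 1
  obtain ⟨m, hm, hl⟩ := hlift
  obtain ⟨Z, hZ⟩ := hl h hint
  have hZQ : M.redT {t} Z ∈ ordGe Q 1 := by
    rw [hZ]
    exact ordGe_anti Q (show (1 : ℤ) ≤ (m : ℤ) * 1 by omega) (pow_mem_ordGe Q (hhQ hQ) m)
  have hZ' : ∀ Q' : Place (Kappa A) Eb, Q'.restrict (RatFunc (Kappa A)) = placeAtPt t → Q' ≠ Q →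
      M.redT {t} Z - 1 ∈ ordGe Q' 1 := fun Q' hQ' hne => by
    have hh0 : h ∈ Q'.toValuationSubring := by
      rw [← mem_ordGe_zero]
      simpa using add_mem (ordGe_anti Q' (zero_le_one' ℤ) (hh' Q' hQ' hne))
        (mem_ordGe_of_le Q' (le_of_eq (Place.ord_one Q').symm) : (1 : Eb) ∈ ordGe Q' 0)
    rw [hZ, ← geom_sum_mul]
    simpa using mul_mem_ordGe Q' ((mem_ordGe_zero Q').mpr
      (sum_mem fun i _ => pow_mem hh0 i : ∑ i ∈ Finset.range m, h ^ i ∈ Q'.toValuationSubring))
      (hh' Q' hQ' hne)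
  exact ⟨Z, hZQ, hZ'⟩

/-- If `y` has value `v` and `z` value `1` at a place, `y + c z ^ k` has value `v + c` there. -/
private theorem ord_add_mul_pow_eq_zero {K₀ F₀ : Type*} [Field K₀] [Field F₀] [Algebra K₀ F₀]
    (Q : Place K₀ F₀) {y z x : F₀} {v c : K₀}
    (hy : y - algebraMap K₀ F₀ v ∈ ordGe Q 1) (hne : v + c ≠ 0) (hz : z ∈ Q.toValuationSubring)
    (hz1 : z - 1 ∈ ordGe Q 1) (k : ℕ) (hx : x = y + algebraMap K₀ F₀ c * z ^ k) : Q.ord x = 0 := by
  have hk : z ^ k - 1 ∈ ordGe Q 1 := by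
    rw [← geom_sum_mul]
    simpa using mul_mem_ordGe Q ((mem_ordGe_zero Q).mpr
      (sum_mem fun i _ => pow_mem hz i : ∑ i ∈ Finset.range k, z ^ i ∈ Q.toValuationSubring)) hz1
  have hsub : x - algebraMap K₀ F₀ (v + c) ∈ ordGe Q 1 := by
    have hmul := mul_mem_ordGe Q (mem_ordGe_of_le Q (le_of_eq (ord_algebraMap Q c).symm)) hk
    rw [zero_add] at hmul
    convert add_mem hy hmul using 1
    rw [hx, map_add]
    ring
  obtain ⟨-, hord⟩ := ord_add_eq_left Q ((_root_.map_ne_zero _).mpr hne)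
    (g := x - algebraMap K₀ F₀ (v + c))
    (((mem_ordGe Q).mp hsub).imp_right fun h => by rw [ord_algebraMap]; omega)
  rw [add_sub_cancel] at hord
  rw [hord, ord_algebraMap]

/-! ## The divisor of the reduction -/

/-- The key inequality. -/
theorem discSum_le (hlift : HasPowLift M t) {Y : Rint E ({t} : Set (Kappa A))}
    (hY : M.redT {t} Y ≠ 0) {Q : Place (Kappa A) Eb}
    (hQ : Q.restrict (RatFunc (Kappa A)) = placeAtPt t) :
    M.discSum t Q (Y : E) ≤ Q.ord (M.redT {t} Y) := by
  set ybar := M.redT {t} Y with hybar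
  have hbn : 0 ≤ Q.ord ybar := ord_nonneg Q (M.redT_mem_place hQ Y)
  obtain ⟨b, hb⟩ := Int.eq_ofNat_of_zero_le hbn
  -- `Z` reduces to `0` at `Q` and to `1` elsewhere over `t`; at `P ∈ S` it has a value in `m_A`
  obtain ⟨Z, hZQ, hZ'⟩ := M.exists_separating_lift hlift hQ
  set S := (suppFin (Y : E)).filter (fun P : Place L E => OverDisc t P ∧ IsSpec M t P Q) with hS
  have hval : ∀ P ∈ S, ∃ a : A, (Z : E) - algebraMap L E (a : L) ∈ ordGe P 1 ∧ residue A a = 0 :=
    fun P hP => by
    obtain ⟨⟨c, hc, hPc⟩, hs⟩ := (Finset.mem_filter.mp hP).2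
    obtain ⟨a, ha, -⟩ := M.chi_spec hc hPc Z
    refine ⟨a, ha, ?_⟩
    have := sub_mem hZQ (hs.2 Z a ha)
    rw [sub_sub_cancel, RedTorsion.algebraMap_mem_ordGe_one_iff] at this
    exact this
  choose! aP haP haP0 using hval
  -- `γb` avoids the negatives of the values of `ybar` over `t`
  have hval' : ∀ Q' : Place (Kappa A) Eb, Q'.restrict (RatFunc (Kappa A)) = placeAtPt t →
      ∃ v : Kappa A, ybar - algebraMap (Kappa A) Eb v ∈ ordGe Q' 1 := fun Q' hQ' =>
    RedTorsion.exists_sub_mem_ordGe_one Q' ((mem_ordGe_zero Q').mpr (M.redT_mem_place hQ' Y))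
  choose! vQ hvQ using hval'
  obtain ⟨γb, hγb⟩ := (((placeAtPt t).fiber Eb).image fun Q' => -vQ Q').exists_notMem
  obtain ⟨γ, hγ⟩ := residue_surjective γb
  -- `g = γ Z ^ (b + 1) ∏ (Z - aP P) ^ n P` vanishes to high order on `S`, and `ḡ` at `Q`
  let n : Place L E → ℕ := fun P => (P.ord (Y : E)).toNat + 1
  set g : Rint E ({t} : Set (Kappa A)) := ⟨_, constMem γ⟩ * Z ^ (b + 1) *
    ∏ P ∈ S, (Z - ⟨_, constMem (aP P)⟩) ^ n P with hg
  have hgbar : M.redT {t} g = algebraMap (Kappa A) Eb γb *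
      (M.redT {t} Z) ^ (b + 1 + ∑ P ∈ S, n P) := by
    rw [hg, map_mul, map_mul, M.redT_const, hγ, map_pow, map_prod,
      pow_add (M.redT {t} Z) (b + 1), ← Finset.prod_pow_eq_pow_sum, mul_assoc]
    congr 2
    exact Finset.prod_congr rfl fun P hP => by
      rw [map_pow, map_sub, M.redT_const, haP0 P hP, map_zero, sub_zero]
  -- so `f = Y + g` reduces like `Y` at `Q` and is a unit elsewhere over `t`
  set f : Rint E ({t} : Set (Kappa A)) := Y + g with hf
  have hgQ : M.redT {t} g ∈ ordGe Q ((b : ℤ) + 1) := by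
    rw [hgbar]
    refine ordGe_anti Q ?_ (mul_mem_ordGe Q
      (mem_ordGe_of_le Q (le_refl (Q.ord (algebraMap (Kappa A) Eb γb))))
      (pow_mem_ordGe Q hZQ _))
    rw [ord_algebraMap]
    push_cast
    have : (0 : ℤ) ≤ ∑ P ∈ S, (n P : ℤ) := Finset.sum_nonneg fun P _ => Int.natCast_nonneg _
    omega
  obtain ⟨hfb0, hfbQ⟩ := ord_add_eq_left Q hY (g := M.redT {t} g)
    (((mem_ordGe Q).mp hgQ).imp_right fun h => by rw [hb]; omega)
  rw [← map_add] at hfb0 hfbQ
  have hfb' : ∀ Q' ∈ (placeAtPt t).fiber Eb, Q' ≠ Q → Q'.ord (M.redT {t} f) = 0 := by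
    intro Q' hQ'm hne
    have hQ' := Place.mem_fiber.mp hQ'm
    have hne0 : vQ Q' + γb ≠ 0 := fun h0 =>
      hγb (Finset.mem_image.mpr ⟨Q', hQ'm, by linear_combination -h0⟩)
    exact ord_add_mul_pow_eq_zero Q' (hvQ Q' hQ') hne0 (M.redT_mem_place hQ' Z) (hZ' Q' hQ' hne)
      (b + 1 + ∑ P ∈ S, n P) (by rw [hf, map_add, hgbar])
  have htot := M.sum_disc_eq hfb0
  rw [Finset.sum_eq_single Q hfb' (fun h => absurd (Place.mem_fiber.mpr hQ) h), hfbQ] at htot
  rw [← htot]
  -- on `S`, `f` and `Y` have the same order; elsewhere in the disc `f` has no poles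
  have hordS : ∀ P ∈ S, P.ord (f : E) = P.ord (Y : E) := by
    intro P hP
    have hYP : (Y : E) ≠ 0 := fun h => hY (by rw [hybar, show Y = 0 from Subtype.ext h, map_zero])
    have hmem := (Finset.mem_filter.mp hP).2.1
    have hge : (g : E) ∈ ordGe P (P.ord (Y : E) + 1) := by
      rw [hg, ← Finset.mul_prod_erase S _ hP]
      push_cast
      have hZ0 : (Z : E) ∈ ordGe P 0 := mem_ordGe_of_le P (ord_nonneg_of_Rint hmem Z)
      have hc0 : (algebraMap L E (γ : L)) ∈ ordGe P 0 :=
        mem_ordGe_of_le P (le_of_eq (ord_algebraMap P _).symm)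
      have hrest : ((∏ x ∈ S.erase P, (Z - ⟨_, constMem (aP x)⟩) ^ n x :
          Rint E ({t} : Set (Kappa A))) : E) ∈ ordGe P 0 :=
        mem_ordGe_of_le P (ord_nonneg_of_Rint hmem _)
      have hprod := mul_mem_ordGe P (mul_mem_ordGe P hc0 (pow_mem_ordGe P hZ0 (b + 1)))
        (mul_mem_ordGe P (pow_mem_ordGe P (haP P hP) (n P)) hrest)
      push_cast at hprod
      refine ordGe_anti P ?_ hprod
      have hn : (n P : ℤ) = P.ord (Y : E) + 1 := by
        simp only [n]
        have := ord_nonneg_of_Rint hmem Y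
        omega
      rw [← hn]
      simp
    rw [hf]
    exact (ord_add_eq_left P hYP (g := (g : E))
      (((mem_ordGe P).mp hge).imp_right fun h => by omega)).2
  calc M.discSum t Q (Y : E) = ∑ P ∈ S, P.ord (f : E) :=
        Finset.sum_congr rfl fun P hP => (hordS P hP).symm
    _ ≤ ∑ P ∈ (suppFin (f : E)).filter (OverDisc t), P.ord (f : E) := by
        refine le_of_le_of_eq (Finset.sum_le_sum_of_subset_of_nonneg
          (t := (suppFin (f : E) ∪ S).filter (OverDisc t)) ?_ ?_) ?_
        · intro P hP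
          exact Finset.mem_filter.mpr ⟨Finset.mem_union_right _ hP, (Finset.mem_filter.mp hP).2.1⟩
        · intro P hP _
          exact ord_nonneg_of_Rint (Finset.mem_filter.mp hP).2 f
        · exact (sum_filter_suppFin _ Finset.subset_union_left).symm

theorem discSum_eq_of_Rint (hlift : HasPowLift M t) {Y : Rint E ({t} : Set (Kappa A))}
    (hY : M.redT {t} Y ≠ 0) {Q : Place (Kappa A) Eb}
    (hQ : Q.restrict (RatFunc (Kappa A)) = placeAtPt t) :
    M.discSum t Q (Y : E) = Q.ord (M.redT {t} Y) := by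
  refine (Finset.sum_eq_sum_iff_of_le fun Q' hQ' => M.discSum_le hlift hY
    (Place.mem_fiber.mp hQ')).mp ?_ Q (Place.mem_fiber.mpr hQ)
  rw [← M.sum_disc_eq hY]
  simp only [discSum]
  rw [← Finset.sum_biUnion]
  · refine Finset.sum_congr ?_ fun _ _ => rfl
    ext P
    simp only [Finset.mem_biUnion, Finset.mem_filter, Place.mem_fiber]
    constructor
    · rintro ⟨_, -, h1, h2, -⟩; exact ⟨h1, h2⟩
    · rintro ⟨h1, h2⟩
      obtain ⟨Q', hQ'⟩ := M.exists_isSpec h2
      exact ⟨Q', hQ'.1, h1, h2, hQ'⟩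
  · intro Q₁ _ Q₂ _ hne
    refine Finset.disjoint_left.mpr fun P h1 h2 => hne ?_
    exact M.isSpec_unique hlift (Finset.mem_filter.mp h1).2.1 (Finset.mem_filter.mp h1).2.2
      (Finset.mem_filter.mp h2).2.2

/-- The divisor of the reduction of `y` over `t` is the image of the divisor of `y`. -/
theorem discSum_eq (hlift : HasPowLift M t) {y : M.S} (hy : M.red y ≠ 0) {Q : Place (Kappa A) Eb}
    (hQ : Q.restrict (RatFunc (Kappa A)) = placeAtPt t) :
    M.discSum t Q (y : E) = Q.ord (M.red y) := by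
  obtain ⟨q, hq, hmem⟩ := M.exists_mul_mem_Rint {t} y
  set u : Rint E ({t} : Set (Kappa A)) := ⟨_, algebraMap_mem_Rint (apply_mem_fracPart q)⟩ with hu
  have hu1 : M.redT {t} u = algebraMap (RatFunc (Kappa A)) Eb (ratBar A q) := M.redT_ratIncl q
  have hu0 : M.redT {t} u ≠ 0 := by
    rw [hu1]; exact (_root_.map_ne_zero _).mpr (ratBar_ne_zero_of_mem hq)
  have huy : M.redT {t} ⟨_, hmem⟩ = M.redT {t} u * M.red y := by
    show M.red _ = M.red _ * M.red y
    rw [← map_mul]
    rfl
  have hw0 : M.redT {t} ⟨_, hmem⟩ ≠ 0 := by rw [huy]; exact mul_ne_zero hu0 hy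
  have hY' := M.discSum_eq_of_Rint hlift hw0 hQ
  have hU' := M.discSum_eq_of_Rint hlift hu0 hQ
  have hE0 : (u : E) ≠ 0 := fun h => hu0 (by rw [show u = 0 from Subtype.ext h, map_zero])
  have hy0 : (y : E) ≠ 0 := fun h => hy (by rw [show y = 0 from Subtype.ext h, map_zero])
  rw [huy, Q.ord_mul hu0 hy, discSum, show ((⟨_, hmem⟩ : Rint E ({t} : Set (Kappa A))) : E) =
    (u : E) * (y : E) from rfl, sum_filter_suppFin_mul _ hE0 hy0] at hY'
  rw [discSum] at hU'
  rw [hU'] at hY'
  exact add_left_cancel hY'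

end Model

end Fermat.Agent.EichlerShimura
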