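import Fermat.Agent.EichlerShimura.Ramified
import Fermat.Agent.RedTorsion.TraceVal

/-!
# Reduction of the points over a residue disc

`M` a model with good reduction over an algebraically closed `L` such that, for some `m > 0`, the
`m`-th power of every reduced function regular over `t` lifts.  Every point over the residue disc
of `t` reduces to a unique point over `t`.

See `exists_isSpec` and `isSpec_unique`.
-/

set_option autoImplicit false

noncomputable section

open scoped Classical
open Polynomial IsLocalRing AlgebraicCurve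

namespace Fermat.Agent.EichlerShimura

open Fermat.Agent.FF

/-! ## Values at rational places -/

section Value

variable {K F : Type*} [Field K] [Field F] [Algebra K F] [IsAlgClosed K] [IsFunctionField K F]

theorem bijective_algebraMap_residueField (P : Place K F) :
    Function.Bijective (algebraMap K P.ResidueField) := by
  have := finite_residueField P
  exact IsAlgClosed.algebraMap_bijective_of_isIntegral (k := K) (K := P.ResidueField)

/-- The value of a regular function at a rational place. -/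
def valAtP (P : Place K F) : P.toValuationSubring →+* K :=
  (RingEquiv.ofBijective _ (bijective_algebraMap_residueField P)).symm.toRingHom.comp
    (IsLocalRing.residue P.toValuationSubring)

theorem algebraMap_valAtP (P : Place K F) (f : P.toValuationSubring) :
    algebraMap K P.ResidueField (valAtP P f) = IsLocalRing.residue P.toValuationSubring f :=
  (RingEquiv.ofBijective _ (bijective_algebraMap_residueField P)).apply_symm_apply _

/-- A function minus its value at a rational place vanishes there. -/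
theorem sub_valAtP_mem (P : Place K F) {f : F} (hf : f ∈ P.toValuationSubring) :
    f - algebraMap K F (valAtP P ⟨f, hf⟩) ∈ ordGe P 1 := by
  have h0 : IsLocalRing.residue _ ((⟨f, hf⟩ : P.toValuationSubring) -
      algebraMap K P.toValuationSubring (valAtP P ⟨f, hf⟩)) = 0 := by
    rw [map_sub, sub_eq_zero]
    exact (algebraMap_valAtP P _).symm
  rw [IsLocalRing.residue_eq_zero_iff] at h0
  rw [RedTorsion.mem_ordGe_one_iff]
  exact ValuationSubring.coe_mem_nonunits_iff.mpr h0

/-- The value at a rational place is the constant congruent to the function. -/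
theorem valAtP_eq_of_sub_mem (P : Place K F) {f : F} (hf : f ∈ P.toValuationSubring) {a : K}
    (h : f - algebraMap K F a ∈ ordGe P 1) : valAtP P ⟨f, hf⟩ = a := by
  have h1 := sub_mem h (sub_valAtP_mem P hf)
  rw [sub_sub_sub_cancel_left, ← map_sub, RedTorsion.algebraMap_mem_ordGe_one_iff,
    sub_eq_zero] at h1
  exact h1

end Value

/-- The order of a polynomial at the place `x = c` is the multiplicity of the root `c`. -/
theorem ord_placeAtPt_algebraMap {K₀ : Type*} [Field K₀] (c : K₀) {p : K₀[X]} (hp : p ≠ 0) :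
    (placeAtPt c).ord (algebraMap K₀[X] (RatFunc K₀) p) = p.rootMultiplicity c := by
  obtain ⟨r, hr, hr'⟩ := exists_eq_pow_rootMultiplicity_mul_and_not_dvd p hp c
  rw [dvd_iff_isRoot, IsRoot] at hr'
  have hr0 : algebraMap K₀[X] (RatFunc K₀) r ≠ 0 :=
    (map_ne_zero_iff _ (RatFunc.algebraMap_injective K₀)).mpr fun h => hr' (by rw [h, eval_zero])
  conv_lhs => rw [hr, map_mul, map_pow]
  rw [show algebraMap K₀[X] (RatFunc K₀) (X - C c) = unifAt c from rfl,
    (placeAtPt c).ord_mul (pow_ne_zero _ (unifAt_ne_zero c)) hr0, ord_pow, ord_unifAt,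
    ord_eq_zero_of_unit (placeAtPt c) hr0 (algebraMap_mem_Loc c r)
      (inv_apply_mem_fracPart (show r.eval c ≠ 0 from hr') hr0), mul_one, add_zero]

section Coeff

variable {L : Type*} [Field L] {A : ValuationSubring L}

/-- On `Lam A {t}` the value at a point of the disc is integral and reduces to the value at `t`. -/
theorem residue_evalLoc {t : Kappa A} {c : A} (hc : residue A c = t) {f : RatFunc L}
    (hf : f ∈ Lam A ({t} : Set (Kappa A))) :
    ∃ h : evalLoc (c : L) ⟨f, Lam_le_Loc (T := {t}) hc hf⟩ ∈ A,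
      residue A ⟨_, h⟩ = evalLoc t ⟨_, redG_mem_Loc (Set.mem_singleton t) hf⟩ := by
  obtain ⟨p, q, hq, hpq⟩ := mem_Lam.mp hf
  have hqt := hq.2 t (Set.mem_singleton t)
  have hqc : residue A (q.eval c) ≠ 0 := by rw [residue_eval, hc]; exact hqt
  obtain ⟨u, hu⟩ := isUnit_iff_exists_inv.mp ((residue_ne_zero_iff_isUnit _).mp hqc)
  have hu' : ((q.eval c : A) : L) * (u : L) = 1 := congrArg Subtype.val hu
  have hqc' : (polyIncl A q).eval (c : L) ≠ 0 := by
    rw [← coe_eval]
    exact left_ne_zero_of_mul_eq_one hu'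
  have he : evalLoc (c : L) ⟨f, Lam_le_Loc (T := {t}) hc hf⟩ = ((p.eval c * u : A) : L) := by
    rw [evalLoc_eq ⟨f, _⟩ hqc' hpq, ← coe_eval, ← coe_eval,
      div_eq_iff (left_ne_zero_of_mul_eq_one hu')]
    push_cast
    rw [mul_assoc, mul_comm (u : L), hu', mul_one]
  refine ⟨he ▸ (p.eval c * u).2, ?_⟩
  rw [show (⟨_, he ▸ (p.eval c * u).2⟩ : A) = p.eval c * u from Subtype.ext he, map_mul,
    evalLoc_eq (p := polyBar A p) (q := polyBar A q) _ hqt
      (redG_mul_bar (Lam_le_Og _ hf) hq.1 hpq), residue_eval, hc, eq_div_iff hqt]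
  conv_lhs => rw [← hc]
  rw [mul_assoc, ← residue_eval q c, ← map_mul, mul_comm u, hu, map_one, mul_one, hc]

end Coeff

variable {L : Type*} [Field L] [IsAlgClosed L] {A : ValuationSubring L}
variable {ι : Type*} [Fintype ι] [DecidableEq ι]
variable {E : Type*} [Field E] [Algebra (RatFunc L) E] [Algebra L E] [IsScalarTower L (RatFunc L) E]
  [FiniteDimensional (RatFunc L) E] [IsFunctionField L E]
variable {Eb : Type*} [Field Eb] [Algebra (RatFunc (Kappa A)) Eb] [Algebra (Kappa A) Eb]
  [IsScalarTower (Kappa A) (RatFunc (Kappa A)) Eb] [FiniteDimensional (RatFunc (Kappa A)) Eb]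
  [IsFunctionField (Kappa A) Eb] [IsAlgClosed (Kappa A)]

/-! ## Points over a residue disc -/

/-- `P` lies over the residue disc of `t`. -/
def OverDisc (t : Kappa A) (P : Place L E) : Prop :=
  ∃ c : A, residue A c = t ∧ P.restrict (RatFunc L) = placeAtPt (c : L)

/-- A reduced function regular over `t` has a power which lifts. -/
def HasPowLift (M : Model A ι E Eb) (t : Kappa A) : Prop :=
  ∃ m : ℕ, 0 < m ∧ ∀ h : Eb, IsIntegral (Loc t).toSubring h →
    ∃ Z : Rint E ({t} : Set (Kappa A)), M.redT {t} Z = h ^ m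

/-- `Q` is the reduction of `P`. -/
def IsSpec (M : Model A ι E Eb) (t : Kappa A) (P : Place L E) (Q : Place (Kappa A) Eb) : Prop :=
  Q.restrict (RatFunc (Kappa A)) = placeAtPt t ∧
    ∀ (Y : Rint E ({t} : Set (Kappa A))) (a : A), (Y : E) - algebraMap L E (a : L) ∈ ordGe P 1 →
      M.redT {t} Y - algebraMap (Kappa A) Eb (residue A a) ∈ ordGe Q 1

omit [IsAlgClosed L] [IsFunctionField L E] in
/-- Functions of `X` regular at `c` are regular at every place over `x = c`. -/
theorem algebraMap_mem_place {c : L} {P : Place L E} (hP : P.restrict (RatFunc L) = placeAtPt c)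
    {f : RatFunc L} (hf : f ∈ Loc c) : algebraMap (RatFunc L) E f ∈ P.toValuationSubring := by
  rw [← placeAtPt_toValuationSubring c, ← hP, Place.restrict_toValuationSubring] at hf
  exact hf

/-- The value of a function of `X` at a place over `x = c` is its value at `c`. -/
theorem valAtP_algebraMap {c : L} {P : Place L E} (hP : P.restrict (RatFunc L) = placeAtPt c)
    {f : RatFunc L} (hf : f ∈ Loc c) :
    valAtP P ⟨_, algebraMap_mem_place hP hf⟩ = evalLoc c ⟨f, hf⟩ := by
  refine valAtP_eq_of_sub_mem P _ ?_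
  rw [IsScalarTower.algebraMap_apply L (RatFunc L) E, ← map_sub]
  have hC : (algebraMap L (RatFunc L) (evalLoc c ⟨f, hf⟩)) ∈ Loc c := C_mem_Loc c _
  obtain ⟨g, hg, hfg⟩ := exists_eq_unifAt_mul (sub_mem hf hC) (by
    rw [show (⟨f - algebraMap L (RatFunc L) (evalLoc c ⟨f, hf⟩), sub_mem hf hC⟩ : Loc c) =
      ⟨f, hf⟩ - ⟨_, hC⟩ from rfl, map_sub,
      evalLoc_eq (p := C (evalLoc c ⟨f, hf⟩)) (q := 1) ⟨_, hC⟩ (by simp)
        (by simp [RatFunc.algebraMap_C, RatFunc.algebraMap_eq_C]), eval_C, eval_one,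
      _root_.div_one, sub_self])
  rw [hfg, map_mul]
  have h1 : algebraMap (RatFunc L) E (unifAt c) ∈ ordGe P 1 := by
    refine mem_ordGe_of_le P ?_
    rw [P.ord_restrict, hP, ord_unifAt, mul_one]
    exact_mod_cast P.ramificationIndex_pos (F := RatFunc L)
  simpa using mul_mem_ordGe P h1 ((mem_ordGe_zero P).mpr (algebraMap_mem_place hP hg))

omit [IsAlgClosed L] [IsFunctionField L E] in
/-- Elements integral over the local ring at `c` are regular at every place over `x = c`. -/
theorem mem_place_of_isIntegral {c : L} {P : Place L E} (hP : P.restrict (RatFunc L) = placeAtPt c)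
    {y : E} (hy : IsIntegral (Loc c).toSubring y) : y ∈ P.toValuationSubring := by
  obtain ⟨p, hp, hpy⟩ := hy
  refine ValuationSubring.intClosedIn P.toValuationSubring y ⟨p.map
    (((algebraMap (RatFunc L) E).comp (Loc c).toSubring.subtype).codRestrict
      P.toValuationSubring.toSubring fun f => algebraMap_mem_place hP f.2), hp.map _, ?_⟩
  rw [eval₂_map]
  exact hpy

/-! ## Reduction of the points -/

namespace Model

variable (M : Model A ι E Eb) {t : Kappa A}

omit [IsAlgClosed L] [IsFunctionField L E] [IsAlgClosed (Kappa A)] in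
/-- Elements integral near `t` are integral at each place over a lift `c` of `t`. -/
theorem mem_place_of_Rint {c : A} (hc : residue A c = t) {P : Place L E}
    (hP : P.restrict (RatFunc L) = placeAtPt (c : L)) {y : E}
    (hy : y ∈ Rint E ({t} : Set (Kappa A))) : y ∈ P.toValuationSubring :=
  mem_place_of_isIntegral hP (isIntegral_mono (Lam_le_Loc (T := {t}) hc) (mem_Rint.mp hy))

omit [Algebra (Kappa A) Eb] [IsScalarTower (Kappa A) (RatFunc (Kappa A)) Eb]
    [FiniteDimensional (RatFunc (Kappa A)) Eb] [IsFunctionField (Kappa A) Eb]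
    [IsAlgClosed (Kappa A)] in
theorem valAtP_mem {c : A} (hc : residue A c = t) {P : Place L E}
    (hP : P.restrict (RatFunc L) = placeAtPt (c : L)) (Y : Rint E ({t} : Set (Kappa A))) :
    ∃ h : valAtP P ⟨(Y : E), mem_place_of_Rint hc hP Y.2⟩ ∈ A,
      M.redT {t} Y = 0 → residue A ⟨_, h⟩ = 0 := by
  -- The value `a` is a root of the monic polynomial of `Y`, whose coefficients are integral at `c`.
  set a := valAtP P ⟨(Y : E), mem_place_of_Rint hc hP Y.2⟩ with ha
  set q := cpoly (RatFunc L) (Y : E) with hq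
  have hco : ∀ i, q.coeff i ∈ Lam A {t} := fun i =>
    cpoly_coeff_mem (Lam_intClosedIn _) (mem_Rint.mp Y.2) i
  have hcoA := fun i => residue_evalLoc hc (hco i)
  choose hA hAres using hcoA
  let e : ℕ → A := fun i => ⟨_, hA i⟩
  have hroot : a ^ q.natDegree + ∑ i ∈ Finset.range q.natDegree, (e i : L) * a ^ i = 0 := by
    have h0 := aeval_cpoly (K := RatFunc L) (Y : E)
    rw [(cpoly_monic (Y : E) : q.Monic).as_sum, map_add, map_sum] at h0
    simp only [map_pow, map_mul, aeval_X, aeval_C] at h0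
    have h1 : (⟨(Y : E), mem_place_of_Rint hc hP Y.2⟩ : P.toValuationSubring) ^ q.natDegree +
        ∑ i ∈ Finset.range q.natDegree,
          ⟨_, algebraMap_mem_place hP (Lam_le_Loc (T := {t}) hc (hco i))⟩ *
            (⟨(Y : E), mem_place_of_Rint hc hP Y.2⟩ : P.toValuationSubring) ^ i = 0 :=
      Subtype.ext (by push_cast; exact h0)
    have h2 := congrArg (valAtP P) h1
    rw [map_add, map_sum, map_pow, map_zero] at h2
    simp only [map_mul, map_pow] at h2
    refine Eq.trans ?_ h2
    refine congrArg (_ + ·) (Finset.sum_congr rfl fun i _ => ?_)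
    rw [valAtP_algebraMap hP (Lam_le_Loc (T := {t}) hc (hco i))]
  -- So `a` is integral.
  have haA : a ∈ A := by
    have hint : IsIntegral A a := by
      refine ⟨X ^ q.natDegree + ∑ i ∈ Finset.range q.natDegree, C (e i) * X ^ i,
        monic_X_pow_add (lt_of_le_of_lt (degree_sum_le _ _) ((Finset.sup_lt_iff
          (WithBot.bot_lt_coe _)).mpr fun i hi => lt_of_le_of_lt (degree_C_mul_X_pow_le _ _)
          (WithBot.coe_lt_coe.mpr (Finset.mem_range.mp hi)))), ?_⟩
      simp only [eval₂_add, eval₂_finsetSum, eval₂_mul, eval₂_pow, eval₂_C, eval₂_X]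
      exact hroot
    obtain ⟨y, hy⟩ := (IsIntegrallyClosed.isIntegral_iff (R := A) (K := L)).mp hint
    exact hy ▸ y.2
  refine ⟨haA, fun h0 => ?_⟩
  have := M.finite
  have := M.finite'
  -- If `Y` reduces to zero, so do all lower coefficients, and `a` reduces to zero.
  have hn : q.natDegree = Fintype.card ι := by
    rw [hq, cpoly_eq M.b, Matrix.charpoly_natDegree_eq_dim]
  have he0 : ∀ i < q.natDegree, residue A (e i) = 0 := fun i hi => by
    show residue A ⟨_, hA i⟩ = 0
    rw [hAres i]
    obtain ⟨h, hr⟩ := M.cpoly_red (M.incl {t} Y) i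
    have hz : redG A ⟨q.coeff i, Lam_le_Og _ (hco i)⟩ = 0 := by
      refine Eq.trans hr ?_
      rw [show M.red (M.incl {t} Y) = 0 from h0, cpoly_eq M.bb, map_zero, Matrix.charpoly_zero,
        coeff_X_pow, if_neg (by omega)]
    rw [show (⟨_, redG_mem_Loc (Set.mem_singleton t) (hco i)⟩ : Loc t) = 0 from Subtype.ext hz,
      map_zero]
  have h1 : (⟨a, haA⟩ : A) ^ q.natDegree +
      ∑ i ∈ Finset.range q.natDegree, e i * (⟨a, haA⟩ : A) ^ i = 0 :=
    Subtype.ext (by push_cast; exact hroot)
  have h2 := congrArg (residue A) h1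
  rw [map_add, map_sum, map_pow, map_zero, Finset.sum_eq_zero (fun i hi => by
    rw [map_mul, he0 i (Finset.mem_range.mp hi), zero_mul]), add_zero] at h2
  exact pow_eq_zero_iff'.mp h2 |>.1

/-- Evaluation at a point over the disc, reduced. -/
def chi {c : A} (hc : residue A c = t) {P : Place L E}
    (hP : P.restrict (RatFunc L) = placeAtPt (c : L)) :
    Rint E ({t} : Set (Kappa A)) →+* Kappa A :=
  (residue A).comp (((valAtP P).comp ((Rint E ({t} : Set (Kappa A))).subtype.codRestrict
    P.toValuationSubring fun Y => mem_place_of_Rint hc hP Y.2)).codRestrict A fun Y =>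
      (M.valAtP_mem hc hP Y).1)

omit [Algebra (Kappa A) Eb] [IsScalarTower (Kappa A) (RatFunc (Kappa A)) Eb]
    [FiniteDimensional (RatFunc (Kappa A)) Eb] [IsFunctionField (Kappa A) Eb]
    [IsAlgClosed (Kappa A)] in
theorem chi_eq {c : A} (hc : residue A c = t) {P : Place L E}
    (hP : P.restrict (RatFunc L) = placeAtPt (c : L)) {Y : Rint E ({t} : Set (Kappa A))} {a : A}
    (h : (Y : E) - algebraMap L E (a : L) ∈ ordGe P 1) : M.chi hc hP Y = residue A a :=
  congrArg (residue A) (Subtype.ext (valAtP_eq_of_sub_mem P _ h))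

omit [Algebra (Kappa A) Eb] [IsScalarTower (Kappa A) (RatFunc (Kappa A)) Eb]
    [FiniteDimensional (RatFunc (Kappa A)) Eb] [IsFunctionField (Kappa A) Eb]
    [IsAlgClosed (Kappa A)] in
/-- The character at `P` is the residue of the constant to which a function is congruent at `P`. -/
theorem chi_spec {c : A} (hc : residue A c = t) {P : Place L E}
    (hP : P.restrict (RatFunc L) = placeAtPt (c : L)) (Y : Rint E ({t} : Set (Kappa A))) :
    ∃ a : A, (Y : E) - algebraMap L E (a : L) ∈ ordGe P 1 ∧ M.chi hc hP Y = residue A a :=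
  ⟨⟨_, (M.valAtP_mem hc hP Y).1⟩, sub_valAtP_mem P _, rfl⟩

omit [Algebra (Kappa A) Eb] [IsScalarTower (Kappa A) (RatFunc (Kappa A)) Eb]
    [FiniteDimensional (RatFunc (Kappa A)) Eb] [IsFunctionField (Kappa A) Eb]
    [IsAlgClosed (Kappa A)] in
theorem chi_eq_zero {c : A} (hc : residue A c = t) {P : Place L E}
    (hP : P.restrict (RatFunc L) = placeAtPt (c : L)) {Y : Rint E ({t} : Set (Kappa A))}
    (h : M.redT {t} Y = 0) : M.chi hc hP Y = 0 :=
  (M.valAtP_mem hc hP Y).2 h

omit [IsAlgClosed L] [FiniteDimensional (RatFunc L) E] [IsFunctionField L E]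
    [IsAlgClosed (Kappa A)] in
theorem constMem (a : A) : algebraMap L E (a : L) ∈ Rint E ({t} : Set (Kappa A)) := by
  rw [IsScalarTower.algebraMap_apply L (RatFunc L) E, RatFunc.algebraMap_eq_C]
  exact algebraMap_mem_Rint (C_mem_Lam a.2 _)

omit [IsAlgClosed L] [FiniteDimensional (RatFunc L) E] [IsFunctionField L E]
    [IsAlgClosed (Kappa A)] [FiniteDimensional (RatFunc (Kappa A)) Eb]
    [IsFunctionField (Kappa A) Eb] in
theorem redT_const (a : A) :
    M.redT {t} ⟨_, constMem a⟩ = algebraMap (Kappa A) Eb (residue A a) := by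
  rw [IsScalarTower.algebraMap_apply (Kappa A) (RatFunc (Kappa A)) Eb, RatFunc.algebraMap_eq_C,
    ← redG_C a.2, ← M.red_algebraMap (C_mem_Og a.2)]
  refine congrArg M.red (Subtype.ext ?_)
  show algebraMap L E (a : L) = _
  rw [IsScalarTower.algebraMap_apply L (RatFunc L) E, RatFunc.algebraMap_eq_C]

omit [IsAlgClosed L] [Algebra L E] [IsScalarTower L (RatFunc L) E]
    [FiniteDimensional (RatFunc L) E] [IsFunctionField L E] [Algebra (Kappa A) Eb]
    [IsScalarTower (Kappa A) (RatFunc (Kappa A)) Eb] [FiniteDimensional (RatFunc (Kappa A)) Eb]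
    [IsFunctionField (Kappa A) Eb] [IsAlgClosed (Kappa A)] in
theorem redT_ratIncl (q : A[X]) :
    M.redT {t} ⟨_, algebraMap_mem_Rint (apply_mem_fracPart q)⟩ =
      algebraMap (RatFunc (Kappa A)) Eb (ratBar A q) := by
  rw [← redG_ratIncl, ← M.red_algebraMap (f := ratIncl A q) (apply_mem_fracPart q)]
  rfl

omit [IsAlgClosed (Kappa A)] in
/-- Existence of the reduction of a point. -/
theorem exists_isSpec {P : Place L E} (hPt : OverDisc t P) : ∃ Q, IsSpec M t P Q := by
  obtain ⟨c, hc, hP⟩ := hPt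
  -- `R` is the ring of reductions and `I` those of functions vanishing at `P`, a proper nonzero
  -- ideal: some place contains `R` and is positive on `I`. It lies over `t` and is as wanted.
  let R : Subalgebra (Kappa A) Eb :=
    { (M.redT ({t} : Set (Kappa A))).range with
      algebraMap_mem' := fun a => by
        obtain ⟨b, rfl⟩ := residue_surjective a
        exact ⟨_, M.redT_const b⟩ }
  let I : Ideal R :=
    { carrier := {r | ∃ Y, M.redT {t} Y = (r : Eb) ∧ M.chi hc hP Y = 0}
      add_mem' := by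
        rintro r s ⟨Y, hY, hY'⟩ ⟨Z, hZ, hZ'⟩
        exact ⟨Y + Z, by rw [map_add, hY, hZ]; rfl, by rw [map_add, hY', hZ', add_zero]⟩
      zero_mem' := ⟨0, by rw [map_zero]; rfl, map_zero _⟩
      smul_mem' := by
        rintro ⟨_, ⟨Z, rfl⟩⟩ r ⟨Y, hY, hY'⟩
        exact ⟨Z * Y, by rw [map_mul, hY]; rfl, by rw [map_mul, hY', mul_zero]⟩ }
  have hxc : ratIncl A (X - C c) = unifAt (c : L) := by
    simp [ratIncl, polyIncl, unifAt]
  set Yc : Rint E ({t} : Set (Kappa A)) := ⟨_, algebraMap_mem_Rint (apply_mem_fracPart (X - C c))⟩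
  have hchi : M.chi hc hP Yc = 0 := by
    rw [M.chi_eq hc hP (a := 0) ?_, map_zero]
    rw [ZeroMemClass.coe_zero, map_zero, sub_zero]
    show algebraMap (RatFunc L) E (ratIncl A (X - C c)) ∈ ordGe P 1
    rw [hxc]
    refine mem_ordGe_of_le P ?_
    rw [P.ord_restrict, hP, ord_unifAt, mul_one]
    exact_mod_cast P.ramificationIndex_pos (F := RatFunc L)
  have hbar : M.redT {t} Yc = algebraMap (RatFunc (Kappa A)) Eb (unifAt t) := by
    rw [M.redT_ratIncl]
    simp [ratBar, polyBar, unifAt, hc]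
  have hu : algebraMap (RatFunc (Kappa A)) Eb (unifAt t) ∈ R := ⟨Yc, hbar⟩
  obtain ⟨Q, hRQ, hIQ⟩ := exists_place_of_ideal R I (fun htop => by
      obtain ⟨Y, hY, hY'⟩ := htop ▸ (Submodule.mem_top : (1 : R) ∈ ⊤)
      have := M.chi_eq_zero hc hP (Y := Y - 1) (by rw [map_sub, hY, map_one]; exact sub_self _)
      rw [map_sub, hY', map_one, zero_sub, neg_eq_zero] at this
      exact one_ne_zero this)
    (fun hbot => by
      have h : (⟨_, hu⟩ : R) ∈ I := ⟨Yc, hbar, hchi⟩
      rw [hbot, Submodule.mem_bot] at h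
      exact unifAt_ne_zero t ((_root_.map_eq_zero _).mp (congrArg Subtype.val h)))
  have hut : algebraMap (RatFunc (Kappa A)) Eb (unifAt t) ∈ ordGe Q 1 :=
    hIQ ⟨_, hu⟩ ⟨Yc, hbar, hchi⟩
  have hpoly : ∀ p : (Kappa A)[X],
      algebraMap (RatFunc (Kappa A)) Eb (algebraMap (Kappa A)[X] (RatFunc (Kappa A)) p)
        ∈ Q.toValuationSubring := fun p => by
    obtain ⟨q, rfl⟩ := map_surjective _ residue_surjective p
    exact hRQ _ ⟨_, M.redT_ratIncl q⟩
  have hover : Q.restrict (RatFunc (Kappa A)) = placeAtPt t := eq_placeAtPt _ fun f hf => by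
    rw [Place.restrict_toValuationSubring, ValuationSubring.mem_comap]
    obtain ⟨p, q, hq, hpq⟩ := mem_Loc.mp hf
    have hq0 : algebraMap (Kappa A)[X] (RatFunc (Kappa A)) q ≠ 0 :=
      (map_ne_zero_iff _ (RatFunc.algebraMap_injective _)).mpr fun h => hq (by rw [h, eval_zero])
    obtain ⟨r, hr⟩ : X - C t ∣ q - C (q.eval t) := dvd_iff_isRoot.mpr (by simp)
    have h2 : algebraMap (RatFunc (Kappa A)) Eb (algebraMap (Kappa A)[X] (RatFunc (Kappa A)) q) -
        algebraMap (Kappa A) Eb (q.eval t) ∈ ordGe Q 1 := by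
      rw [IsScalarTower.algebraMap_apply (Kappa A) (RatFunc (Kappa A)) Eb, RatFunc.algebraMap_eq_C,
        ← RatFunc.algebraMap_C, ← map_sub, ← map_sub, hr, map_mul, map_mul]
      simpa [unifAt] using mul_mem_ordGe Q hut ((mem_ordGe_zero Q).mpr (hpoly r))
    have hord : Q.ord (algebraMap (RatFunc (Kappa A)) Eb
        (algebraMap (Kappa A)[X] (RatFunc (Kappa A)) q)) = 0 := by
      obtain ⟨-, h3⟩ := ord_add_eq_left Q (f := algebraMap (Kappa A) Eb (q.eval t))
        ((_root_.map_ne_zero _).mpr hq) (((mem_ordGe Q).mp h2).imp_right fun h => by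
          rw [ord_algebraMap]; omega)
      rw [add_sub_cancel] at h3
      rw [h3, ord_algebraMap]
    have hinv : (algebraMap (RatFunc (Kappa A)) Eb
        (algebraMap (Kappa A)[X] (RatFunc (Kappa A)) q))⁻¹ ∈ Q.toValuationSubring :=
      (mem_iff Q).mpr (Or.inr (by rw [Q.ord_inv, hord]; rfl))
    have := mul_mem (hpoly p) hinv
    rwa [← hpq, map_mul, mul_inv_cancel_right₀ ((_root_.map_ne_zero _).mpr hq0)] at this
  refine ⟨Q, hover, fun Y a ha => ?_⟩
  have hr : M.redT {t} Y - algebraMap (Kappa A) Eb (residue A a) ∈ R :=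
    ⟨Y - ⟨_, constMem a⟩, by rw [map_sub, M.redT_const]⟩
  refine hIQ ⟨_, hr⟩ ⟨Y - ⟨_, constMem a⟩, by rw [map_sub, M.redT_const], ?_⟩
  rw [M.chi_eq hc hP (a := 0) ?_, map_zero]
  simpa using ha

omit [IsAlgClosed L] [IsAlgClosed (Kappa A)] in
/-- The functions regular over `t` separate the places over `t`. -/
theorem exists_separating (Q : Place (Kappa A) Eb) (n : ℕ) :
    ∃ h : Eb, IsIntegral (Loc t).toSubring h ∧
      (Q.restrict (RatFunc (Kappa A)) = placeAtPt t → h ∈ ordGe Q n) ∧
      ∀ Q' : Place (Kappa A) Eb, Q'.restrict (RatFunc (Kappa A)) = placeAtPt t → Q' ≠ Q →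
        h - 1 ∈ ordGe Q' 1 := by
  set S := (placeAtPt t).fiber Eb
  obtain ⟨h, hh⟩ := exists_approx S (fun Q' => if Q' = Q then 0 else 1)
    (fun Q' => if Q' = Q then (n : ℤ) else 1)
  refine ⟨h, isIntegral_Loc_of_places fun Q' hQ' => ?_, fun hQ => ?_, fun Q' hQ' hne => ?_⟩
  · rw [← mem_ordGe_zero]
    rcases eq_or_ne Q' Q with rfl | hne
    · exact ordGe_anti Q' (Int.natCast_nonneg n) (by simpa using hh Q' hQ')
    · have := add_mem (ordGe_anti Q' (zero_le_one' ℤ) (by simpa [hne] using hh Q' hQ'))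
        (mem_ordGe_of_le Q' (le_of_eq (Place.ord_one Q').symm) : (1 : Eb) ∈ ordGe Q' 0)
      simpa using this
  · simpa using hh Q (Place.mem_fiber.mpr hQ)
  · simpa [hne] using hh Q' (Place.mem_fiber.mpr hQ')

omit [IsAlgClosed (Kappa A)] in
/-- Uniqueness of the reduction of a point. -/
theorem isSpec_unique (hlift : HasPowLift M t) {P : Place L E} (hPt : OverDisc t P)
    {Q Q' : Place (Kappa A) Eb} (hQ : IsSpec M t P Q) (hQ' : IsSpec M t P Q') : Q = Q' := by
  obtain ⟨c, hc, hP⟩ := hPt
  by_contra hne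
  obtain ⟨h, hint, hhQ, hh'⟩ := exists_separating (t := t) Q 1
  obtain ⟨m, hm, hl⟩ := hlift
  obtain ⟨Z, hZ⟩ := hl h hint
  obtain ⟨a, ha, -⟩ := M.chi_spec hc hP Z
  have h1 := hQ.2 Z a ha
  have h2 := hQ'.2 Z a ha
  rw [hZ] at h1 h2
  have h3 : algebraMap (Kappa A) Eb (residue A a) ∈ ordGe Q 1 := by
    have := sub_mem (ordGe_anti Q (show (1 : ℤ) ≤ (m : ℤ) * 1 by omega)
      (pow_mem_ordGe Q (hhQ hQ.1) m)) h1
    simpa using this
  have h5 := hh' Q' hQ'.1 (Ne.symm hne)
  have h4 : h ^ m - 1 ∈ ordGe Q' 1 := by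
    have hh0 : h ∈ Q'.toValuationSubring := by
      rw [← mem_ordGe_zero]
      simpa using add_mem (ordGe_anti Q' (zero_le_one' ℤ) h5)
        (mem_ordGe_of_le Q' (le_of_eq (Place.ord_one Q').symm) : (1 : Eb) ∈ ordGe Q' 0)
    rw [← geom_sum_mul]
    simpa using mul_mem_ordGe Q'
      ((mem_ordGe_zero Q').mpr (sum_mem fun i _ => pow_mem hh0 i : ∑ i ∈ Finset.range m,
        h ^ i ∈ Q'.toValuationSubring))
          h5
  have h6 : algebraMap (Kappa A) Eb (residue A a - 1) ∈ ordGe Q' 1 := by
    have := sub_mem h4 h2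
    simpa [map_sub] using this
  rw [RedTorsion.algebraMap_mem_ordGe_one_iff] at h3 h6
  rw [h3, zero_sub, neg_eq_zero] at h6
  exact one_ne_zero h6

end Model

end Fermat.Agent.EichlerShimura
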