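import Fermat.Agent.EichlerShimura.Model

/-!
# Elements integral over `Lam A T` and their reductions
-/

set_option autoImplicit false

noncomputable section

open Polynomial

namespace Fermat.Agent.EichlerShimura

section Ord

variable {K₀ : Type*} [Field K₀] {c : K₀}

theorem num_rootMultiplicity_eq {f : RatFunc K₀} (hf : f ∈ Loc c) {p q : K₀[X]} (hq : q.eval c ≠ 0)
    (hp : p ≠ 0) (h : f * algebraMap K₀[X] (RatFunc K₀) q = algebraMap K₀[X] (RatFunc K₀) p) :
    f.num.rootMultiplicity c = p.rootMultiplicity c := by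
  have hinj := RatFunc.algebraMap_injective K₀
  have hq0 : q ≠ 0 := fun h0 => hq (by simp [h0])
  have e : f.num * q = p * f.denom := hinj <| by
    rw [map_mul, map_mul, ← h]
    conv_rhs => arg 1; arg 1; rw [← RatFunc.num_div_denom f]
    field_simp [(map_ne_zero_iff _ hinj).mpr (RatFunc.denom_ne_zero f)]
  have hd := RatFunc.denom_ne_zero f
  have hn : f.num ≠ 0 := fun h0 => mul_ne_zero hp hd (by rw [← e, h0, zero_mul])
  have := congrArg (rootMultiplicity c) e
  rwa [rootMultiplicity_mul (mul_ne_zero hn hq0), rootMultiplicity_mul (mul_ne_zero hp hd),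
    rootMultiplicity_eq_zero (p := q) hq,
    rootMultiplicity_eq_zero (p := f.denom) (denom_eval_ne_zero hf), add_zero, add_zero] at this

/-- An element of the local ring at `c` with nonzero value is a unit there. -/
theorem inv_mem_Loc {f : RatFunc K₀} (hf : f ∈ Loc c) (h : evalLoc c ⟨f, hf⟩ ≠ 0) :
    f⁻¹ ∈ Loc c := by
  obtain ⟨p, q, hq, hpq⟩ := mem_Loc.mp hf
  have hp : p.eval c ≠ 0 := fun h0 => h (by rw [evalLoc_eq ⟨f, hf⟩ hq hpq, h0, zero_div])
  refine ⟨q, p, hp, ?_⟩
  rcases eq_or_ne f 0 with rfl | hf0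
  · exact absurd (map_zero _) h
  · rw [← hpq, inv_mul_cancel_left₀ hf0]

/-- An element of the local ring at `c` vanishing at `c` is divisible there by `x - c`. -/
theorem div_X_sub_C_mem_Loc {f : RatFunc K₀} (hf : f ∈ Loc c) (h : evalLoc c ⟨f, hf⟩ = 0) :
    (algebraMap K₀[X] (RatFunc K₀) (X - C c))⁻¹ * f ∈ Loc c := by
  obtain ⟨p, q, hq, hpq⟩ := mem_Loc.mp hf
  rw [evalLoc_eq ⟨f, hf⟩ hq hpq, div_eq_zero_iff, or_iff_left hq] at h
  obtain ⟨r, rfl⟩ : X - C c ∣ p := dvd_iff_isRoot.mpr h
  refine ⟨r, q, hq, ?_⟩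
  rw [mul_assoc, hpq, map_mul, inv_mul_cancel_left₀
    ((map_ne_zero_iff _ (RatFunc.algebraMap_injective K₀)).mpr (X_sub_C_ne_zero c))]

theorem inv_X_sub_C_mem_Loc {d : K₀} (h : c ≠ d) :
    (algebraMap K₀[X] (RatFunc K₀) (X - C d))⁻¹ ∈ Loc c :=
  inv_apply_mem_fracPart (show (X - C d : K₀[X]).eval c ≠ 0 by simpa [sub_eq_zero] using h)
    ((map_ne_zero_iff _ (RatFunc.algebraMap_injective K₀)).mpr (X_sub_C_ne_zero d))

end Ord

section Algebra

variable {K : Type*} [Field K] {E : Type*} [CommRing E] [Algebra K E] {R : Subring K}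

/-- A root of a monic polynomial with coefficients in `R` is integral over `R`. -/
theorem isIntegral_of_monic_coeff {y : E} {q : K[X]} (hq : q.Monic) (h : ∀ i, q.coeff i ∈ R)
    (hy : aeval y q = 0) : IsIntegral R y := by
  obtain ⟨p, hp, -, hmon⟩ := lifts_and_natDegree_eq_and_monic
    ((lifts_iff_coeff_lifts (f := algebraMap R K) q).mpr fun i => ⟨⟨_, h i⟩, rfl⟩) hq
  exact ⟨p, hmon, by rw [← aeval_def, ← aeval_map_algebraMap K, hp, hy]⟩

/-- Elements of `R` are integral over `R` in every algebra. -/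
theorem isIntegral_algebraMap_of_mem {f : K} (hf : f ∈ R) : IsIntegral R (algebraMap K E f) :=
  isIntegral_algebraMap (R := R) (x := ⟨f, hf⟩)

end Algebra

variable {L : Type*} [Field L] [IsAlgClosed L] {A : ValuationSubring L}
variable {ι : Type*} [Fintype ι] [DecidableEq ι]
variable {E : Type*} [CommRing E] [Algebra (RatFunc L) E]
variable {Eb : Type*} [CommRing Eb] [Algebra (RatFunc (Kappa A)) Eb]

variable (E) in
/-- The elements integral over `Lam A T`. -/
def Rint (T : Set (Kappa A)) : Subring E := (integralClosure (Lam A T) E).toSubring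

omit [IsAlgClosed L] in
/-- Membership in `Rint` is integrality over `Lam A T`. -/
theorem mem_Rint {T : Set (Kappa A)} {y : E} : y ∈ Rint E T ↔ IsIntegral (Lam A T) y := Iff.rfl

omit [IsAlgClosed L] in
/-- Functions in `Lam A T` are integral over it. -/
theorem algebraMap_mem_Rint {T : Set (Kappa A)} {f : RatFunc L} (hf : f ∈ Lam A T) :
    algebraMap (RatFunc L) E f ∈ Rint E T :=
  isIntegral_algebraMap_of_mem hf

namespace Model

variable (M : Model A ι E Eb)

omit [DecidableEq ι] [IsAlgClosed L] in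
/-- The algebra of a model is finite over `L(X)`. -/
theorem finite (M : Model A ι E Eb) : Module.Finite (RatFunc L) E := Module.Finite.of_basis M.b

omit [DecidableEq ι] [IsAlgClosed L] in
/-- The reduced algebra of a model is finite over `k(X)`. -/
theorem finite' (M : Model A ι E Eb) : Module.Finite (RatFunc (Kappa A)) Eb :=
  Module.Finite.of_basis M.bb

omit [IsAlgClosed L] in
/-- Elements integral over `Lam A T` lie in the Gauss lattice. -/
theorem rint_le_S (T : Set (Kappa A)) : Rint E T ≤ M.S := fun _ hy =>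
  M.mem_S_iff_isIntegral.mpr (isIntegral_mono (R := Lam A T) (Lam_le_Og T) hy)

/-- Inclusion of the integral elements in the Gauss lattice. -/
def incl (T : Set (Kappa A)) : Rint E T →+* M.S := Subring.inclusion (M.rint_le_S T)

/-- The reduction map on integral elements. -/
def redT (T : Set (Kappa A)) : Rint E T →+* Eb := M.red.comp (M.incl T)

omit [IsAlgClosed L] in
/-- `redT` is the reduction of the model on `Rint E T`. -/
theorem redT_apply {T : Set (Kappa A)} (y : Rint E T) :
    M.redT T y = M.red ⟨(y : E), M.rint_le_S T y.2⟩ := rfl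

/-- Reductions of integral elements are integral over the local rings at points of `T`. -/
theorem redT_isIntegral {T : Set (Kappa A)} (y : Rint E T) {t : Kappa A} (ht : t ∈ T) :
    IsIntegral (Loc t).toSubring (M.redT T y) := by
  have := M.finite
  have := M.finite'
  refine isIntegral_of_cpoly fun i => ?_
  obtain ⟨h, hr⟩ := M.cpoly_red (M.incl T y) i
  rw [show (cpoly (RatFunc (Kappa A)) (M.redT T y)).coeff i = _ from hr.symm]
  exact redG_mem_Loc ht (cpoly_coeff_mem (Lam_intClosedIn T) (mem_Rint.mp y.2) i)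

theorem discr_mem_Lam (M : Model A ι E Eb) {T : Set (Kappa A)} (y : ι → Rint E T) :
    Algebra.discr (RatFunc L) (fun i => (y i : E)) ∈ Lam A T := by
  have : Module.Finite (RatFunc L) E := M.finite
  rw [Algebra.discr_def]
  let D : Matrix ι ι (Lam A T) := fun i j =>
    ⟨_, trace_mem (Lam_intClosedIn T) ((mem_Rint.mp (y i).2).mul (mem_Rint.mp (y j).2))⟩
  rw [show Algebra.traceMatrix (RatFunc L) (fun i => (y i : E)) = D.map (Lam A T).subtype from rfl,
    ← RingHom.mapMatrix_apply, ← RingHom.map_det]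
  exact D.det.2

omit [IsAlgClosed L] in
/-- A Gauss-integral element becomes regular after multiplication by a polynomial. -/
theorem exists_mul_mem_Rint (T : Set (Kappa A)) (y : M.S) :
    ∃ q : A[X], polyBar A q ≠ 0 ∧
      algebraMap (RatFunc L) E (ratIncl A q) * (y : E) ∈ Rint E T := by
  have := M.finite
  have := M.finite'
  set P := cpoly (RatFunc L) (y : E) with hP
  choose p q hq hpq using fun i => mem_Og.mp (M.cpoly_red y i).1
  refine ⟨∏ i ∈ Finset.range P.natDegree, q i, ?_, ?_⟩
  · rw [map_prod]; exact Finset.prod_ne_zero_iff.mpr fun i _ => hq i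
  set Q := ∏ i ∈ Finset.range P.natDegree, q i
  refine mem_Rint.mpr (isIntegral_of_monic_coeff (q := P.scaleRoots (ratIncl A Q))
    ((monic_scaleRoots_iff _).mpr (cpoly_monic _)) (fun i => ?_)
    (scaleRoots_aeval_eq_zero (aeval_cpoly _)))
  rw [coeff_scaleRoots]
  rcases lt_or_ge i P.natDegree with hi | hi
  · obtain ⟨u, hu⟩ : q i ∣ Q := Finset.dvd_prod_of_mem _ (Finset.mem_range.mpr hi)
    rw [show P.natDegree - i = (P.natDegree - i - 1) + 1 by omega, pow_succ',
      ← mul_assoc]
    refine mul_mem ?_ (pow_mem (apply_mem_fracPart _) _)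
    rw [hu, map_mul, ← mul_assoc, hP, hpq i, ← map_mul]
    exact apply_mem_fracPart _
  · rw [show P.natDegree - i = 0 by omega, pow_zero, mul_one]
    rcases eq_or_lt_of_le hi with h | h
    · rw [← h, (cpoly_monic (y : E)).coeff_natDegree]; exact one_mem _
    · rw [coeff_eq_zero_of_natDegree_lt h]; exact zero_mem _

omit [DecidableEq ι] [IsAlgClosed L] in
theorem red_algebraMap_mul {f : RatFunc L} (hf : f ∈ Og A) (y : M.S) :
    M.red ⟨algebraMap (RatFunc L) E f * (y : E), mul_mem (M.algebraMap_mem hf) y.2⟩ =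
      algebraMap (RatFunc (Kappa A)) Eb (redG A ⟨f, hf⟩) * M.red y := by
  rw [← M.red_algebraMap hf, ← map_mul]
  rfl

end Model

omit [IsAlgClosed L] in
/-- The Gauss reduction of an integral polynomial is its reduction. -/
theorem redG_ratIncl (q : A[X]) :
    redG A ⟨ratIncl A q, apply_mem_fracPart q⟩ = ratBar A q := by
  rw [redG_eq (p := q) (q := 1) _ (by simp) (by rw [map_one, mul_one]), map_one, div_one]

end Fermat.Agent.EichlerShimura
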