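import Fermat.Agent.EichlerShimura.Disc
import Mathlib.RingTheory.AdjoinRoot

/-!
# Rational substitutions `x = num t / den t`
-/

set_option autoImplicit false

noncomputable section

open Polynomial

namespace Fermat.Agent.EichlerShimura

/-- A rational function `num/den` with `num` monic, `deg den < deg num`, coprime. -/
structure RatCover (K₀ : Type*) [Field K₀] where
  num : K₀[X]
  den : K₀[X]
  monic : num.Monic
  deg_lt : den.degree < num.degree
  cop : IsCoprime num den
  pos : 0 < num.natDegree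

namespace RatCover

variable {K₀ : Type*} [Field K₀] (C₀ : RatCover K₀)

/-- The degree. -/
abbrev m : ℕ := C₀.num.natDegree

/-- The denominator of a cover of the line is nonzero. -/
theorem den_ne_zero : C₀.den ≠ 0 := by
  intro h
  have := C₀.cop
  rw [h, isCoprime_zero_right] at this
  exact absurd (natDegree_eq_zero_of_isUnit this) C₀.pos.ne'

/-- The rational function. -/
def phi : RatFunc K₀ :=
  algebraMap K₀[X] (RatFunc K₀) C₀.num / algebraMap K₀[X] (RatFunc K₀) C₀.den

/-- The denominator is nonzero as a rational function. -/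
theorem algebraMap_den_ne_zero : algebraMap K₀[X] (RatFunc K₀) C₀.den ≠ 0 :=
  (map_ne_zero_iff _ (RatFunc.algebraMap_injective K₀)).mpr C₀.den_ne_zero

/-- The rational function times its denominator is its numerator. -/
theorem phi_mul_den :
    C₀.phi * algebraMap K₀[X] (RatFunc K₀) C₀.den = algebraMap K₀[X] (RatFunc K₀) C₀.num :=
  div_mul_cancel₀ _ C₀.algebraMap_den_ne_zero

theorem dvd_eq_zero {q : K₀[X]} (hq : q.degree < C₀.num.degree) {D : ℕ}
    (h : C₀.num ∣ q * C₀.den ^ D) : q = 0 := by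
  by_contra hq0
  exact not_le.mpr hq (degree_le_of_dvd (C₀.cop.pow_right.dvd_of_dvd_mul_right h) hq0)

theorem homogeneous_eq_zero (D : ℕ) (Q : ℕ → K₀[X])
    (hQ : ∀ j, (Q j).degree < C₀.num.degree)
    (h : ∑ j ∈ Finset.range (D + 1), Q j * C₀.num ^ j * C₀.den ^ (D - j) = 0) :
    ∀ j ≤ D, Q j = 0 := by
  induction D generalizing Q with
  | zero =>
    intro j hj
    simpa [Nat.le_zero.mp hj] using h
  | succ D ih =>
    have e : ∑ j ∈ Finset.range (D + 1 + 1), Q j * C₀.num ^ j * C₀.den ^ (D + 1 - j) =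
        C₀.num * (∑ j ∈ Finset.range (D + 1), Q (j + 1) * C₀.num ^ j * C₀.den ^ (D - j))
          + Q 0 * C₀.den ^ (D + 1) := by
      rw [Finset.sum_range_succ', Finset.mul_sum]
      refine congrArg₂ (· + ·) ?_ ?_
      · refine Finset.sum_congr rfl fun j _ => ?_
        rw [show D + 1 - (j + 1) = D - j by omega, pow_succ]
        ring
      · simp
    rw [e] at h
    have h0 : Q 0 = 0 := C₀.dvd_eq_zero (hQ 0) (D := D + 1)
      ⟨-(∑ j ∈ Finset.range (D + 1), Q (j + 1) * C₀.num ^ j * C₀.den ^ (D - j)),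
        by linear_combination h⟩
    rw [h0, zero_mul, add_zero, mul_eq_zero] at h
    have := ih (fun j => Q (j + 1)) (fun j => hQ _) (h.resolve_left C₀.monic.ne_zero)
    intro j hj
    cases j with
    | zero => exact h0
    | succ j => exact this j (by omega)

theorem aeval_phi_sum_eq_zero {P : Fin C₀.m → K₀[X]}
    (h : ∑ i, aeval C₀.phi (P i) * algebraMap K₀[X] (RatFunc K₀) X ^ (i : ℕ) = 0) :
    ∀ i, P i = 0 := by
  set D := Finset.univ.sup fun i => (P i).natDegree with hD
  set Q : ℕ → K₀[X] := fun j => ∑ i : Fin C₀.m, C ((P i).coeff j) * X ^ (i : ℕ) with hQ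
  have hQd : ∀ j, (Q j).degree < C₀.num.degree := fun j => by
    refine lt_of_le_of_lt (degree_sum_le _ _) ((Finset.sup_lt_iff (bot_lt_iff_ne_bot.mpr (by
      simp [C₀.monic.ne_zero]))).mpr fun i _ => lt_of_le_of_lt (degree_C_mul_X_pow_le _ _) ?_)
    rw [degree_eq_natDegree C₀.monic.ne_zero]
    exact_mod_cast i.2
  have hinj := RatFunc.algebraMap_injective K₀
  have hsum : ∑ j ∈ Finset.range (D + 1), Q j * C₀.num ^ j * C₀.den ^ (D - j) = 0 := by
    refine hinj ?_
    rw [map_zero, ← mul_zero (algebraMap K₀[X] (RatFunc K₀) C₀.den ^ D), ← h, map_sum,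
      Finset.mul_sum]
    simp only [hQ, map_mul, map_sum, map_pow, Finset.sum_mul]
    rw [Finset.sum_comm]
    refine Finset.sum_congr rfl fun i _ => ?_
    rw [aeval_eq_sum_range' (n := D + 1) (by
      have := Finset.le_sup (f := fun i => (P i).natDegree) (Finset.mem_univ i)
      omega), Finset.sum_mul, Finset.mul_sum]
    refine Finset.sum_congr rfl fun j hj => ?_
    rw [Finset.mem_range] at hj
    rw [Algebra.smul_def, IsScalarTower.algebraMap_apply K₀ K₀[X] (RatFunc K₀),
      Polynomial.algebraMap_eq]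
    rw [show algebraMap K₀[X] (RatFunc K₀) C₀.den ^ D =
      algebraMap K₀[X] (RatFunc K₀) C₀.den ^ (D - j) *
        algebraMap K₀[X] (RatFunc K₀) C₀.den ^ j by rw [← pow_add]; congr 1; omega,
      ← C₀.phi_mul_den, mul_pow]
    ring
  intro i
  ext j
  rw [coeff_zero]
  rcases lt_or_ge D j with hj | hj
  · refine coeff_eq_zero_of_natDegree_lt ?_
    have := Finset.le_sup (f := fun i => (P i).natDegree) (Finset.mem_univ i)
    omega
  · have := congrArg (fun q => q.coeff (i : ℕ)) (C₀.homogeneous_eq_zero D Q hQd hsum j hj)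
    simpa [hQ, finsetSum_coeff, coeff_C_mul, coeff_X_pow, Fin.val_inj] using this

theorem transcendental_phi : Transcendental K₀ C₀.phi := by
  rintro ⟨p, hp, h⟩
  let P : Fin C₀.m → K₀[X] := fun i => if (i : ℕ) = 0 then p else 0
  have := C₀.aeval_phi_sum_eq_zero (P := P) (by
    refine Finset.sum_eq_zero fun i _ => ?_
    simp only [P]
    split_ifs with hi
    · rw [h, zero_mul]
    · rw [map_zero, zero_mul]) ⟨0, C₀.pos⟩
  exact hp (by simpa [P] using this)

/-- The substitution `x ↦ num/den`. -/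
def hom : RatFunc K₀ →+* RatFunc K₀ :=
  RatFunc.liftRingHom (aeval C₀.phi : K₀[X] →ₐ[K₀] RatFunc K₀).toRingHom fun p hp => by
    simp only [Submonoid.mem_comap, mem_nonZeroDivisors_iff_ne_zero] at hp ⊢
    exact fun h => hp (not_not.mp fun h0 => C₀.transcendental_phi ⟨p, h0, h⟩)

@[simp] theorem hom_algebraMap (p : K₀[X]) :
    C₀.hom (algebraMap K₀[X] (RatFunc K₀) p) = aeval C₀.phi p := by
  simp [hom, RatFunc.liftRingHom_apply]

/-- The substitution fixes constants. -/
@[simp] theorem hom_C (a : K₀) : C₀.hom (RatFunc.C a) = RatFunc.C a := by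
  rw [← RatFunc.algebraMap_C, C₀.hom_algebraMap, aeval_C]
  rw [RatFunc.algebraMap_C]
  rfl

/-- The substitution sends `x` to `num / den`. -/
theorem hom_X : C₀.hom (RatFunc.X) = C₀.phi := by
  rw [← RatFunc.algebraMap_X, C₀.hom_algebraMap, aeval_X]

/-- The equation of `t` over `K₀(x)`. -/
def eqn : (RatFunc K₀)[X] :=
  C₀.num.map RatFunc.C - C RatFunc.X * C₀.den.map RatFunc.C

theorem degree_CX_mul_den_lt :
    (C (RatFunc.X : RatFunc K₀) * C₀.den.map RatFunc.C).degree <
      (C₀.num.map (RatFunc.C : K₀ →+* RatFunc K₀)).degree := by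
  rw [degree_C_mul RatFunc.X_ne_zero, degree_map, degree_map]
  exact C₀.deg_lt

theorem eqn_monic : C₀.eqn.Monic :=
  (C₀.monic.map _).sub_of_left C₀.degree_CX_mul_den_lt

theorem natDegree_eqn : C₀.eqn.natDegree = C₀.m := by
  unfold eqn
  rw [natDegree_eq_of_degree_eq (degree_sub_eq_left_of_degree_lt C₀.degree_CX_mul_den_lt),
    natDegree_map]

theorem eval₂_eqn : C₀.eqn.eval₂ C₀.hom RatFunc.X = 0 := by
  have h : ∀ q : K₀[X], (q.map RatFunc.C).eval₂ C₀.hom RatFunc.X =
      algebraMap K₀[X] (RatFunc K₀) q := fun q => by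
    rw [eval₂_map, show C₀.hom.comp (RatFunc.C : K₀ →+* RatFunc K₀) = RatFunc.C from
      RingHom.ext C₀.hom_C]
    induction q using Polynomial.induction_on' with
    | add p q hp hq => rw [eval₂_add, hp, hq, map_add]
    | monomial n a =>
      rw [eval₂_monomial, ← C_mul_X_pow_eq_monomial, map_mul, map_pow, RatFunc.algebraMap_C,
        RatFunc.algebraMap_X]
  rw [eqn, eval₂_sub, eval₂_mul, eval₂_C, h, h, C₀.hom_X, C₀.phi_mul_den, sub_self]

theorem linearIndependent_pow (c : Fin C₀.m → RatFunc K₀)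
    (h : ∑ i, C₀.hom (c i) * RatFunc.X ^ (i : ℕ) = 0) : ∀ i, c i = 0 := by
  classical
  set Q := ∏ i, (c i).denom
  have hinj := RatFunc.algebraMap_injective K₀
  have hP := C₀.aeval_phi_sum_eq_zero (P := fun i => (c i).num * ∏ j ∈ Finset.univ.erase i,
      (c j).denom) (by
    rw [← mul_zero (C₀.hom (algebraMap K₀[X] (RatFunc K₀) Q)), ← h, Finset.mul_sum]
    refine Finset.sum_congr rfl fun i _ => ?_
    rw [← C₀.hom_algebraMap, RatFunc.algebraMap_X, ← mul_assoc, ← map_mul]
    congr 2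
    have hQ : Q = (c i).denom * ∏ j ∈ Finset.univ.erase i, (c j).denom :=
      (Finset.mul_prod_erase _ (fun j => (c j).denom) (Finset.mem_univ i)).symm
    rw [hQ, map_mul, map_mul]
    conv_rhs => arg 2; rw [← RatFunc.num_div_denom (c i)]
    field_simp [(map_ne_zero_iff _ hinj).mpr (RatFunc.denom_ne_zero (c i))])
  intro i
  have := hP i
  rw [mul_eq_zero, Finset.prod_eq_zero_iff] at this
  rcases this with h1 | ⟨j, -, h1⟩
  · exact RatFunc.num_eq_zero_iff.mp h1
  · exact absurd h1 (RatFunc.denom_ne_zero _)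

/-- `K₀(x)[t]/(eqn)` maps isomorphically to `K₀(t)`. -/
def lift : AdjoinRoot C₀.eqn →+* RatFunc K₀ :=
  AdjoinRoot.lift C₀.hom RatFunc.X C₀.eval₂_eqn

theorem lift_bijective : Function.Bijective C₀.lift := by
  have hinj : Function.Injective C₀.lift := by
    rw [injective_iff_map_eq_zero]
    intro y hy
    obtain ⟨p, rfl⟩ := AdjoinRoot.mk_surjective y
    rw [AdjoinRoot.mk_eq_zero, ← modByMonic_eq_zero_iff_dvd C₀.eqn_monic]
    set r := p %ₘ C₀.eqn with hr
    have hr0 : r.eval₂ C₀.hom RatFunc.X = 0 := by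
      rw [lift, AdjoinRoot.lift_mk, ← modByMonic_add_div p C₀.eqn, eval₂_add, eval₂_mul,
        C₀.eval₂_eqn, zero_mul, add_zero] at hy
      exact hy
    have hne : C₀.eqn ≠ 1 := fun h => C₀.pos.ne' (by
      show C₀.m = 0
      rw [← C₀.natDegree_eqn, h, natDegree_one])
    have hdeg : r.natDegree < C₀.m := by
      have := natDegree_modByMonic_lt p C₀.eqn_monic hne
      rwa [C₀.natDegree_eqn, ← hr] at this
    rw [eval₂_eq_sum_range' _ hdeg, Finset.sum_range] at hr0
    ext i
    rw [coeff_zero]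
    rcases lt_or_ge i C₀.m with hi | hi
    · exact C₀.linearIndependent_pow (fun i => r.coeff i) hr0 ⟨i, hi⟩
    · exact coeff_eq_zero_of_natDegree_lt (by omega)
  have : IsDomain (AdjoinRoot C₀.eqn) := hinj.isDomain C₀.lift
  have : Module.Finite (RatFunc K₀) (AdjoinRoot C₀.eqn) :=
    Module.Finite.of_basis (AdjoinRoot.powerBasis' C₀.eqn_monic).basis
  refine ⟨hinj, fun f => ?_⟩
  have hF : IsField (AdjoinRoot C₀.eqn) :=
    isField_of_isIntegral_of_isField' (R := RatFunc K₀) (Field.toIsField _)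
  let := hF.toField
  have hX : ∀ q : K₀[X], algebraMap K₀[X] (RatFunc K₀) q ∈ C₀.lift.range := fun q => by
    induction q using Polynomial.induction_on' with
    | add p q hp hq => rw [map_add]; exact add_mem hp hq
    | monomial n a =>
      rw [← C_mul_X_pow_eq_monomial, map_mul, map_pow, RatFunc.algebraMap_C, RatFunc.algebraMap_X]
      refine mul_mem (RingHom.mem_range.mpr ⟨AdjoinRoot.of _ (RatFunc.C a), ?_⟩)
        (pow_mem (RingHom.mem_range.mpr ⟨AdjoinRoot.root _, ?_⟩) n)
      · rw [lift, AdjoinRoot.lift_of, C₀.hom_C]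
      · rw [lift, AdjoinRoot.lift_root]
  obtain ⟨a, ha⟩ := hX f.num
  obtain ⟨b, hb⟩ := hX f.denom
  exact ⟨a / b, by rw [map_div₀, ha, hb, RatFunc.num_div_denom]⟩

/-- The inverse isomorphism `K₀(t) ≅ K₀(x)[t]/(eqn)`. -/
def toRoot : RatFunc K₀ →+* AdjoinRoot C₀.eqn :=
  (RingEquiv.ofBijective C₀.lift C₀.lift_bijective).symm.toRingHom

theorem lift_toRoot (f : RatFunc K₀) : C₀.lift (C₀.toRoot f) = f :=
  (RingEquiv.ofBijective C₀.lift C₀.lift_bijective).apply_symm_apply f

theorem toRoot_hom (f : RatFunc K₀) : C₀.toRoot (C₀.hom f) = AdjoinRoot.of _ f :=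
  C₀.lift_bijective.1 (by rw [C₀.lift_toRoot, lift, AdjoinRoot.lift_of])

theorem toRoot_X : C₀.toRoot RatFunc.X = AdjoinRoot.root _ :=
  C₀.lift_bijective.1 (by rw [C₀.lift_toRoot, lift, AdjoinRoot.lift_root])

/-- Coordinates in `1, t, …, t^(m-1)`. -/
theorem exists_coords (f : RatFunc K₀) :
    ∃ c : Fin C₀.m → RatFunc K₀, f = ∑ i, C₀.hom (c i) * RatFunc.X ^ (i : ℕ) := by
  obtain ⟨p, hp⟩ := AdjoinRoot.mk_surjective (C₀.toRoot f)
  have hne : C₀.eqn ≠ 1 := fun h => C₀.pos.ne' (by
    show C₀.m = 0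
    rw [← C₀.natDegree_eqn, h, natDegree_one])
  refine ⟨fun i => (p %ₘ C₀.eqn).coeff i, ?_⟩
  have hdeg := natDegree_modByMonic_lt p C₀.eqn_monic hne
  rw [C₀.natDegree_eqn] at hdeg
  calc f = C₀.lift (C₀.toRoot f) := (C₀.lift_toRoot f).symm
    _ = p.eval₂ C₀.hom RatFunc.X := by rw [← hp, lift, AdjoinRoot.lift_mk]
    _ = (p %ₘ C₀.eqn).eval₂ C₀.hom RatFunc.X := by
      conv_lhs => rw [← modByMonic_add_div p C₀.eqn]
      rw [eval₂_add, eval₂_mul, C₀.eval₂_eqn, zero_mul, add_zero]
    _ = _ := by rw [eval₂_eq_sum_range' _ hdeg, Finset.sum_range]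

end RatCover

end Fermat.Agent.EichlerShimura
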